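import Fermat.Agent.LT.Theta.Series
import Fermat.Agent.LT.Theta.Nonzero

/-!
# Theta: archimedean Fourier series with given coefficients

`ser D e x = ∑ e α * archW α x`; for coefficients bounded and supported in a
lattice it is continuous, an eigenfunction of the archimedean operators, with mean zero along the
horospheres, and it vanishes identically only if all coefficients vanish.
-/

set_option autoImplicit false

open NumberField Filter MeasureTheory Topology
open scoped Classical

noncomputable section

namespace Fermat.LTG.Theta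

open Fermat.LT Fermat.LT.Theta
open Fermat.LT.Mult (emb chi meanM Per par tlift tmeas rep)

variable {F : Type} [Field F] [NumberField F] [IsTotallyComplex F] {S : Set (Place F)} [Finite S]
  {D : LDat S} {e : Fˣ → ℂ}

variable (D) in
/-- The coefficients are bounded and supported in a lattice. -/
def IsCf (e : Fˣ → ℂ) : Prop :=
  ∃ (C : ℝ) (M : ℕ), M ≠ 0 ∧ ∀ α, ‖e α‖ ≤ C ∧ (e α ≠ 0 → ((D.δ : F) * α) ∈ fracLat (F := F) M)

variable (D) in
/-- The sum over `α` of `e α` times the archimedean part. -/
def ser (e : Fˣ → ℂ) (x : InfinitePlace F → H3) : ℂ := ∑' α : Fˣ, e α * archW D α x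

/-- The terms are dominated by a summable majorant. -/
lemma IsCf.majorant (he : IsCf D e) : ∃ (B : Fˣ → ℝ → ℝ) (M : ℕ), M ≠ 0 ∧
    (∀ (α : Fˣ) (x : InfinitePlace F → H3) (t₀ : ℝ), (∀ w, t₀ ≤ (H3.coord (x w)).2) →
      ‖e α * archW D α x‖ ≤ B α t₀) ∧ ∀ t₀ : ℝ, 0 < t₀ → Summable fun α => B α t₀ := by
  obtain ⟨C, M, hM, he⟩ := he
  have hC : 0 ≤ C := (norm_nonneg _).trans (he 1).1
  refine ⟨fun α t₀ => C / wBound S * major D M t₀ α, M, hM, fun α x t₀ hx => ?_,
    fun t₀ ht => (summable_major D hM ht).mul_left _⟩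
  rcases eq_or_ne (e α) 0 with h | h
  · rw [h, zero_mul, norm_zero]
    exact mul_nonneg (div_nonneg hC (wBound_pos S).le) (major_nonneg D M t₀ α)
  dsimp only
  rw [major, Set.indicator_of_mem
    (show α ∈ {α : Fˣ | ((D.δ : F) * α) ∈ fracLat (F := F) M} from (he α).2 h),
      norm_mul, ← mul_assoc,
    div_mul_cancel₀ C (wBound_pos S).ne']
  exact mul_le_mul (he α).1 (norm_archW_le D α hx) (norm_nonneg _) hC

/-- The series converges absolutely. -/
lemma IsCf.summable (he : IsCf D e) (x : InfinitePlace F → H3) :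
    Summable fun α : Fˣ => e α * archW D α x := by
  obtain ⟨B, M, -, h, hs⟩ := he.majorant
  obtain ⟨t₀, ht, hx⟩ := exists_height_le x
  exact Summable.of_norm_bounded (hs t₀ ht) fun α => h α x t₀ hx

/-- Boundedness above a positive height. -/
theorem exists_bound_ser (he : IsCf D e) {t₀ : ℝ} (ht : 0 < t₀) :
    ∃ C : ℝ, ∀ x, (∀ w, t₀ ≤ (H3.coord (x w)).2) → ‖ser D e x‖ ≤ C := by
  obtain ⟨B, M, -, h, hs⟩ := he.majorant
  exact ⟨∑' α, B α t₀, fun x hx => tsum_of_norm_bounded (hs t₀ ht).hasSum fun α => h α x t₀ hx⟩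

/-- The series is continuous. -/
theorem continuous_ser (he : IsCf D e) : Continuous (ser D e) := by
  refine continuous_iff_continuousAt.2 fun x₀ => ?_
  obtain ⟨t₀, ht, hx⟩ := exists_height_le x₀
  obtain ⟨B, M, -, h, hs⟩ := he.majorant
  set U := {x : InfinitePlace F → H3 | ∀ w, t₀ / 2 < (H3.coord (x w)).2}
  have hU : U ∈ 𝓝 x₀ := by
    refine eventually_all.2 fun w => ?_
    exact ((continuous_coord.snd.comp (continuous_apply w)).continuousAt).eventually_const_lt
      (lt_of_lt_of_le (half_lt_self ht) (hx w))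
  refine (continuousOn_tsum (s := U) (fun α =>
    (continuous_const.mul (continuous_archW D α)).continuousOn)
    (hs _ (half_pos ht)) fun α x hx' => h α x _ fun w => (hx' w).le).continuousAt hU

/-- The series is an eigenfunction of the archimedean operators. -/
theorem arch_ser (he : IsCf D e) (w : InfinitePlace F) (k : ℝ → ℝ) (hk : Continuous k)
    (hs : HasCompactSupport k) (x : InfinitePlace F → H3) :
    hIntegral (fun y => (k (coshd (x w) y) : ℂ) * ser D e (Function.update x w y))
      = hhat0 k * ser D e x := by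
  obtain ⟨B, M, -, hbd, hsum⟩ := he.majorant
  exact arch_tsum D hbd hsum (continuous_ser he) w k hk hs x

/-! ### the means -/

omit [Finite ↑S] in
/-- The terms are periodic modulo `M`. -/
lemma per_term {M : ℕ} {α : Fˣ} {β : F}
    (hα : ((D.δ : F) * α) ∈ fracLat (F := F) M) (hβ : β = 0 ∨ β ∈ fracLat (F := F) M) :
    Per M fun z : InfinitePlace F → ℂ => chi (emb ((D.δ : F) * α - β) * z) :=
  per_chi_of_integral fun v => by
    rw [mul_sub]
    refine ((v.valuation F).map_sub _ _).trans (max_le (hα v) ?_)
    rcases hβ with rfl | h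
    · simp
    · exact h v

/-- The mean along a horosphere against a character is one coefficient. -/
lemma meanM_ser (he : IsCf D e) {M : ℕ} (hM : M ≠ 0)
    (hsupp : ∀ α, e α ≠ 0 → ((D.δ : F) * α) ∈ fracLat (F := F) M) {β : F}
    (hβ : β = 0 ∨ β ∈ fracLat (F := F) M) {t : InfinitePlace F → ℝ} (ht : ∀ w, 0 < t w) :
    meanM M (fun z => chi (-(emb β * z)) * ser D e fun w => H3.mk (z w) (t w))
      = ∑' α : Fˣ, if (D.δ : F) * α = β then
          e α * ∏ w : InfinitePlace F, ((archRho (‖w.embedding ((D.δ : F) * α)‖ * t w) : ℝ) : ℂ)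
        else 0 := by
  set R : Fˣ → ℂ := fun α => ∏ w : InfinitePlace F,
    ((archRho (‖w.embedding ((D.δ : F) * α)‖ * t w) : ℝ) : ℂ)
  set G : Fˣ → (InfinitePlace F → ℂ) → ℂ := fun α z =>
    e α * R α * chi (emb ((D.δ : F) * α - β) * z) with hG
  have harch : ∀ (α : Fˣ) (z : InfinitePlace F → ℂ),
      archW D α (fun w => H3.mk (z w) (t w)) = R α * chi (emb ((D.δ : F) * α) * z) := fun α z => by
    rw [← prod_eC, ← Finset.prod_mul_distrib]
    refine Finset.prod_congr rfl fun w _ => ?_
    rw [hW, H3.coord_mk_of_pos _ (ht w)]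
    rfl
  -- expand the series termwise
  have hsum : (fun z => chi (-(emb β * z)) * ser D e fun w => H3.mk (z w) (t w))
      = fun z => ∑' α, G α z := funext fun z => by
    rw [ser, ← tsum_mul_left]
    refine tsum_congr fun α => ?_
    rw [harch, hG]
    dsimp only
    rw [show emb ((D.δ : F) * α - β) * z = -(emb β * z) + emb ((D.δ : F) * α) * z by
      rw [map_sub, sub_mul]; ring, Mult.chi_add]
    ring
  obtain ⟨B, M', -, hbd, hs⟩ := he.majorant
  obtain ⟨w₀, -, hmin⟩ := Finset.exists_min_image (Finset.univ : Finset (InfinitePlace F)) t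
    Finset.univ_nonempty
  have hle : ∀ α z, ‖G α z‖ ≤ B α (t w₀) := fun α z => by
    refine le_of_eq_of_le ?_ (hbd α (fun w => H3.mk (z w) (t w)) (t w₀) fun w => by
      rw [H3.coord_mk_of_pos _ (ht w)]; exact hmin w (Finset.mem_univ w))
    rw [harch, hG]
    simp only [norm_mul, Mult.norm_chi, mul_one]
  have hcont : ∀ α, Measurable fun q : Mult.Tor F => tlift M (G α) q := fun α => by
    refine ((measurable_const.mul ?_) : Measurable fun q : Mult.Tor F =>
      e α * R α * chi (emb ((D.δ : F) * α - β) * par M fun i => rep (q i)))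
    exact (Mult.continuous_chi.comp ((continuous_const.mul continuous_id).comp
      (Mult.continuous_par M))).measurable.comp
      (measurable_pi_lambda _ fun i => Mult.measurable_rep.comp (measurable_pi_apply i))
  have hint : ∀ α, Integrable (fun q => tlift M (G α) q) (tmeas F) := fun α =>
    Integrable.of_bound (hcont α).aestronglyMeasurable (B α (t w₀))
      (Eventually.of_forall fun q => hle α _)
  -- exchange sum and mean
  have hkey : ∫ q, ∑' α, tlift M (G α) q ∂tmeas F = ∑' α, ∫ q, tlift M (G α) q ∂tmeas F := by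
    have : Countable Fˣ :=
      Function.Injective.countable (f := fun a : Fˣ => (a : F)) Units.val_injective
    refine (integral_tsum_of_summable_integral_norm hint ?_).symm
    refine Summable.of_nonneg_of_le (fun α => integral_nonneg fun q => norm_nonneg _) (fun α => ?_)
      ((hs _ (ht w₀)).mul_left ((tmeas F).real Set.univ))
    rw [← smul_eq_mul, ← integral_const]
    exact integral_mono (hint α).norm (integrable_const _) fun q => hle α _
  rw [hsum, meanM]
  simp only [tlift] at hkey ⊢
  rw [hkey]
  refine tsum_congr fun α => ?_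
  have e1 : ∫ q, G α (par M fun i => rep (q i)) ∂tmeas F
      = e α * R α * meanM M (fun z => chi (emb ((D.δ : F) * α - β) * z)) := by
    rw [meanM, ← integral_const_mul]
    rfl
  -- each term is a mean of a character
  rw [e1]
  split_ifs with h
  · have h1 : meanM M (fun z : InfinitePlace F → ℂ => chi (emb ((D.δ : F) * α - β) * z)) = 1 := by
      rw [h, sub_self, meanM]
      simp [tlift]
    rw [h1, mul_one]
  · by_cases hα : e α = 0
    · rw [hα, zero_mul, zero_mul]
    rw [meanM_chi_eq_zero hM (sub_ne_zero.2 h) (per_term (hsupp α hα) hβ), mul_zero]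

/-- **The series determines the coefficients.** -/
theorem exists_ser_ne_zero (he : IsCf D e) {α₀ : Fˣ} (h0 : e α₀ ≠ 0) : ∃ x, ser D e x ≠ 0 := by
  by_contra hall
  push Not at hall
  obtain ⟨C, M, hM, hC⟩ := id he
  have ht : ∀ _w : InfinitePlace F, (0 : ℝ) < 1 := fun _ => one_pos
  have h := meanM_ser he hM (fun α => (hC α).2) (β := (D.δ : F) * α₀) (Or.inr ((hC α₀).2 h0)) ht
  rw [tsum_eq_single α₀ fun α hα => if_neg fun hh =>
    hα (Units.ext (mul_left_cancel₀ D.δ.ne_zero hh)), if_pos rfl] at h
  simp only [hall, mul_zero, meanM, tlift, integral_zero] at h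
  refine mul_ne_zero h0 (Finset.prod_ne_zero_iff.2 fun w _ => Complex.ofReal_ne_zero.2
    (archRho_pos ?_).ne') h.symm
  rw [mul_one]
  exact norm_pos_iff.2 (emb_mul_ne_zero D α₀ w)

end Fermat.LTG.Theta
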