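import Fermat.Agent.LTG.Theta.Setup
import Fermat.Agent.LTG.Theta.Ser

/-!
# Theta: series with coefficients, the Borel law

`gphi c q = ∑ c α * (∏_{v ∉ S} W_v (diag α • q_v)) * archW α q`.
-/

set_option autoImplicit false
set_option linter.unusedSectionVars false

open NumberField Filter
open scoped Classical

noncomputable section

namespace Fermat.LTG.Theta

open Fermat.LT Fermat.LT.Theta Fermat.CFT
open Fermat.LT.Mult (psi cnd emb chi chiF)

variable {F M : Type} [Field F] [NumberField F] [IsTotallyComplex F] [Field M] [NumberField M]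
  [Algebra F M] [IsGalois F M] {σ : M ≃ₐ[F] M} {lam : Pl F → ℝ} (T : Frame σ lam)

/-- The points the series lives on. -/
abbrev Pt0 (F : Type) [Field F] [NumberField F] : Type _ := Fermat.LT.Pt F (∅ : Set (Pl F))

/-- The finite points. -/
abbrev FinPt0 (F : Type) [Field F] [NumberField F] : Type _ :=
  Fermat.LT.FinPt F (∅ : Set (Pl F))

namespace Frame

/-- The local factor outside `S`. -/
def fS (α : Fˣ) (ω : FinPt0 F) (v : Pl F) : ℂ :=
  if v ∈ T.S then 1 else T.dat.W v (upMat α 0 • ω.1 v)

/-- The finite part outside `S`. -/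
def finS (α : Fˣ) (ω : FinPt0 F) : ℂ := ∏ᶠ v : Pl F, T.fS α ω v

/-- The series with coefficients `c`, weighted by the finite part off `S`. -/
def gphi (c : Fˣ → ℂ) (p : Pt0 F) : ℂ := ser T.dat (fun α => c α * T.finS α p.1) p.2

/-- The product over `S` of the local additive characters `psiD`. -/
def psS (b : F) : ℂ := ∏ v ∈ T.S, psiD T.δ v b

/-- Bounded coefficients with orders at `S` bounded below on their support. -/
def IsCoef (c : Fˣ → ℂ) : Prop :=
  ∃ (B : ℝ) (C : ℕ), ∀ α : Fˣ, ‖c α‖ ≤ B ∧
    (c α ≠ 0 → ∀ v ∈ T.S, -(C : ℤ) ≤ CFT.ord v (α : F))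

/-- The character at `S` is additive. -/
lemma psS_add (a b : F) : T.psS (a + b) = T.psS a * T.psS b := by
  simp only [psS, psiD_add, Finset.prod_mul_distrib]

/-- The character at `S` has absolute value one. -/
lemma norm_psS (b : F) : ‖T.psS b‖ = 1 := by
  rw [psS, norm_prod]
  exact Finset.prod_eq_one fun v _ => Fermat.LT.Theta.norm_psi v _

/-- The character at `S` is one at `0`. -/
@[simp] lemma psS_zero : T.psS 0 = 1 := by simp [psS]

/-- The character at `S` is trivial on the elements of small valuation at every place of `S`. -/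
lemma psS_eq_one {b : F} (h : ∀ v ∈ T.S, v.valuation F b ≤ WithZero.exp (eL T.δ v)) : T.psS b = 1 :=
  Finset.prod_eq_one fun v hv => psiD_of_le T.δ (h v hv)

/-- The local factors outside `S` of a coefficient are almost all trivial. -/
lemma finite_fS (α : Fˣ) (ω : FinPt0 F) : (Function.mulSupport fun v => T.fS α ω v).Finite :=
  (finite_mulSupport_W T.dat α ω).subset fun v hv hc => hv (by
    change T.fS α ω v = 1
    unfold fS
    split_ifs
    · rfl
    · exact hc)

/-- The finite part outside `S` is bounded by the uniform bound of the local factors. -/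
lemma norm_finS_le (α : Fˣ) (ω : FinPt0 F) : ‖T.finS α ω‖ ≤ wBound (∅ : Set (Pl F)) := by
  set P := (LDat.finite_small (∅ : Set (Pl F))).toFinset
  set V := (T.finite_fS α ω).toFinset ∪ P
  rw [finS, finprod_eq_prod_of_mulSupport_subset (s := V) _ (fun v hv =>
    Finset.mem_union_left _ ((Set.Finite.mem_toFinset _).2 hv)), norm_prod]
  calc ∏ v ∈ V, ‖T.fS α ω v‖ ≤ ∏ v ∈ V, if v ∈ P then (3 : ℝ) else 1 := by
        refine Finset.prod_le_prod (fun v _ => norm_nonneg _) fun v _ => ?_
        unfold fS
        split_ifs <;> first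
          | simp
          | exact (norm_W_le T.dat v _).trans_eq (by simp_all [P, Set.Finite.mem_toFinset])
    _ = wBound (∅ : Set (Pl F)) := by
      rw [Finset.prod_ite_mem, Finset.inter_eq_right.2 Finset.subset_union_right, Finset.prod_const]
      rfl

variable {T}

/-- The coefficients of the series at a point. -/
lemma IsCoef.isCf {c : Fˣ → ℂ} (hc : T.IsCoef c) (ω : FinPt0 F) :
    IsCf T.dat (fun α => c α * T.finS α ω) := by
  obtain ⟨B, C, hC⟩ := hc
  choose a x k hk hy using fun v => exists_repr T.dat.h3 (ω.1 v)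
  set V := (eventually_cofinite.1 ω.2).toFinset ∪ T.S ∪
    (eventually_cofinite.1 (Mult.eventually_cnd_eq_zero (F := F))).toFinset with hV
  obtain ⟨N, hN, hNv⟩ := exists_nat_small (F := F)
    (fun v => if v ∈ V then
      (1 + cnd v + |CFT.ord v (a v : F)| + C + |CFT.ord v (T.δ : F)|).toNat else 0)
    (V.finite_toSet.subset fun v hv => by by_contra h; exact hv (if_neg h))
  refine ⟨B * wBound (∅ : Set (Pl F)), N, hN, fun α => ⟨?_, fun hα v => ?_⟩⟩
  · rw [norm_mul]
    exact mul_le_mul (hC α).1 (T.norm_finS_le α ω) (norm_nonneg _)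
      ((norm_nonneg _).trans (hC α).1)
  rw [map_mul, show T.dat.δ = T.δ from rfl]
  have hδα := mul_ne_zero T.δ.ne_zero α.ne_zero
  -- at the bad places
  by_cases hS : v ∈ T.S
  · have hvV : v ∈ V := Finset.mem_union_left _ (Finset.mem_union_right _ hS)
    have h2 := hNv v
    rw [if_pos hvV] at h2
    refine (mul_le_mul' h2 le_rfl).trans ?_
    rw [CFT.valuation_eq_exp_neg_ord v hδα,
      CFT.ord_mul v T.δ.ne_zero α.ne_zero, ← WithZero.exp_add, ← WithZero.exp_zero,
      WithZero.exp_le_exp]
    have := (hC α).2 (left_ne_zero_of_mul hα) v hS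
    have := neg_abs_le (CFT.ord v (T.δ : F))
    have := abs_nonneg (CFT.ord v (a v : F))
    omega
  have hW : T.dat.W v (upMat α 0 • ω.1 v) ≠ 0 := fun h => right_ne_zero_of_mul hα
    (finprod_eq_zero _ v (by rw [fS, if_neg hS]; exact h) (T.finite_fS α ω))
  have heL := T.eL_off v hS
  -- elsewhere the local factor bounds the order
  by_cases hv : v ∈ V
  · rw [hy v, MulAction.Quotient.smul_coe, smul_eq_mul, ← mul_assoc, upMat_mul, LDat.W,
      locW_eq T.dat.h3 T.dat.δ T.dat.c T.dat.N T.dat.hN (hk v) rfl] at hW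
    have h := (le_ord_of_hfun_ne_zero T.dat.δ T.dat.c T.dat.N (right_ne_zero_of_mul hW)).1
    rw [show T.dat.δ = T.δ from rfl, heL, Units.val_mul, CFT.ord_mul v α.ne_zero (a v).ne_zero] at h
    have h2 := hNv v
    rw [if_pos hv] at h2
    refine (mul_le_mul' h2 le_rfl).trans ?_
    rw [CFT.valuation_eq_exp_neg_ord v hδα,
      CFT.ord_mul v T.δ.ne_zero α.ne_zero, ← WithZero.exp_add, ← WithZero.exp_zero,
        WithZero.exp_le_exp]
    have := le_abs_self (CFT.ord v (a v : F))
    have := neg_abs_le (CFT.ord v (T.δ : F))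
    omega
  · simp only [hV, Finset.mem_union, Set.Finite.mem_toFinset, Set.mem_ofPred_eq, not_or,
      not_not] at hv
    obtain ⟨⟨h1, -⟩, hcn⟩ := hv
    rw [h1, MulAction.Quotient.smul_coe, smul_eq_mul, mul_one, LDat.W,
      locW_upMat T.dat.h3 T.dat.δ T.dat.c T.dat.N T.dat.hN] at hW
    have h := (le_ord_of_hfun_ne_zero T.dat.δ T.dat.c T.dat.N (right_ne_zero_of_mul hW)).2
      (Set.notMem_empty v)
    rw [show T.dat.δ = T.δ from rfl, heL] at h
    rw [eL, hcn] at heL
    refine (mul_le_of_le_one_left' ?_).trans ?_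
    · exact_mod_cast v.valuation_le_one (K := F) (N : 𝓞 F)
    rw [CFT.valuation_eq_exp_neg_ord v hδα,
      CFT.ord_mul v T.δ.ne_zero α.ne_zero, ← WithZero.exp_zero, WithZero.exp_le_exp]
    omega

variable (T)

/-- The coefficients moved by `β` and multiplied by the character of the translation `z`. -/
def shiftC (β : Fˣ) (z : F) (c : Fˣ → ℂ) (α : Fˣ) : ℂ :=
  c (α * β⁻¹) * T.psS (-((α * β⁻¹ : Fˣ) : F) * z)

/-- Shifted coefficient functions are coefficient functions. -/
lemma isCoef_shiftC {c : Fˣ → ℂ} (hc : T.IsCoef c) (β : Fˣ) (z : F) :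
    T.IsCoef (T.shiftC β z c) := by
  obtain ⟨B, C, hC⟩ := hc
  obtain ⟨N, hN⟩ := Finset.bddAbove (T.S.image fun v => (|CFT.ord v (β : F)|).toNat)
  refine ⟨B, C + N, fun α => ⟨?_, fun hα v hv => ?_⟩⟩
  · rw [shiftC, norm_mul, T.norm_psS, mul_one]; exact (hC _).1
  have h := (hC _).2 (left_ne_zero_of_mul hα) v hv
  rw [Units.val_mul, Units.val_inv_eq_inv_val, CFT.ord_mul v α.ne_zero (inv_ne_zero β.ne_zero),
    CFT.ord_inv] at h
  have := hN (Finset.mem_coe.2 (Finset.mem_image_of_mem _ hv))
  have := le_abs_self (CFT.ord v (β : F))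
  have := neg_abs_le (CFT.ord v (β : F))
  push_cast
  omega

/-- A diagonal translation multiplies the frequency of the finite part. -/
lemma finS_diag (α β : Fˣ) (q : Pt0 F) :
    T.finS α (upMat β 0 • q).1 = T.finS (α * β) q.1 :=
  finprod_congr fun v => by
    unfold fS
    split_ifs
    · rfl
    · rw [Pt.smul_fst, FinPt.smul_apply, ← mul_smul, upMat_mul, mul_zero, zero_add]

/-- The archimedean factor absorbs a diagonal matrix into the index. -/
lemma archW_diag (α β : Fˣ) (q : Pt0 F) :
    archW T.dat α (upMat β 0 • q).2 = archW T.dat (α * β) q.2 :=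
  Finset.prod_congr rfl fun w _ => by
    rw [Pt.smul_snd, hW_smul_diag, Units.val_mul, ← map_mul, ← mul_assoc (T.dat.δ : F)]

/-- **The Borel law.** Acting by `upMat β z` on the point amounts to replacing the coefficients `c`
by `shiftC β z c`. -/
theorem gphi_upMat_smul (c : Fˣ → ℂ) (β : Fˣ) (z : F) (p : Pt0 F) :
    T.gphi c (upMat β z • p) = T.gphi (T.shiftC β z c) p := by
  -- translations multiply by the character
  have hunip : ∀ q : Pt0 F,
      T.gphi c (upMat 1 z • q) = T.gphi (fun α => c α * T.psS (-(α : F) * z)) q := fun q => by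
    refine tsum_congr fun α => ?_
    set b := (T.δ : F) * ((α : F) * z)
    have h1 : T.finS α (upMat 1 z • q).1
        = chiF b * T.psS (-(α : F) * z) * T.finS α q.1 := by
      have e : ∀ v : Pl F, T.fS α (upMat 1 z • q).1 v
          = psi v b * (if v ∈ T.S then psi v (-b) else 1) * T.fS α q.1 v := fun v => by
        unfold fS
        split_ifs
        · rw [mul_one, ← Mult.psi_add, add_neg_cancel, Mult.psi_zero]
        rw [mul_one, Pt.smul_fst, FinPt.smul_apply, ← mul_smul, upMat_mul, mul_one,
          upMat_eq_unip_mul, add_zero, mul_smul]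
        exact locW_translate T.dat.h3 T.dat.δ T.dat.c T.dat.N T.dat.hN _ _
      have hf1 : (Function.mulSupport fun v : Pl F => psi v b).Finite :=
        (finite_places_gt_one b).subset fun v hv => not_le.1 fun h => hv (Mult.psi_of_le_one h)
      have hf2 : (Function.mulSupport fun v : Pl F => if v ∈ T.S then psi v (-b) else 1).Finite :=
        T.S.finite_toSet.subset fun v hv => by by_contra h; exact hv (if_neg h)
      rw [finS, finprod_congr e, finprod_mul_distrib ((hf1.union hf2).subset
          (Function.mulSupport_mul _ _)) (T.finite_fS α q.1),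
        finprod_mul_distrib hf1 hf2, finprod_psi]
      congr 2
      rw [finprod_eq_prod_of_mulSupport_subset _ (s := T.S)
        fun v hv => by by_contra h; exact hv (if_neg h), psS]
      refine Finset.prod_congr rfl fun v hv => ?_
      rw [if_pos hv, psiD]
      congr 1
      simp only [b]; ring
    have h2 : archW T.dat α (upMat 1 z • q).2 = chi (emb b) * archW T.dat α q.2 := by
      rw [archW, archW, ← prod_eC, ← Finset.prod_mul_distrib]
      refine Finset.prod_congr rfl fun w _ => ?_
      rw [Pt.smul_snd, hW_smul_unip, Mult.emb_apply, ← map_mul, mul_assoc]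
      rfl
    dsimp only
    rw [h1, h2, show ∀ A B C E G H : ℂ, A * (B * C * E) * (G * H) = (B * G) * (A * C * E * H) from
      fun A B C E G H => by ring, chiF, ← Mult.chi_add, neg_add_cancel, Mult.chi_zero, one_mul]
  -- diagonal matrices shift the coefficients
  have hdiag : ∀ (c : Fˣ → ℂ) (q : Pt0 F),
      T.gphi c (upMat β 0 • q) = T.gphi (fun α => c (α * β⁻¹)) q := fun c q => by
    have e : ∀ α : Fˣ, c α * T.finS α (upMat β 0 • q).1 * archW T.dat α (upMat β 0 • q).2
        = (fun α => c (α * β⁻¹) * T.finS α q.1 * archW T.dat α q.2) (Equiv.mulRight β α) :=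
            fun α => by
      rw [T.finS_diag, T.archW_diag]
      simp
    exact (tsum_congr e).trans ((Equiv.mulRight β).tsum_eq
      fun α => c (α * β⁻¹) * T.finS α q.1 * archW T.dat α q.2)
  rw [upMat_eq_unip_mul, mul_smul, hunip, hdiag]
  rfl

/-! ### local operators -/

/-- The finite part away from `v`. -/
def finSne (α : Fˣ) (ω : FinPt0 F) (v : Pl F) : ℂ :=
  ∏ᶠ u : Pl F, if u = v then 1 else T.fS α ω u

/-- Changing one component off `S` changes one factor of the finite part. -/
lemma finS_set {v : Pl F} (hv : v ∉ T.S) (α : Fˣ) (ω : FinPt0 F)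
    (y : Fermat.LT.Vert (∅ : Set (Pl F)) v) :
    T.finS α (ω.set v y) = T.dat.W v (upMat α 0 • y) * T.finSne α ω v := by
  have e : ∀ u, T.fS α (ω.set v y) u
      = (if u = v then T.dat.W v (upMat α 0 • y) else 1)
        * (if u = v then 1 else T.fS α ω u) := fun u => by
    rcases eq_or_ne u v with rfl | h
    · rw [if_pos rfl, if_pos rfl, mul_one, fS, if_neg hv, FinPt.set_self]
    · rw [if_neg h, if_neg h, one_mul, fS, fS, FinPt.set_of_ne _ h]
  rw [finS, finprod_congr e, finprod_mul_distrib, finprod_eq_single _ v fun u hu => if_neg hu,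
    if_pos rfl]
  · rfl
  · exact (Set.finite_singleton v).subset fun u hu => by
      by_contra h; exact hu (if_neg h)
  · exact (T.finite_fS α ω).subset fun u hu => by
      rcases eq_or_ne u v with rfl | h
      · exact absurd (if_pos rfl) hu
      · rwa [Function.mem_mulSupport, if_neg h] at hu

/-- The local eigen equation passes to the series. -/
theorem hecke_gphi {c : Fˣ → ℂ} (hc : T.IsCoef c) {v : Pl F} (hv : v ∉ T.S) (p : Pt0 F) :
    Fermat.LT.heckeT v (T.gphi c) p = (lam v : ℂ) * T.gphi c p := by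
  have h0 : v ∉ (∅ : Set (Pl F)) := Set.notMem_empty v
  have hlam : lam v = Real.sqrt (pnorm v) * T.dat.c v := by
    change lam v = Real.sqrt (pnorm v) * (if v ∈ T.S then 0 else cOf lam v)
    rw [if_neg hv, cOf, mul_div_cancel₀ _ (sqrt_pnorm_ne_zero v)]
  rw [heckeT_eq_locAct h0]
  have h1 : ∀ y, T.gphi c (p.1.set v y, p.2)
      = ∑' α, T.dat.W v (upMat α 0 • y) * (c α * T.finSne α p.1 v * archW T.dat α p.2) := fun y =>
    tsum_congr fun α => by dsimp only; rw [T.finS_set hv]; ring
  set k := sphKer (S := (∅ : Set (Pl F))) h0 Polynomial.X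
  have hk : ∀ y₀, ∑ y ∈ k.row y₀, k y₀ y * T.dat.W v y = (lam v : ℂ) * T.dat.W v y₀ := fun y₀ => by
    rw [← locW_hecke T.dat.h3 T.dat.δ T.dat.c T.dat.N T.dat.hN h0 hlam y₀]
    refine Finset.sum_congr rfl fun y hy => ?_
    rw [sphKer_apply, kern_X, if_pos ((mem_row_sphKer_X h0).1 hy), one_mul]
  have hs : ∀ y, Summable fun α => k (p.1.1 v) y * (T.dat.W v (upMat α 0 • y)
      * (c α * T.finSne α p.1 v * archW T.dat α p.2)) := fun y => by
    refine Summable.mul_left _ (((hc.isCf (p.1.set v y)).summable p.2).congr fun α => ?_)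
    rw [T.finS_set hv]; ring
  simp only [locAct, h1, ← tsum_mul_left]
  rw [← Summable.tsum_finsetSum fun y _ => hs y, gphi, ser, ← tsum_mul_left]
  refine tsum_congr fun α => ?_
  simp only [← mul_assoc, ← Finset.sum_mul]
  rw [sum_row_smul k (upMat α 0) (T.dat.W v), hk]
  have e := T.finS_set hv α p.1 (p.1.1 v)
  rw [FinPt.set_eq_self] at e
  rw [e]
  ring

end Frame

end Fermat.LTG.Theta
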