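import Fermat.Agent.LTG.Theta.Term
import Fermat.Agent.LT.Theta.Unfold

/-!
# Theta: the coefficient at a norm as a finite sum over the exponent vectors

A semilocal factor at `S` gives a coefficient function on the norms; times the finite part outside
`S` it is a finite sum over exponent vectors of products of the semilocal factor and box factors.
-/

set_option autoImplicit false

noncomputable section

open NumberField IsDedekindDomain Fermat.CFT Filter
open scoped Pointwise Classical

namespace Fermat.LTG.Theta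

open Fermat.LT Fermat.LT.Theta

variable {F M : Type} [Field F] [NumberField F] [IsTotallyComplex F] [Field M] [NumberField M]
  [Algebra F M] [IsGalois F M] {σ : M ≃ₐ[F] M} {lam : Pl F → ℝ}

/-- The exponents allowed at a place of `S`. -/
def jS (σ : M ≃ₐ[F] M) (C : ℕ) (v : Pl F) (ξ : M) : Finset ℤ :=
  if IsNonsplit σ v then (if -(C : ℤ) ≤ CFT.ord (plOver M v) ξ then {0} else ∅)
  else Finset.Icc (-(C : ℤ) - CFT.ord (plOver M v) ξ) (CFT.ord (plConj σ v) ξ + C)

/-- A semilocal factor at `S`. -/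
structure SF (T : Frame σ lam) where
  /-- The value at given exponents and a point of `M`. -/
  E : (Pl F →₀ ℤ) → M → ℂ
  /-- The bound on the exponents in the support. -/
  C : ℕ
  /-- The bound on the values. -/
  B : ℝ
  /-- The values are at most `B` in norm. -/
  bound : ∀ τ η, ‖E τ η‖ ≤ B
  /-- The factor depends only on the exponents on `S`. -/
  loc : ∀ τ τ' : Pl F →₀ ℤ, (∀ v ∈ T.S, τ v = τ' v) → E τ = E τ'
  /-- A norm one element multiplies by its character and shifts the exponents. -/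
  mul : ∀ (μ : nKer F M) (τ : Pl F →₀ ℤ) (η : M),
    E τ (((μ : Mˣ) : M) * η) = T.chS ((μ : Mˣ) : M) * E (τ + ordT F ((μ : Mˣ) : M)) η
  /-- On the support the exponents lie in the ranges given by `C`. -/
  supp : ∀ (τ : Pl F →₀ ℤ) (ξ : Mˣ), E τ (ξ : M) ≠ 0 → ∀ v ∈ T.S, τ v ∈ jS σ C v (ξ : M)

variable {T : Frame σ lam}

namespace SF

variable (E : SF T)

/-- The bound of a semilocal factor is nonnegative. -/
lemma B_nonneg : 0 ≤ E.B := (norm_nonneg _).trans (E.bound 0 0)

/-- The exponent vectors at `S`. -/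
def sSet (ξ : M) : Finset (Pl F →₀ ℤ) := T.S.finsupp fun v => jS σ E.C v ξ

/-- The square roots of the norms at `S`. -/
def sqS (T : Frame σ lam) (α : Fˣ) : ℝ := ∏ v ∈ T.S, sqp v (CFT.ord v (α : F))

/-- The value of the coefficient at `ξ`. -/
def cv (ξ : Mˣ) : ℂ :=
  (sqS T (nrm σ ξ) : ℂ) * (T.chS (ξ : M))⁻¹ * ∑ s ∈ E.sSet (ξ : M), E.E s (ξ : M)

/-- The coefficient function of the factor, on the norms. -/
def cf (α : Fˣ) : ℂ := if h : ∃ ξ : Mˣ, nrm σ ξ = α then E.cv h.choose else 0

/-- The constant of the bound. -/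
def kS (T : Frame σ lam) (C : ℕ) : ℝ := ∏ v ∈ T.S, 3 * Real.sqrt (pnorm v) ^ ((2 * C : ℕ) : ℤ)

omit [IsGalois F M] in
/-- The constant of the bound is nonnegative. -/
lemma kS_nonneg (T : Frame σ lam) (C : ℕ) : 0 ≤ kS T C := by unfold kS; positivity

include T in
/-- The number of exponents at a place of `S` times the size factor is bounded. -/
lemma card_jS_le (C : ℕ) {v : Pl F} (ξ : Mˣ) :
    ((jS σ C v (ξ : M)).card : ℝ) * sqp v (CFT.ord v (nrm σ ξ : F))
      ≤ 3 * Real.sqrt (pnorm v) ^ ((2 * C : ℕ) : ℤ) := by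
  have hsqrt : (1 : ℝ) ≤ Real.sqrt (pnorm v) := Real.one_le_sqrt.2 (by
    exact_mod_cast (HeightOneSpectrum.one_lt_absNorm v).le)
  have hpos : (0 : ℝ) < Real.sqrt (pnorm v) := zero_lt_one.trans_le hsqrt
  have h3 : Real.sqrt (pnorm v) ^ ((2 * C : ℕ) : ℤ) ≤ 3 * Real.sqrt (pnorm v) ^ ((2 * C : ℕ) : ℤ) :=
    le_mul_of_one_le_left (zpow_nonneg hpos.le _) (by norm_num)
  have hord := T.norm_ord v ξ
  simp only [ordV] at hord
  rw [coe_nrm]
  set n := CFT.ord v (Algebra.norm F (ξ : M))
  -- nonsplit: at most one index, and `2 C` absorbs its weight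
  by_cases hns : IsNonsplit σ v
  · have hQ := T.nonsplit_ord hns (ξ : M)
    rw [jS, if_pos hns]
    by_cases hc : -(C : ℤ) ≤ CFT.ord (plOver M v) (ξ : M)
    swap
    · rw [if_neg hc, Finset.card_empty, Nat.cast_zero, zero_mul]
      exact mul_nonneg (by norm_num) (zpow_nonneg hpos.le _)
    rw [if_pos hc, Finset.card_singleton, Nat.cast_one, one_mul, sqp]
    refine (zpow_le_zpow_right₀ hsqrt ?_).trans h3
    have he : (1 : ℤ) ≤ plRamIdx F (plOver M v) := by exact_mod_cast plRamIdx_pos _
    by_contra hh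
    rw [not_le] at hh
    push_cast at hh
    nlinarith
  -- split: the count is `n + 2 C + 1`
  rw [plRamIdx_split T.H.finrank T.H.σ_ne hns (plUnder_plOver v), Nat.cast_one, one_mul] at hord
  rw [jS, if_neg hns, Int.card_Icc, show CFT.ord (plConj σ v) (ξ : M) + (C : ℤ) + 1
    - (-(C : ℤ) - CFT.ord (plOver M v) (ξ : M)) = n + 2 * C + 1 by omega]
  by_cases hm : n + 2 * C < 0
  · rw [show (n + 2 * C + 1).toNat = 0 by omega, Nat.cast_zero, zero_mul]
    exact mul_nonneg (by norm_num) (zpow_nonneg hpos.le _)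
  obtain ⟨k, hk⟩ := Int.eq_ofNat_of_zero_le (not_lt.1 hm)
  -- times the weight this is a radial value at `n + 2 C`
  have hb := (abs_radial_le (q := pnorm v) (HeightOneSpectrum.one_lt_absNorm v)
    (c := 2) (Or.inl rfl) (n + 2 * C)).1
  have hr : radial (pnorm v) 2 (n + 2 * C) = ((n + 2 * C + 1).toNat : ℝ) * sqp v (n + 2 * C) := by
    rw [radial, if_neg hm, hk, Int.toNat_natCast, chebU_two, sqp, zpow_neg, zpow_natCast,
      show ((k : ℤ) + 1).toNat = k + 1 by omega]
    push_cast; ring
  rw [hr] at hb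
  calc ((n + 2 * C + 1).toNat : ℝ) * sqp v n
      = ((n + 2 * C + 1).toNat : ℝ) * sqp v (n + 2 * C) * Real.sqrt (pnorm v) ^
          ((2 * C : ℕ) : ℤ) := by
        rw [mul_assoc, sqp, sqp, ← zpow_add₀ hpos.ne']
        congr 2
        push_cast; ring
    _ ≤ _ := mul_le_mul_of_nonneg_right ((le_abs_self _).trans hb) (zpow_nonneg hpos.le _)

/-- The number of exponent vectors at `S`, times the roots of the norms at `S`, is bounded. -/
lemma card_sSet_mul_le (ξ : Mˣ) :
    ((E.sSet (ξ : M)).card : ℝ) * sqS T (nrm σ ξ) ≤ kS T E.C := by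
  rw [sSet, Finset.card_finsupp, Nat.cast_prod, sqS, ← Finset.prod_mul_distrib]
  exact Finset.prod_le_prod (fun v _ => mul_nonneg (Nat.cast_nonneg _) (sqp_pos v _).le)
    fun v _ => card_jS_le (T := T) E.C ξ

/-- The value of the coefficient at a unit of `M` is bounded. -/
lemma norm_cv_le (ξ : Mˣ) : ‖E.cv ξ‖ ≤ E.B * kS T E.C := by
  rw [cv, norm_mul, norm_mul, norm_inv, T.norm_chS, inv_one, mul_one, Complex.norm_real,
    Real.norm_of_nonneg (show 0 ≤ sqS T (nrm σ ξ) from Finset.prod_nonneg fun v _ =>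
      (sqp_pos v _).le)]
  refine (mul_le_mul_of_nonneg_left ((norm_sum_le _ _).trans
    (Finset.sum_le_sum fun s _ => E.bound s _)) (Finset.prod_nonneg fun v _ =>
      (sqp_pos v _).le)).trans ?_
  rw [Finset.sum_const, nsmul_eq_mul, mul_comm E.B, ← mul_assoc, mul_comm (∏ v ∈ T.S, _)]
  exact mul_le_mul_of_nonneg_right (E.card_sSet_mul_le ξ) E.B_nonneg

/-- The coefficient function is bounded. -/
lemma norm_cf_le (α : Fˣ) : ‖E.cf α‖ ≤ E.B * kS T E.C := by
  unfold cf
  split_ifs
  · exact E.norm_cv_le _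
  · rw [norm_zero]; exact mul_nonneg E.B_nonneg (kS_nonneg _ _)

include T in
/-- An allowed exponent bounds the order of the norm below. -/
lemma ord_of_jS {C : ℕ} {v : Pl F} {ξ : Mˣ} {j : ℤ} (hj : j ∈ jS σ C v (ξ : M)) :
    -(2 * C : ℤ) ≤ CFT.ord v (nrm σ ξ : F) := by
  have hord := T.norm_ord v ξ
  simp only [ordV] at hord
  rw [coe_nrm]
  set n := CFT.ord v (Algebra.norm F (ξ : M))
  unfold jS at hj
  by_cases hns : IsNonsplit σ v
  · have hQ := T.nonsplit_ord hns (ξ : M)
    rw [if_pos hns] at hj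
    split_ifs at hj with hc
    · have he : (1 : ℤ) ≤ plRamIdx F (plOver M v) := by exact_mod_cast plRamIdx_pos _
      by_contra hh
      rw [not_le] at hh
      nlinarith
    · simp at hj
  · rw [plRamIdx_split T.H.finrank T.H.σ_ne hns (plUnder_plOver v), Nat.cast_one, one_mul] at hord
    rw [if_neg hns, Finset.mem_Icc] at hj
    omega

/-- The coefficient function is supported where the orders at `S` are bounded below. -/
lemma supp_cf {α : Fˣ} (h : E.cf α ≠ 0) : ∀ v ∈ T.S, -(2 * E.C : ℤ) ≤ CFT.ord v (α : F) := by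
  intro v hv
  unfold cf at h
  split_ifs at h with hex
  · have hs := right_ne_zero_of_mul h
    obtain ⟨s, hs, -⟩ := Finset.exists_ne_zero_of_sum_ne_zero hs
    rw [← hex.choose_spec]
    exact ord_of_jS (T := T) ((Finset.mem_finsupp_iff.1 hs).2 v hv)
  · exact absurd rfl h

end SF

variable {ω : FinPt0 F} (P : PDat T ω)

/-- All local parameters of `P` and the exponents of `ξ` are trivial at `v`. -/
structure Unexceptional (ξ : M) (v : Pl F) : Prop where
  /-- The place is outside `S`. -/
  notMem : v ∉ T.S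
  /-- The diagonal parameter is a unit at `v`. -/
  ord_a : CFT.ord v (P.a v : F) = 0
  /-- The unipotent parameter at `v` is zero. -/
  x_eq : P.x v = 0
  /-- The box exponent at the chosen prime is zero. -/
  k1_eq : P.k1 v = 0
  /-- The box exponent at the conjugate prime is zero. -/
  k2_eq : P.k2 v = 0
  /-- The exponents of `ξ` over `v` are zero. -/
  ordV_eq : ordV σ v ξ = 0

/-- At all but finitely many places the parameters and the element are trivial. -/
lemma finite_except (ξ : M) : {v : Pl F | ¬ Unexceptional P ξ v}.Finite := by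
  have h1 : ((fun W => plUnder F W) '' {W : Pl M | CFT.ord W ξ ≠ 0}).Finite :=
    (CFT.finite_ord_ne_zero ξ).image _
  refine eventually_cofinite.1 ?_
  filter_upwards [P.fin, T.S.finite_toSet.compl_mem_cofinite, h1.compl_mem_cofinite]
    with v ⟨a1, a2, a3, a4⟩ a5 a8
  refine ⟨a5, a1, a2, a3, a4, Prod.ext ?_ ?_⟩ <;> by_contra h
  · exact a8 ⟨plOver M v, h, plUnder_plOver v⟩
  · exact a8 ⟨plConj σ v, h, plUnder_plConj v⟩

/-- The places where something happens. -/
def vSet (ξ : M) : Finset (Pl F) := (finite_except P ξ).toFinset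

/-- Away from the exceptional places every parameter is trivial. -/
lemma of_notMem_vSet {ξ : M} {v : Pl F} (hv : v ∉ vSet P ξ) : Unexceptional P ξ v := by
  simpa [vSet] using hv

/-- The exceptional places contain `S`. -/
lemma subset_vSet (ξ : M) : T.S ⊆ vSet P ξ := fun v hv => by
  by_contra h; exact (of_notMem_vSet P h).notMem hv

/-- Away from the exceptional places only the exponent `0` occurs. -/
lemma jSet_triv {ξ : M} {v : Pl F} (hv : v ∉ vSet P ξ) : jSet P v ξ = {0} := by
  obtain ⟨-, -, -, h6, h7, h8⟩ := of_notMem_vSet P hv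
  rw [ordV, Prod.mk_eq_zero] at h8
  rw [jSet, h6, h7, h8.1, h8.2]
  split_ifs <;> simp_all

/-- Away from the exceptional places the local constant is one. -/
lemma cP_triv {ξ : M} {v : Pl F} (hv : v ∉ vSet P ξ) : cP P v = 1 := by
  obtain ⟨-, h4, -, h6, h7, -⟩ := of_notMem_vSet P hv
  rw [cP, h4, h6, h7, show ((0 : ℤ), (0 : ℤ)) = (0 : ℤ × ℤ) from rfl, T.zw_zero]
  simp [sqp]

/-- Away from the exceptional places the local factor is one. -/
lemma locT_triv {η : M} {v : Pl F} (hv : v ∉ vSet P η) : locT P v 0 η = 1 := by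
  have h1 := (of_notMem_vSet P hv).notMem
  have h5 := (of_notMem_vSet P hv).x_eq
  obtain ⟨-, -, -, h6, h7, h8⟩ := of_notMem_vSet P hv
  have hb : η ∈ box σ v (mBox P v 0) := by
    rw [show mBox P v 0 = 0 by simp [mBox, h6, h7]]
    rcases eq_or_ne η 0 with rfl | hη
    · exact zero_mem _
    rw [ordV, Prod.mk_eq_zero] at h8
    rw [mem_box_iff_ord hη, h8.1, h8.2]
    simp
  rw [locT, if_neg h1, if_neg (fun h => h.2 rfl), neg_zero,
    show ((0 : ℤ), (0 : ℤ)) = (0 : ℤ × ℤ) from rfl, T.zw_zero, if_pos hb, h5]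
  simp

variable (E : SF T)

/-- The exponents at `v`: `jS` on `S`, `jSet` off it. -/
def jAll (v : Pl F) (ξ : M) : Finset ℤ := if v ∈ T.S then jS σ E.C v ξ else jSet P v ξ

/-- The finitely many exponent vectors with entries in `jAll` at every place. -/
def tSet (ξ : M) : Finset (Pl F →₀ ℤ) := (vSet P ξ).finsupp fun v => jAll P E v ξ

/-- The product of the factors. -/
def locA (τ : Pl F →₀ ℤ) (η : M) : ℂ := E.E τ η * ∏ᶠ v, locT P v (τ v) η

/-- The local factors are trivial outside a finite set. -/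
lemma mulSupport_locT (τ : Pl F →₀ ℤ) (η : M) :
    (Function.mulSupport fun v => locT P v (τ v) η) ⊆ ↑(vSet P η ∪ τ.support) := by
  intro v hv
  by_contra h
  simp only [Finset.coe_union, Set.mem_union, Finset.mem_coe, Finsupp.mem_support_iff,
    not_or, not_not] at h
  exact hv (by change locT P v (τ v) _ = 1; rw [h.2, locT_triv P h.1])

/-- The product of the factors may be taken over any larger finite set. -/
lemma locA_eq_prod (τ : Pl F →₀ ℤ) (η : M) {V : Finset (Pl F)}
    (hV : vSet P η ∪ τ.support ⊆ V) : locA P E τ η = E.E τ η * ∏ v ∈ V, locT P v (τ v) η := by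
  rw [locA]
  congr 1
  exact finprod_eq_prod_of_mulSupport_subset _
    ((mulSupport_locT P τ η).trans (Finset.coe_subset.2 hV))

/-- The product of the factors vanishes outside the summation set. -/
lemma locA_eq_zero {τ : Pl F →₀ ℤ} {ξ : Mˣ} (hτ : τ ∉ tSet P E (ξ : M)) :
    locA P E τ (ξ : M) = 0 := by
  rw [tSet, Finset.mem_finsupp_iff, not_and_or] at hτ
  rw [locA_eq_prod P E τ _ subset_rfl]
  rcases hτ with h | h
  · obtain ⟨v, hv, hv'⟩ := Finset.not_subset.1 h
    refine mul_eq_zero_of_right _ (Finset.prod_eq_zero (Finset.mem_union_right _ hv)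
      (locT_eq_zero P (of_notMem_vSet P hv').notMem ?_))
    rw [jSet_triv P hv', Finset.mem_singleton]
    exact Finsupp.mem_support_iff.1 hv
  · push Not at h
    obtain ⟨v, hv, hv'⟩ := h
    by_cases hS : v ∈ T.S
    · refine mul_eq_zero_of_left ?_ _
      by_contra hne
      exact hv' (by rw [jAll, if_pos hS]; exact E.supp τ ξ hne v hS)
    · refine mul_eq_zero_of_right _ (Finset.prod_eq_zero (Finset.mem_union_left _ hv)
        (locT_eq_zero P hS ?_))
      rwa [jAll, if_neg hS] at hv'

/-- The local factors are bounded by one. -/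
lemma norm_locT_le (v : Pl F) (j : ℤ) (η : M) : ‖locT P v j η‖ ≤ 1 := by
  rw [locT]
  split_ifs <;> simp [T.norm_zw, psiD, Fermat.LT.Theta.norm_psi]

/-- The product of the factors is bounded by the bound of the semilocal factor. -/
lemma norm_locA_le (τ : Pl F →₀ ℤ) (η : M) : ‖locA P E τ η‖ ≤ E.B := by
  rw [locA_eq_prod P E τ η subset_rfl, norm_mul, norm_prod]
  exact (mul_le_mul (E.bound τ η)
    (Finset.prod_le_one (fun v _ => norm_nonneg _) fun v _ => norm_locT_le P v _ _)
    (Finset.prod_nonneg fun v _ => norm_nonneg _) E.B_nonneg).trans_eq (mul_one _)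

/-- The local square root factors multiply to the inverse absolute norm. -/
lemma prod_sqp (ξ : Mˣ) :
    ∏ v ∈ vSet P (ξ : M), sqp v (CFT.ord v (nrm σ ξ : F))
      = (∏ w : InfinitePlace F, w (nrm σ ξ : F))⁻¹ := by
  set α : F := (nrm σ ξ : F)
  have hα : α ≠ 0 := Units.ne_zero _
  have hpos : 0 < ∏ w : InfinitePlace F, w α :=
    Finset.prod_pos fun w _ => InfinitePlace.pos_iff.2 hα
  have h := product_formula hα
  rw [finprod_eq_prod_of_mulSupport_subset _ (s := vSet P (ξ : M)) fun v hv => by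
      by_contra hn
      refine hv ?_
      have hN := T.norm_ord v ξ
      have h1 := (of_notMem_vSet P hn).notMem
      have h8 := (of_notMem_vSet P hn).ordV_eq
      rw [h8, T.plRamIdx_off h1] at hN
      change vabs v α = 1
      rw [vabs_eq v hα, show ord (v.valuation F) α = CFT.ord v α from rfl,
        show CFT.ord v α = 0 by simpa [α] using hN, neg_zero, zpow_zero],
    Finset.prod_congr rfl fun w _ => show (w α) ^ w.mult = (w α) ^ 2 by
      rw [InfinitePlace.mult,
        if_neg (InfinitePlace.not_isReal_iff_isComplex.2 (IsTotallyComplex.isComplex w))],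
    Finset.prod_pow] at h
  set A := ∏ v ∈ vSet P (ξ : M), sqp v (CFT.ord v α)
  have hA : A ^ 2 = ∏ v ∈ vSet P (ξ : M), vabs v α := by
    rw [← Finset.prod_pow]
    refine Finset.prod_congr rfl fun v _ => ?_
    rw [sqp, ← zpow_natCast, ← zpow_mul, mul_comm, zpow_mul, zpow_natCast,
      Real.sq_sqrt (Nat.cast_nonneg _), vabs_eq v hα]
    rfl
  rw [← hA, ← mul_pow] at h
  have hA0 : 0 < A := Finset.prod_pos fun v _ => sqp_pos v _
  refine (eq_inv_of_mul_eq_one_left ?_)
  nlinarith [mul_pos hA0 hpos]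

/-- The constant of the finite part. -/
def cFin : ℂ := ∏ᶠ v, cP P v

/-- The constant of the finite part is a product over the exceptional places. -/
lemma cFin_eq (ξ : M) : cFin P = ∏ v ∈ vSet P ξ, cP P v :=
  finprod_eq_prod_of_mulSupport_subset _ fun v hv => by
    by_contra h; exact hv (cP_triv P h)

/-- The constant of the finite part is not zero. -/
lemma cFin_ne_zero : cFin P ≠ 0 := by
  rw [cFin_eq P 0]; exact Finset.prod_ne_zero_iff.2 fun v _ => cP_ne_zero P v

/-- The sum over the exponent vectors factors. -/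
lemma sum_tSet (ξ : Mˣ) :
    ∑ τ ∈ tSet P E (ξ : M), locA P E τ (ξ : M)
      = (∑ s ∈ E.sSet (ξ : M), E.E s (ξ : M)) * ∏ v ∈ vSet P (ξ : M),
          if v ∈ T.S then 1 else ∑ j ∈ jSet P v (ξ : M), locT P v j (ξ : M) := by
  set V := vSet P (ξ : M)
  set g : (Pl F →₀ ℤ) → Pl F → ℤ → ℂ := fun s v j =>
    if v ∈ T.S then (if j = s v then 1 else 0) else locT P v j (ξ : M)
  have h1 : ∀ s ∈ E.sSet (ξ : M), ∀ v ∈ V, ∑ j ∈ jAll P E v (ξ : M), g s v j
      = if v ∈ T.S then 1 else ∑ j ∈ jSet P v (ξ : M), locT P v j (ξ : M) := fun s hs v _ => by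
    unfold jAll
    by_cases hv : v ∈ T.S
    · simp only [g, if_pos hv]
      rw [Finset.sum_ite_eq', if_pos ((Finset.mem_finsupp_iff.1 hs).2 v hv)]
    · simp only [g, if_neg hv]
  -- expand the product of sums
  rw [Finset.sum_mul, Finset.sum_congr rfl fun s hs => show
    E.E s (ξ : M) * (∏ v ∈ V, if v ∈ T.S then 1 else ∑ j ∈ jSet P v (ξ : M), locT P v j (ξ : M))
      = ∑ τ ∈ tSet P E (ξ : M), E.E s (ξ : M) * ∏ v ∈ V, g s v (τ v) by
    rw [← Finset.prod_congr rfl (h1 s hs), Finset.prod_sum, tSet, Finset.finsupp, Finset.sum_map,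
      Finset.mul_sum]
    refine Finset.sum_congr rfl fun p _ => ?_
    congr 1
    rw [← Finset.prod_attach V (fun v => g s v _)]
    exact Finset.prod_congr rfl fun v _ => by
      change _ = g s v.1 (Finsupp.indicator V p v.1)
      rw [Finsupp.indicator_of_mem v.2], Finset.sum_comm]
  refine Finset.sum_congr rfl fun τ hτ => ?_
  have hτ' := Finset.mem_finsupp_iff.1 hτ
  set s₀ := τ.filter (· ∈ T.S)
  -- only the bad part of `τ` contributes
  rw [locA_eq_prod P E τ _ (V := V) (Finset.union_subset subset_rfl hτ'.1), Finset.sum_eq_single s₀]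
  · rw [E.loc τ s₀ fun v hv => by rw [Finsupp.filter_apply_pos _ _ hv]]
    congr 1
    refine Finset.prod_congr rfl fun v _ => ?_
    by_cases hv : v ∈ T.S
    · simp only [g, if_pos hv, locT, s₀, Finsupp.filter_apply_pos (· ∈ T.S) τ hv, if_true]
    · simp only [g, if_neg hv]
  · intro s hs hne
    obtain ⟨v, hv⟩ : ∃ v, s v ≠ s₀ v := by
      by_contra h; push Not at h; exact hne (Finsupp.ext h)
    by_cases hS : v ∈ T.S
    · refine mul_eq_zero_of_right _ (Finset.prod_eq_zero (subset_vSet P _ hS) ?_)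
      simp only [g, if_pos hS]
      rw [Finsupp.filter_apply_pos _ _ hS] at hv
      rw [if_neg fun e => hv e.symm]
    · refine absurd ?_ hv
      rw [Finsupp.filter_apply_neg _ _ hS]
      by_contra h0
      exact hS ((Finset.mem_finsupp_iff.1 hs).1 (Finsupp.mem_support_iff.2 h0))
  · intro h
    refine absurd (Finset.mem_finsupp_iff.2 ⟨fun v hv => ?_, fun v hv => ?_⟩) h
    · by_contra hS
      exact Finsupp.mem_support_iff.1 hv (Finsupp.filter_apply_neg _ _ hS)
    · rw [Finsupp.filter_apply_pos _ _ hv]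
      have := hτ'.2 v (subset_vSet P _ hv)
      rwa [jAll, if_pos hv] at this

/-- **The coefficient times the finite part at a norm.** -/
theorem finS_norm (ξ : Mˣ) :
    E.cv ξ * T.finS (nrm σ ξ) ω = ((∏ w : InfinitePlace F, w (nrm σ ξ : F))⁻¹ : ℝ) * cFin P
      * ∑ τ ∈ tSet P E (ξ : M), locA P E τ (ξ : M) := by
  set V := vSet P (ξ : M)
  -- outside `V` every factor is one
  have hs : ∀ v ∉ V, CFT.ord v (nrm σ ξ : F) = 0 := fun v hv => by
    have hN := T.norm_ord v ξ
    have h1 := (of_notMem_vSet P hv).notMem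
    have h8 := (of_notMem_vSet P hv).ordV_eq
    rw [h8, T.plRamIdx_off h1] at hN
    simpa using hN
  -- each local factor is a weight, a character, a constant and a local sum
  have e : ∀ v, T.fS (nrm σ ξ) ω v
      = (if v ∈ T.S then 1 else (sqp v (CFT.ord v (nrm σ ξ : F)) : ℂ)) * T.chiV v (ξ : M) * cP P v
        * (if v ∈ T.S then 1 else ∑ j ∈ jSet P v (ξ : M), locT P v j (ξ : M)) := fun v => by
    by_cases hv : v ∈ T.S
    · rw [Frame.fS, if_pos hv, if_pos hv, if_pos hv, Frame.chiV, T.zw_of_mem hv, cP_on P hv]; ring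
    · rw [Frame.fS, if_neg hv, if_neg hv, if_neg hv, W_norm P hv]
  rw [Frame.finS, finprod_congr e,
    finprod_eq_prod_of_mulSupport_subset _ (s := V) fun v hv => ?_]
  swap
  · by_contra hn
    refine hv ?_
    have h1 := (of_notMem_vSet P hn).notMem
    have h8 := (of_notMem_vSet P hn).ordV_eq
    change _ * _ * _ * _ = _
    rw [if_neg h1, if_neg h1, hs v hn, cP_triv P hn, jSet_triv P hn, Finset.sum_singleton,
      locT_triv P hn, Frame.chiV, h8, T.zw_zero]
    simp [sqp]
  -- multiply out the four products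
  rw [Finset.prod_mul_distrib, Finset.prod_mul_distrib, Finset.prod_mul_distrib,
    T.prod_chiV (ξ : M) fun v hv => (of_notMem_vSet P hv).ordV_eq,
    ← cFin_eq, sum_tSet P E ξ, ← prod_sqp P ξ, SF.cv, SF.sqS, Complex.ofReal_prod,
      Complex.ofReal_prod]
  -- split the weights into those at `T.S` and the others
  have hsplit : ∏ v ∈ V, (sqp v (CFT.ord v (nrm σ ξ : F)) : ℂ)
      = (∏ v ∈ T.S, (sqp v (CFT.ord v (nrm σ ξ : F)) : ℂ))
        * ∏ v ∈ V, if v ∈ T.S then 1 else (sqp v (CFT.ord v (nrm σ ξ : F)) : ℂ) := by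
    conv_rhs =>
      rw [← Finset.inter_eq_right.2 (subset_vSet P (ξ : M)), ← Finset.prod_ite_mem,
        ← Finset.prod_mul_distrib]
    refine Finset.prod_congr rfl fun v hvV => ?_
    rw [if_congr (show v ∈ vSet P (ξ : M) ∩ T.S ↔ v ∈ T.S by
      rw [Finset.inter_eq_right.2 (subset_vSet P (ξ : M))]) rfl rfl]
    split_ifs with hv <;> simp
  rw [hsplit]
  have hch := T.chS_ne_zero (ξ : M)
  field_simp
  rfl

/-- The size of the summation set is the product of the numbers of exponents. -/
lemma card_tSet (ξ : M) : (tSet P E ξ).card = ∏ v ∈ vSet P ξ, (jAll P E v ξ).card := by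
  rw [tSet, Finset.card_finsupp]

/-- The number of local exponents times the size factor is bounded. -/
lemma card_mul_sqp_le (v : Pl F) (ξ : Mˣ) :
    ((jAll P E v (ξ : M)).card : ℝ) *
      (sqp v (CFT.ord v (nrm σ ξ : F)) * sqp v (CFT.ord v (P.a v : F)))
      ≤ (if v ∈ T.S then 3 * Real.sqrt (pnorm v) ^ ((2 * E.C : ℕ) : ℤ) else 1)
        * (if pnorm v < 4 then 3 else 1) := by
  have h1 : (1 : ℝ) ≤ if pnorm v < 4 then 3 else 1 := by split_ifs <;> norm_num
  -- at `T.S` this is `card_jS_le`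
  by_cases hS : v ∈ T.S
  · rw [if_pos hS, jAll, if_pos hS, (P.on v hS).1]
    have := SF.card_jS_le (T := T) E.C (v := v) ξ
    refine le_trans ?_ (le_mul_of_one_le_right (by positivity) h1)
    simpa [sqp] using this
  rw [if_neg hS, one_mul, jAll, if_neg hS, ← sqp_add]
  have hord := T.norm_ord v ξ
  have hsqrt : (1 : ℝ) ≤ Real.sqrt (pnorm v) := Real.one_le_sqrt.2 (by
    exact_mod_cast (HeightOneSpectrum.one_lt_absNorm v).le)
  simp only [ordV, T.plRamIdx_off hS, Nat.cast_one, one_mul] at hord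
  have hk := P.koff v
  rw [coe_nrm]
  set n := CFT.ord v (Algebra.norm F (ξ : M))
  -- nonsplit: at most one index, of weight at most one
  by_cases hns : IsNonsplit σ v
  · have hQ := T.nonsplit_ord hns (ξ : M)
    rw [jSet, if_pos hns]
    by_cases hc : 0 ≤ CFT.ord (plOver M v) (ξ : M) + P.k1 v
    swap
    · rw [if_neg hc, Finset.card_empty, Nat.cast_zero, zero_mul]; exact zero_le_one.trans h1
    rw [if_pos hc, Finset.card_singleton, Nat.cast_one, one_mul, sqp]
    refine (zpow_le_one_of_nonpos₀ hsqrt (neg_nonpos.2 ?_)).trans h1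
    have := P.adm v hns
    omega
  -- split: the count times the weight is a radial value, bounded by `abs_radial_le`
  rw [jSet, if_neg hns, Int.card_Icc]
  set m := n + CFT.ord v (P.a v : F)
  rw [show CFT.ord (plConj σ v) (ξ : M) + P.k2 v +
    1 - -(CFT.ord (plOver M v) (ξ : M) + P.k1 v) = m + 1 by omega]
  by_cases hm : m < 0
  · rw [show (m + 1).toNat = 0 by omega, Nat.cast_zero, zero_mul]; exact zero_le_one.trans h1
  obtain ⟨k, hk⟩ := Int.eq_ofNat_of_zero_le (not_lt.1 hm)
  have hb := abs_radial_le (q := pnorm v) (HeightOneSpectrum.one_lt_absNorm v) (c := 2)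
    (Or.inl rfl) m
  have hr : radial (pnorm v) 2 m = ((m + 1).toNat : ℝ) * sqp v m := by
    rw [radial, if_neg hm, hk, Int.toNat_natCast, chebU_two, sqp, zpow_neg, zpow_natCast,
      show ((k : ℤ) + 1).toNat = k + 1 by omega]
    push_cast; ring
  rw [← hr]
  refine (le_abs_self _).trans ?_
  split_ifs with h4
  · exact hb.1
  · exact hb.2 (not_lt.1 h4)

/-- The finite coefficient is bounded by a constant independent of the element. -/
lemma norm_cFin_mul_card_le (ξ : Mˣ) :
    (∏ w : InfinitePlace F, w (nrm σ ξ : F))⁻¹ * ‖cFin P‖ * (tSet P E (ξ : M)).card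
      ≤ SF.kS T E.C * wBound (∅ : Set (Pl F)) := by
  rw [card_tSet, cFin_eq P (ξ : M), norm_prod, ← prod_sqp P, Nat.cast_prod,
    ← Finset.prod_mul_distrib, ← Finset.prod_mul_distrib]
  set Sm := (LDat.finite_small (∅ : Set (Pl F))).toFinset
  calc _ ≤ ∏ v ∈ vSet P (ξ : M),
        (if v ∈ T.S then 3 * Real.sqrt (pnorm v) ^ ((2 * E.C : ℕ) : ℤ) else 1)
          * (if v ∈ Sm then 3 else 1) := by
        refine Finset.prod_le_prod (fun v _ =>
          mul_nonneg (mul_nonneg (sqp_pos v _).le (norm_nonneg _))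
          (Nat.cast_nonneg _)) fun v _ => ?_
        rw [cP, norm_mul, T.norm_zw, mul_one, Complex.norm_real,
          Real.norm_of_nonneg (sqp_pos v _).le, mul_comm]
        exact (card_mul_sqp_le P E v ξ).trans_eq (by simp [Sm, Set.Finite.mem_toFinset])
    _ ≤ SF.kS T E.C * wBound (∅ : Set (Pl F)) := by
      rw [Finset.prod_mul_distrib, Finset.prod_ite_mem, Finset.prod_ite_mem,
        Finset.inter_eq_right.2 (subset_vSet P (ξ : M)), Finset.prod_const, wBound]
      refine mul_le_mul_of_nonneg_left ?_ (SF.kS_nonneg _ _)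
      exact pow_le_pow_right₀ (by norm_num) (Finset.card_le_card Finset.inter_subset_right)

/-- The support of the coefficients. -/
lemma exists_fracLat_of_tSet : ∃ N : ℕ, N ≠ 0 ∧ ∀ ξ : Mˣ, (tSet P E (ξ : M)).Nonempty →
    ((T.δ : F) * (nrm σ ξ : F)) ∈ fracLat (F := F) N := by
  -- only the places in the finite set `W` need a denominator
  set W := vSet P (1 : M) ∪ (eventually_cofinite.1 (Mult.eventually_cnd_eq_zero (F := F))).toFinset
  obtain ⟨N, hN, hNv⟩ := exists_nat_small (F := F)
    (fun v => if v ∈ W then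
      (|CFT.ord v (T.δ : F)| + |CFT.ord v (P.a v : F)| + 2 * E.C).toNat else 0)
    (W.finite_toSet.subset fun v hv => by by_contra h; exact hv (if_neg h))
  refine ⟨N, hN, fun ξ ⟨τ, hτ⟩ v => ?_⟩
  -- a nonempty `tSet` bounds the order of the norm below at every place
  have key : if v ∈ T.S then -(2 * E.C : ℤ) ≤ CFT.ord v (nrm σ ξ : F)
      else 0 ≤ CFT.ord v (nrm σ ξ : F) + CFT.ord v (P.a v : F) := by
    by_cases hS : v ∈ T.S
    · rw [if_pos hS]
      have h := (Finset.mem_finsupp_iff.1 hτ).2 v (subset_vSet P _ hS)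
      rw [jAll, if_pos hS] at h
      exact SF.ord_of_jS (T := T) h
    rw [if_neg hS, coe_nrm]
    obtain ⟨j, hj⟩ : (jSet P v (ξ : M)).Nonempty := by
      by_cases hv : v ∈ vSet P (ξ : M)
      · have h := (Finset.mem_finsupp_iff.1 hτ).2 v hv
        rw [jAll, if_neg hS] at h
        exact ⟨τ v, h⟩
      · rw [jSet_triv P hv]; exact Finset.singleton_nonempty _
    have hm := mem_box_of_jSet P hj
    rw [mem_box_iff_ord ξ.ne_zero] at hm
    simp only [mBox] at hm
    have hord := T.norm_ord v ξ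
    simp only [ordV, T.plRamIdx_off hS, Nat.cast_one, one_mul] at hord
    have hk := P.koff v
    omega
  -- compare orders
  rw [map_mul, valuation_eq_exp_neg_ord v (mul_ne_zero T.δ.ne_zero (Units.ne_zero _)),
    CFT.ord_mul v T.δ.ne_zero (Units.ne_zero _)]
  refine (mul_le_mul' (hNv v) le_rfl).trans ?_
  rw [← WithZero.exp_add, ← WithZero.exp_zero, WithZero.exp_le_exp]
  by_cases hv : v ∈ W
  · rw [if_pos hv]
    have := le_abs_self (CFT.ord v (P.a v : F))
    have := neg_abs_le (CFT.ord v (T.δ : F))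
    have := abs_nonneg (CFT.ord v (P.a v : F))
    split_ifs at key <;> omega
  · rw [if_neg hv]
    simp only [W, Finset.mem_union, Set.Finite.mem_toFinset, Set.mem_ofPred_eq, not_or,
      not_not] at hv
    obtain ⟨h1, h4, -⟩ := of_notMem_vSet P hv.1
    have he := T.eL_off v h1
    rw [eL, hv.2] at he
    rw [if_neg h1] at key
    omega

end Fermat.LTG.Theta
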