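import Fermat.Agent.LTG.Theta.Unfold

/-!
# Theta: the zero term averages to zero

The weights are constant on the classes of exponent vectors modulo the elements of norm one, and the
value at `0` of the finite part changes sign under a shift at a split place where the character is
not real.
-/

set_option autoImplicit false
set_option linter.unusedSectionVars false

open NumberField MeasureTheory Filter Fermat.CFT
open scoped Classical

noncomputable section

namespace Fermat.LTG.Theta

open Fermat.LT Fermat.LT.Theta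

variable {F M : Type} [Field F] [NumberField F] [IsTotallyComplex F] [Field M] [NumberField M]
  [Algebra F M] [IsGalois F M] {σ : M ≃ₐ[F] M} {lam : Pl F → ℝ}

variable (F M) in
/-- The weight at the representatives. -/
def w0 (u : InfinitePlace F → ℝ) : ℝ :=
  Real.exp (-∑ w, (Real.exp (u w) + (Real.exp (u w))⁻¹)) /
    (∑' μ : nKer F M, if ordT F ((μ : Mˣ) : M) = 0 then
      ENNReal.ofReal (Real.exp (-∑ w, (Real.exp ((u + logT (F := F) ((μ : Mˣ) : M)) w)
        + (Real.exp ((u + logT (F := F) ((μ : Mˣ) : M)) w))⁻¹))) else 0).toReal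

/-- A translate of a representative is one only for a translation by `0`. -/
lemma repT_shift {τ : Pl F →₀ ℤ} (h : repT F M τ) (μ : nKer F M) :
    repT F M (τ + ordT F ((μ : Mˣ) : M)) ↔ ordT F ((μ : Mˣ) : M) = 0 := by
  refine ⟨fun h' => ?_, fun h' => by rwa [h', add_zero]⟩
  have e : QuotientAddGroup.mk (s := (ordHom (F := F) (M := M)).range) (τ + ordT F ((μ : Mˣ) : M))
      = QuotientAddGroup.mk (s := (ordHom (F := F) (M := M)).range) τ := by
    rw [QuotientAddGroup.eq]
    refine ⟨-Additive.ofMul μ, ?_⟩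
    rw [map_neg]
    change -ordT F ((μ : Mˣ) : M) = _
    abel
  unfold repT at h h'
  rw [e, h] at h'
  exact add_eq_left.1 h'.symm

/-- The weight is supported on the representatives, where it does not depend on the exponents. -/
lemma wt_eq (τ : Pl F →₀ ℤ) (u : InfinitePlace F → ℝ) :
    wt M τ u = if repT F M τ then w0 F M u else 0 := by
  by_cases h : repT F M τ
  swap
  · rw [if_neg h, wt, g0, if_neg h, zero_div]
  rw [if_pos h, wt, g0, if_pos h, w0, orbSum]
  congr 2
  refine tsum_congr fun μ => ?_
  rw [g0, if_congr (repT_shift h μ) rfl rfl]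
  split_ifs
  · rfl
  · rw [ENNReal.ofReal_zero]

/-- The integral of the weight. -/
lemma integral_wt (τ : Pl F →₀ ℤ) :
    ∫ u, (wt M τ u : ℂ) = if repT F M τ then ∫ u, (w0 F M u : ℂ) else 0 := by
  simp only [wt_eq]
  split_ifs <;> simp

variable {T : Frame σ lam} {ω : FinPt0 F} (P : PDat T ω) (E : SF T)

/-- A split place outside `S` where the character is not real. -/
lemma Frame.exists_split (T : Frame σ lam) :
    ∃ v ∉ T.S, ¬ IsNonsplit σ v ∧ ∀ j : ℤ, T.zw v (j + 1, -(j + 1)) = -T.zw v (j, -j) := by
  obtain ⟨P, hP, -, hne, h2⟩ := T.H.nontrivial T.S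
  have hF := T.H.finrank
  have hσ := T.H.σ_ne
  set v := plUnder F P
  have hns : ¬ IsNonsplit σ v := fun h => hne (h P rfl)
  refine ⟨v, hP, hns, fun j => ?_⟩
  rw [Frame.zw, if_neg hP, if_neg hns, Frame.zw, if_neg hP, if_neg hns,
    show j + 1 - -(j + 1) = (j - -j) + 2 by ring, zpow_add₀ (Units.ne_zero _), zpow_ofNat]
  have hsq : (T.H.th (plOver M v) : ℂ) ^ 2 = -1 := by
    have h2' : ((T.H.th P : ℂˣ) : ℂ) ^ 2 = -1 := by
      rw [← Units.val_pow_eq_pow_val, h2]; simp
    rcases eq_or_eq_of_plUnder hF hσ (rfl : plUnder F P = v) with e | e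
    · rw [← e]; exact h2'
    · have h0 : plUnder F (plOver M v) ∉ T.S := by rwa [plUnder_plOver]
      rw [e, show plConj σ v = σ • plOver M v from rfl, T.H.th_σ _ h0, Units.val_inv_eq_inv_val,
        inv_pow] at h2'
      rw [← inv_inv ((T.H.th (plOver M v) : ℂ) ^ 2), h2']
      norm_num
  rw [hsq, mul_neg_one]

/-- A shift at a split place with odd character negates the value at zero. -/
lemma locA_zero_single {v : Pl F} (hv : v ∉ T.S) (hns : ¬ IsNonsplit σ v)
    (hz : ∀ j : ℤ, T.zw v (j + 1, -(j + 1)) = -T.zw v (j, -j)) (τ : Pl F →₀ ℤ) :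
    locA P E (τ + Finsupp.single v 1) 0 = -locA P E τ 0 := by
  set τ' := τ + Finsupp.single v 1
  set V := (vSet P (0 : M) ∪ τ.support) ∪ (vSet P (0 : M) ∪ τ'.support) ∪ {v}
  have hvV : v ∈ V := Finset.mem_union_right _ (Finset.mem_singleton_self v)
  rw [locA_eq_prod P E τ' 0 (V := V) (Finset.subset_union_right.trans Finset.subset_union_left),
    locA_eq_prod P E τ 0 (V := V) (Finset.subset_union_left.trans Finset.subset_union_left),
    E.loc τ' τ (fun u hu => by
      simp only [τ', Finsupp.add_apply, Finsupp.single_apply, if_neg fun e : v = u => hv (e ▸ hu),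
        add_zero]),
    ← Finset.mul_prod_erase V _ hvV, ← Finset.mul_prod_erase V _ hvV]
  have e1 : locT P v (τ' v) (0 : M) = -locT P v (τ v) (0 : M) := by
    have h1 : ∀ j : ℤ, ¬ (IsNonsplit σ v ∧ j ≠ 0) := fun j h => hns h.1
    rw [show τ' v = τ v + 1 by simp [τ'], locT, locT, if_neg hv, if_neg hv, if_neg (h1 _),
      if_neg (h1 _), if_pos (zero_mem _), if_pos (zero_mem _), hz, neg_mul]
  have e2 : ∏ u ∈ V.erase v, locT P u (τ' u) (0 : M) = ∏ u ∈ V.erase v, locT P u (τ u) (0 : M) :=
    Finset.prod_congr rfl fun u hu => by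
      rw [show τ' u = τ u by simp [τ', Ne.symm (Finset.ne_of_mem_erase hu)]]
  rw [e1, e2]
  ring

/-- At `0` the product of the factors is invariant under elements of norm one. -/
lemma locA_zero_shift (μ : nKer F M) (τ : Pl F →₀ ℤ) :
    locA P E (τ + ordT F ((μ : Mˣ) : M)) 0 = locA P E τ 0 := by
  rw [← locA_mul, mul_zero]

/-- **The zero term averages to zero.** The weighted sum over exponents of the terms at `η = 0` is
zero. -/
theorem tsum_zero_term : ∑' τ : Pl F →₀ ℤ, locA P E τ 0 * ∫ u, (wt M τ u : ℂ) = 0 := by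
  obtain ⟨v, hv, hns, hz⟩ := T.exists_split
  set A := (ordHom (F := F) (M := M)).range
  set W : ℂ := ∫ u, (w0 F M u : ℂ)
  -- only representatives modulo the range of `ordHom` contribute
  let out : (Pl F →₀ ℤ) ⧸ A → (Pl F →₀ ℤ) := fun q => q.out
  have hinj : Function.Injective out := fun a b h => by
    rw [← QuotientAddGroup.out_eq' a, ← QuotientAddGroup.out_eq' b]
    exact congrArg _ h
  have hsupp : (Function.support fun τ : Pl F →₀ ℤ => locA P E τ 0 * ∫ u, (wt M τ u : ℂ))
      ⊆ Set.range out := fun τ hτ => by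
    have h : repT F M τ := by
      by_contra h
      exact hτ (by simp only; rw [integral_wt, if_neg h, mul_zero])
    exact ⟨QuotientAddGroup.mk τ, h⟩
  rw [← hinj.tsum_eq hsupp]
  have hrep : ∀ q, repT F M (out q) := fun q => by
    unfold repT
    simp only [out]
    rw [QuotientAddGroup.out_eq']
  simp only [integral_wt, hrep, if_true]
  set Φ : (Pl F →₀ ℤ) ⧸ A → ℂ := fun q => locA P E (out q) 0
  set e : (Pl F →₀ ℤ) ⧸ A := QuotientAddGroup.mk (Finsupp.single v 1)
  -- a shift by the place `v` changes the sign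
  have hshift : ∀ q, Φ (q + e) = -Φ q := fun q => by
    have h : QuotientAddGroup.mk (s := A) (out (q + e))
        = QuotientAddGroup.mk (s := A) (out q + Finsupp.single v 1) := by
      rw [QuotientAddGroup.mk_add]
      simp only [out, QuotientAddGroup.out_eq']
      rfl
    rw [QuotientAddGroup.eq] at h
    obtain ⟨μ, hμ⟩ := h
    have hμ' : out q + Finsupp.single v 1
        = out (q + e) + ordT F (((Additive.toMul μ : nKer F M) : Mˣ) : M) := by
      rw [show ordT F (((Additive.toMul μ : nKer F M) : Mˣ) : M)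
        = -out (q + e) + (out q + Finsupp.single v 1) from hμ]
      abel
    simp only [Φ]
    rw [← locA_zero_shift P E (Additive.toMul μ) (out (q + e)), ← hμ',
      locA_zero_single P E hv hns hz]
  -- so the sum is its own negative
  have hs : ∑' q, Φ q * W = -∑' q, Φ q * W := by
    conv_lhs => rw [← (Equiv.addRight e).tsum_eq]
    rw [← tsum_neg]
    refine tsum_congr fun q => ?_
    rw [Equiv.coe_addRight, hshift, neg_mul]
  exact CharZero.eq_neg_self_iff.1 hs

end Fermat.LTG.Theta
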