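import Fermat.Agent.LTG.Theta.Transform
import Fermat.Agent.LTG.Theta.Zero
import Fermat.Agent.LT.Theta.FunEq

/-!
# Theta: the functional equation of the series with coefficients

`exists_gphi_jMat` is the equation, from that of the part over the norms (`exists_phi1_jMat`).
-/

set_option autoImplicit false

open NumberField MeasureTheory Filter Fermat.CFT
open scoped Classical

noncomputable section

namespace Fermat.LTG.Theta

open Fermat.LT Fermat.LT.Theta

variable {F M : Type} [Field F] [NumberField F] [IsTotallyComplex F] [Field M] [NumberField M]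
  [Algebra F M] [IsGalois F M] {σ : M ≃ₐ[F] M} {lam : Pl F → ℝ} {T : Frame σ lam} {n : ℕ}

omit [IsTotallyComplex F] [IsGalois F M] in
/-- The archimedean Gaussian at `0` is one. -/
lemma gU_zero (δ : Fˣ) (t : InfinitePlace F → ℝ) (z : InfinitePlace F → ℂ)
    (u : InfinitePlace F → ℝ) : gU σ δ t z (0 : M) u = 1 := by
  refine Finset.prod_eq_one fun w _ => ?_
  rw [map_zero, Pi.zero_apply, gW]
  simp [Fermat.LT.Theta.eC]

/-- A summable series reindexed by a product is an iterated series. -/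
lemma tsum_eq_tsum_prod {A B X : Type*} (e : A × B ≃ X) {g : X → ℂ} (hg : Summable g) :
    ∑' x, g x = ∑' a, ∑' b, g (e (a, b)) := by
  have hs : Summable fun p => g (e p) := e.summable_iff.2 hg
  rw [← e.tsum_eq g, hs.tsum_prod]

omit [NumberField M] in
/-- A summable series over `M` is its term at `0` plus the series over the units. -/
lemma tsum_units_add_zero {g : M → ℂ} (hg : Summable g) :
    ∑' η, g η = g 0 + ∑' ξ : Mˣ, g (ξ : M) := by
  rw [hg.tsum_eq_add_tsum_ite 0]
  congr 1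
  rw [← Function.Injective.tsum_eq (f := fun η => if η = 0 then 0 else g η) Units.val_injective
    fun η hη => ?_]
  · exact tsum_congr fun ξ => if_neg ξ.ne_zero
  · rcases eq_or_ne η 0 with rfl | h
    · simp at hη
    · exact ⟨Units.mk0 η h, rfl⟩

/-- Without parameters at the finite point the part over the norms vanishes. -/
lemma phi1_eq_zero {ω : FinPt0 F} (h : ¬ Nonempty (PDat T ω)) (c : Fˣ → ℂ)
    (x : InfinitePlace F → H3) : T.phi1 c (ω, x) = 0 := by
  refine (tsum_congr fun m => ?_).trans tsum_zero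
  obtain ⟨ξ, hξ⟩ : ∃ ξ : Mˣ, nrm σ ξ = (m : Fˣ) := m.2
  rw [← hξ, (exists_pdat_or_zero T ω).resolve_left h ξ, mul_zero, zero_mul]

variable (T) in
/-- **The functional equation of the part over the norms.** -/
theorem exists_phi1_jMat : ∃ K : ℂ, ∀ {n : ℕ} (f : SFun T n) (p : Pt0 F),
    T.phi1 (fun α => f.h (α : F)) p = K * T.phi1 f.hat.cf (jMat F • p) := by
  obtain ⟨κ, hκ⟩ := exists_lattice_transform T
  refine ⟨((κ * ∏ w : InfinitePlace F, 1 / (4 * w (T.δ : F) ^ 2) : ℝ) : ℂ), fun {n} f p => ?_⟩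
  obtain ⟨ω, x⟩ := p
  have hcf : T.phi1 (fun α => f.h (α : F)) (ω, x) = T.phi1 f.sf.cf (ω, x) :=
    tsum_congr fun m => by rw [f.cf_sf m.2]
  by_cases hne : Nonempty (PDat T ω)
  swap
  · rw [phi1_eq_zero hne, show jMat F • ((ω, x) : Pt0 F)
      = (jMat F • ω, fun w => atInf w (jMat F) • x w) from rfl, phi1_eq_zero, mul_zero]
    rintro ⟨Q⟩
    refine hne ⟨?_⟩
    have e : jMat F • jMat F • ω = ω := by
      have h : jMat F • jMat F • ((ω, x) : Pt0 F) = (ω, x) := by
        rw [← mul_smul, jMat_mul_self, Pt.scal_smul]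
      exact congrArg Prod.fst h
    exact e ▸ Q.inv
  obtain ⟨P⟩ := hne
  set y := fun w => atInf w (jMat F) • x w
  have hJ : jMat F • ((ω, x) : Pt0 F) = (jMat F • ω, y) := rfl
  obtain ⟨hA, hAs, hAi⟩ := phi1_eq P f.sf x
  obtain ⟨hB, hBs, hBi⟩ := phi1_eq P.inv f.hat y
  rw [hcf, hJ, hA, hB]
  set C := ((κ * jacG T.δ (tOf x) (zOf x) : ℝ) : ℂ) * cGlob P
  set Z : (Pl F →₀ ℤ) → ℂ := fun τ => locA P.inv f.hat τ 0
  -- Poisson summation exchanges the two lattice sums up to the term at `0`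
  have hth : ∀ (τ : Pl F →₀ ℤ) (u : InfinitePlace F → ℝ),
      thSum P f.sf x τ u = C * (thSum P.inv f.hat y τ u + Z τ) := fun τ u => by
    obtain ⟨e, hs⟩ := hκ P f τ (tOf x) (fun w => Real.exp (u w)) (tOf_pos x)
      (fun w => Real.exp_pos _) (zOf x)
    have e0 : f.sf.E τ (0 : M) = 0 := by
      change f.gE τ 0 = 0
      rw [SFun.gE, if_neg fun h => h.1 rfl]
    have hl : thSum P f.sf x τ u = ∑' η : M,
        locA P f.sf τ η * gE T.δ (tOf x) (fun w => Real.exp (u w)) (zOf x) (jj σ η) := by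
      refine Function.Injective.tsum_eq (f := fun η : M => thTerm P f.sf x τ u η)
        Units.val_injective fun η hη => ⟨Units.mk0 η fun h => hη ?_, rfl⟩
      simp only [thTerm, h, locA, e0, zero_mul]
    have hr : ∑' η : M, locA P.inv f.hat τ η
        * gE T.δ (tJ (tOf x) (zOf x)) (fun w => Real.exp (u w)) (zJ (tOf x) (zOf x)) (jj σ η)
        = thSum P.inv f.hat y τ u + Z τ := by
      rw [tsum_units_add_zero hs, add_comm]
      congr 1
      · simp only [thSum, thTerm, gU, tOf_jMat, zOf_jMat, y]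
      · change locA P.inv f.hat τ 0 * gU σ T.δ _ _ (0 : M) u = _
        rw [gU_zero, mul_one]
    rw [hl, e, hr]
  have hfac : cTot P x * C
      = ((κ * ∏ w : InfinitePlace F, 1 / (4 * w (T.δ : F) ^ 2) : ℝ) : ℂ) * cTot P.inv y := by
    have hreal : (∏ w : InfinitePlace F, w (T.δ : F) * tOf x w) * (κ * jacG T.δ (tOf x) (zOf x))
        = (κ * ∏ w : InfinitePlace F, 1 / (4 * w (T.δ : F) ^ 2))
          * ∏ w : InfinitePlace F, w (T.δ : F) * tOf y w := by
      rw [jacG, mul_left_comm, mul_assoc κ, ← Finset.prod_mul_distrib, ← Finset.prod_mul_distrib]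
      congr 1
      refine Finset.prod_congr rfl fun w _ => ?_
      rw [show tOf y w = tJ (tOf x) (zOf x) w from congrFun (tOf_jMat x) w, tJ,
        InfinitePlace.norm_embedding_eq]
      have := (InfinitePlace.pos_iff (w := w)).2 T.δ.ne_zero
      have hT : 0 < Complex.normSq (zOf x w) + tOf x w ^ 2 :=
        add_pos_of_nonneg_of_pos (Complex.normSq_nonneg _) (pow_pos (tOf_pos x w) 2)
      field_simp
    have hr := congrArg (fun r : ℝ => (r : ℂ)) hreal
    simp only [Complex.ofReal_mul] at hr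
    simp only [C, cTot]
    push_cast at hr ⊢
    linear_combination (cFin P * cGlob P) * hr
      + ((((κ : ℂ)) * ∏ w : InfinitePlace F, 1 / (4 * ((w (T.δ : F) : ℝ) : ℂ) ^ 2))
        * ∏ w : InfinitePlace F, ((w (T.δ : F) : ℝ) : ℂ) * ((tOf y w : ℝ) : ℂ)) * cFin_mul_cGlob P
  by_cases hC : C = 0
  · rw [← mul_assoc, ← hfac, hC, mul_zero, zero_mul]
    refine mul_eq_zero_of_right _ ((tsum_congr fun τ => ?_).trans tsum_zero)
    simp [hth, hC]
  set A := fun τ : Pl F →₀ ℤ => ∫ u, (wt M τ u : ℂ) * thSum P f.sf x τ u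
  set B := fun τ : Pl F →₀ ℤ => ∫ u, (wt M τ u : ℂ) * thSum P.inv f.hat y τ u
  -- integrate against the weight; the terms at `0` add up to zero
  have hsplit : ∀ τ, A τ = C * B τ + C * (Z τ * ∫ u, (wt M τ u : ℂ)) := fun τ => by
    have e : (fun u => (wt M τ u : ℂ) * thSum P f.sf x τ u)
        = fun u => C * ((wt M τ u : ℂ) * thSum P.inv f.hat y τ u) + C * (Z τ * (wt M τ u : ℂ)) :=
      funext fun u => by rw [hth]; ring
    have hi : Integrable fun u => C * (Z τ * (wt M τ u : ℂ)) := by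
      have h := (hAi τ).sub ((hBi τ).const_mul C)
      refine h.congr (Eventually.of_forall fun u => ?_)
      simp only [Pi.sub_apply]
      rw [hth]
      ring
    change ∫ u, _ = _
    rw [e, integral_add ((hBi τ).const_mul C) hi, integral_const_mul, integral_const_mul,
      integral_const_mul]
  have hZs : Summable fun τ => C * (Z τ * ∫ u, (wt M τ u : ℂ)) := by
    refine (hAs.sub (hBs.mul_left C)).congr fun τ => ?_
    change A τ - C * B τ = _
    rw [hsplit]; ring
  change cTot P x * ∑' τ, A τ = _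
  rw [tsum_congr hsplit, (hBs.mul_left C).tsum_add hZs, tsum_mul_left, tsum_mul_left,
    tsum_zero_term P.inv f.hat, mul_zero, add_zero, ← mul_assoc, hfac, mul_assoc]

/-- A translate of a function by a unit at `S`. -/
def SFun.scale (g : SFun T n) (r : Fˣ) (hr : ∀ v ∈ T.S, v.valuation F (r : F) = 1) : SFun T n where
  h a := g.h ((r : F) * a)
  bound a := g.bound _
  supp a ha v hv := by
    have h := g.supp _ ha v hv
    rwa [map_mul, hr v hv, one_mul] at h
  inv a u hu := by rw [← mul_assoc]; exact g.inv _ u hu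

/-- **The functional equation.** For a series `gphi` with coefficients from an `SFun` some
coefficients `d` give its values at the inverted points. -/
theorem exists_gphi_jMat (g : SFun T n) :
    ∃ d : Fˣ → ℂ, T.IsCoef d ∧
      ∀ p : Pt0 F, T.gphi (fun α => g.h (α : F)) p = T.gphi d (jMat F • p) := by
  obtain ⟨K, hK⟩ := exists_phi1_jMat T
  set N := normUnits F M
  let Good : Fˣ ⧸ N → Prop := fun q => ∃ r : Fˣ, (r : Fˣ ⧸ N) = q ∧ g.h (r : F) ≠ 0
  let rep : Fˣ ⧸ N → Fˣ := fun q => if h : Good q then h.choose else q.out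
  have hrep : ∀ q, (rep q : Fˣ ⧸ N) = q := fun q => by
    simp only [rep]
    split_ifs with h
    · exact h.choose_spec.1
    · exact q.out_eq'
  have hrepu : ∀ q, Good q → ∀ v ∈ T.S, v.valuation F (rep q : F) = 1 := fun q hq v hv => by
    simp only [rep, dif_pos hq]
    exact g.supp _ hq.choose_spec.2 v hv
  let dq : Fˣ ⧸ N → Fˣ → ℂ := fun q m =>
    if hq : Good q then (g.scale (rep q) (hrepu q hq)).hat.cf m else 0
  let d : Fˣ → ℂ := fun α =>
    K * dq (α : Fˣ ⧸ N)⁻¹ (α * rep (α : Fˣ ⧸ N)⁻¹)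
  -- the coefficients are bounded and supported at a bounded depth, so everything is summable
  have hc : T.IsCoef fun α => g.h (α : F) := ⟨1, 0, fun α => ⟨g.bound _, fun h v hv => by
    rw [CFT.ord, g.supp _ h v hv, WithZero.log_one, neg_zero]; simp⟩⟩
  have hd : T.IsCoef d := by
    refine ⟨‖K‖ * SF.kS T (T.Cn n), 2 * T.Cn n, fun α => ?_⟩
    simp only [d, dq]
    set q := (α : Fˣ ⧸ N)⁻¹
    by_cases hq : Good q
    swap
    · simp only [dif_neg hq, mul_zero, norm_zero]
      exact ⟨mul_nonneg (norm_nonneg _) (SF.kS_nonneg _ _), fun h => absurd rfl h⟩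
    simp only [dif_pos hq]
    refine ⟨?_, fun h v hv => ?_⟩
    · rw [norm_mul]
      exact mul_le_mul_of_nonneg_left (((g.scale (rep q) (hrepu q hq)).hat.norm_cf_le _).trans_eq
        (one_mul _)) (norm_nonneg _)
    · have h2 := (g.scale (rep q) (hrepu q hq)).hat.supp_cf (right_ne_zero_of_mul h) v hv
      rw [Units.val_mul, CFT.ord_mul v α.ne_zero (Units.ne_zero _),
        show CFT.ord v (rep q : F) = 0 by rw [CFT.ord, hrepu q hq v hv, WithZero.log_one, neg_zero],
        add_zero] at h2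
      simpa [SFun.hat] using h2
  refine ⟨d, hd, fun p => ?_⟩
  obtain ⟨ω, x⟩ := p
  -- split both series along the cosets of the norms and transform coset by coset
  let e : (Fˣ ⧸ N) × N ≃ Fˣ :=
    { toFun := fun q => (q.2 : Fˣ) * rep q.1
      invFun := fun α => ((α : Fˣ ⧸ N), ⟨α * (rep (α : Fˣ ⧸ N))⁻¹, by
        rw [← QuotientGroup.eq_one_iff, QuotientGroup.mk_mul, QuotientGroup.mk_inv, hrep,
          mul_inv_cancel]⟩)
      left_inv := fun q => by
        have h1 : (((q.2 : Fˣ) * rep q.1 : Fˣ) : Fˣ ⧸ N) = q.1 := by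
          rw [mul_comm, QuotientGroup.mk_mul_of_mem _ q.2.2, hrep]
        refine Prod.ext h1 (Subtype.ext ?_)
        simp only [h1, mul_inv_cancel_right]
      right_inv := fun α => by simp }
  let e' : (Fˣ ⧸ N) × N ≃ Fˣ :=
    { toFun := fun q => (q.2 : Fˣ) * (rep q.1)⁻¹
      invFun := fun α => ((α : Fˣ ⧸ N)⁻¹, ⟨α * rep (α : Fˣ ⧸ N)⁻¹, by
        rw [← QuotientGroup.eq_one_iff, QuotientGroup.mk_mul, hrep, mul_inv_cancel]⟩)
      left_inv := fun q => by
        have h1 : (((q.2 : Fˣ) * (rep q.1)⁻¹ : Fˣ) : Fˣ ⧸ N)⁻¹ = q.1 := by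
          rw [mul_comm, QuotientGroup.mk_mul_of_mem _ q.2.2, QuotientGroup.mk_inv, hrep];
            exact inv_inv q.1
        refine Prod.ext h1 (Subtype.ext ?_)
        simp only [h1, inv_mul_cancel_right]
      right_inv := fun α => by simp }
  set q' := jMat F • ((ω, x) : Pt0 F) with hq'
  have hsum : Summable fun α : Fˣ => g.h (α : F) * T.finS α ω * archW T.dat α x :=
    (hc.isCf ω).summable x
  have hsum' : Summable fun α : Fˣ => d α * T.finS α q'.1 * archW T.dat α q'.2 :=
    (hd.isCf q'.1).summable q'.2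
  change ∑' α : Fˣ, g.h (α : F) * T.finS α ω * archW T.dat α x =
    ∑' α : Fˣ, d α * T.finS α q'.1 * archW T.dat α q'.2
  rw [tsum_eq_tsum_prod e hsum, tsum_eq_tsum_prod e' hsum']
  refine tsum_congr fun q => ?_
  have hL : ∑' m : N, g.h (((m : Fˣ) * rep q : Fˣ) : F) * T.finS ((m : Fˣ) * rep q) ω
        * archW T.dat ((m : Fˣ) * rep q) x
      = T.phi1 (fun α : Fˣ => g.h ((rep q : F) * (α : F))) (upMat (rep q) 0 • ((ω, x) : Pt0 F)) :=
    tsum_congr fun m => by
      rw [T.finS_diag, T.archW_diag, Units.val_mul, mul_comm ((m : Fˣ) : F)]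
  change ∑' m : N, g.h (((m : Fˣ) * rep q : Fˣ) : F) * T.finS ((m : Fˣ) * rep q) ω
        * archW T.dat ((m : Fˣ) * rep q) x
      = ∑' m : N, d ((m : Fˣ) * (rep q)⁻¹) * T.finS ((m : Fˣ) * (rep q)⁻¹) q'.1
        * archW T.dat ((m : Fˣ) * (rep q)⁻¹) q'.2
  rw [hL]
  have hdm : ∀ m : N, d ((m : Fˣ) * (rep q)⁻¹) = K * dq q (m : Fˣ) := fun m => by
    have h1 : (((m : Fˣ) * (rep q)⁻¹ : Fˣ) : Fˣ ⧸ N)⁻¹ = q := by
      rw [mul_comm, QuotientGroup.mk_mul_of_mem _ m.2, QuotientGroup.mk_inv, hrep]; exact inv_inv q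
    simp only [d, h1, inv_mul_cancel_right]
  by_cases hq : Good q
  · have h := hK (g.scale (rep q) (hrepu q hq)) (upMat (rep q) 0 • ((ω, x) : Pt0 F))
    simp only [SFun.scale] at h
    rw [h, ← mul_smul, jMat_mul_upMat_zero, mul_smul, mul_smul, Pt.scal_smul, Frame.phi1,
      ← tsum_mul_left]
    refine tsum_congr fun m => ?_
    rw [T.finS_diag, T.archW_diag, hdm]
    simp only [dq, dif_pos hq]
    simp only [SFun.scale, q', mul_assoc]
  · have hz : ∀ m : N, g.h ((rep q : F) * ((m : Fˣ) : F)) = 0 := fun m => by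
      by_contra h
      refine hq ⟨rep q * (m : Fˣ), ?_, by rwa [Units.val_mul]⟩
      rw [QuotientGroup.mk_mul_of_mem _ m.2, hrep]
    rw [Frame.phi1, tsum_congr fun m => by rw [hz m, zero_mul, zero_mul], tsum_zero]
    refine ((tsum_congr fun m => ?_).trans tsum_zero).symm
    rw [hdm]
    simp only [dq, dif_neg hq, mul_zero, zero_mul]

end Fermat.LTG.Theta
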