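import Fermat.Agent.LTG.Theta.FunEq
import Fermat.Agent.LT.Theta.Invariant
import Fermat.Agent.LTG.Space

/-!
# Theta: the lift of the series to a level of bounded depth

The series with coefficients the indicator of the principal units at `S` is invariant under the
matrices deep at `S`, so it lifts to a function on the points of that level
invariant under `GL₂(F)`.
-/

set_option autoImplicit false
set_option linter.unusedSectionVars false

open NumberField Filter Fermat.CFT
open scoped Classical Matrix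

noncomputable section

namespace Fermat.LTG.Theta

open Fermat.LT Fermat.LT.Theta

variable {F : Type} [Field F] [NumberField F]

/-- Lower unipotent matrices. -/
def lowMat (y : F) : GL (Fin 2) F := (jMat F)⁻¹ * upMat 1 (-y) * jMat F

/-- The entries of a lower unipotent matrix. -/
lemma coe_lowMat (y : F) : (lowMat y : Matrix (Fin 2) (Fin 2) F) = !![1, 0; y, 1] := by
  have h : jMat F * Matrix.GeneralLinearGroup.mkOfDetNeZero !![1, 0; y, 1]
      (by simp [Matrix.det_fin_two_of]) = upMat 1 (-y) * jMat F := Units.ext (by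
    ext i j
    fin_cases i <;> fin_cases j <;> simp [Matrix.mul_apply, Fin.sum_univ_two])
  rw [lowMat, mul_assoc, ← h, inv_mul_cancel_left]
  rfl

/-- The decomposition of a matrix with invertible lower right entry. -/
lemma eq_up_scal_low {g : GL (Fin 2) F} (hd : (g : Matrix (Fin 2) (Fin 2) F) 1 1 ≠ 0) :
    ∃ β : Fˣ, (β : F) =
      (g : Matrix (Fin 2) (Fin 2) F).det / (g : Matrix (Fin 2) (Fin 2) F) 1 1 ^ 2 ∧
      g = upMat β ((g : Matrix (Fin 2) (Fin 2) F) 0 1 / (g : Matrix (Fin 2) (Fin 2) F) 1 1)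
        * scal (Units.mk0 _ hd)
        * lowMat ((g : Matrix (Fin 2) (Fin 2) F) 1 0 / (g : Matrix (Fin 2) (Fin 2) F) 1 1) := by
  have hdet : (g : Matrix (Fin 2) (Fin 2) F).det ≠ 0 := (Matrix.GeneralLinearGroup.det g).ne_zero
  refine ⟨Units.mk0 _ (div_ne_zero hdet (pow_ne_zero 2 hd)), rfl, Units.ext ?_⟩
  simp only [Units.val_mul, coe_upMat, coe_lowMat, scal_coe, Units.val_mk0]
  rw [Matrix.det_fin_two]
  ext i j
  fin_cases i <;> fin_cases j <;>
    simp [Matrix.mul_apply, Fin.sum_univ_two, Matrix.scalar_apply] <;> field_simp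
  ring

section Valuation

variable (v : Valuation F (WithZero (Multiplicative ℤ)))

/-- The ratios of a matrix deep up to scalars. -/
lemma UN_ratio {n : ℕ} (hn : 1 ≤ n) {g : GL (Fin 2) F} (hg : g ∈ UN v n) :
    (g : Matrix (Fin 2) (Fin 2) F) 1 1 ≠ 0 ∧
    v ((g : Matrix (Fin 2) (Fin 2) F).det / (g : Matrix (Fin 2) (Fin 2) F) 1 1 ^ 2 - 1) < 1 ∧
    v ((g : Matrix (Fin 2) (Fin 2) F) 0 1 / (g : Matrix (Fin 2) (Fin 2) F) 1 1)
      ≤ WithZero.exp (-(n : ℤ)) ∧
    v ((g : Matrix (Fin 2) (Fin 2) F) 1 0 / (g : Matrix (Fin 2) (Fin 2) F) 1 1)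
      ≤ WithZero.exp (-(n : ℤ)) := by
  obtain ⟨c, hc⟩ := hg
  have hlt : WithZero.exp (-(n : ℤ)) < (1 : WithZero (Multiplicative ℤ)) := by
    rw [← WithZero.exp_zero, WithZero.exp_lt_exp]; omega
  set A := (g : Matrix (Fin 2) (Fin 2) F)
  have hc2 : ∀ i j, v ((c : F) * A i j - (1 : Matrix (Fin 2) (Fin 2) F) i j)
      ≤ WithZero.exp (-(n : ℤ)) := fun i j => by
    simpa [Matrix.scalar_apply] using hc.2 i j
  have h11 : v ((c : F) * A 1 1) = 1 := by
    have h := hc2 1 1
    simp at h
    rw [show (c : F) * A 1 1 = 1 + ((c : F) * A 1 1 - 1) by ring, v.map_add_eq_of_lt_left, map_one]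
    rw [map_one]
    exact lt_of_le_of_lt h hlt
  have hA : A 1 1 ≠ 0 := fun h => by simp [h] at h11
  have hr : ∀ x : F, v (x / A 1 1) = v ((c : F) * x) := fun x => by
    rw [show x / A 1 1 = (c : F) * x / ((c : F) * A 1 1) from
      (mul_div_mul_left _ _ c.ne_zero).symm, map_div₀, h11, div_one]
  refine ⟨hA, ?_, ?_, ?_⟩
  · rw [show A.det / A 1 1 ^ 2 - 1 = (((c : F) * A 0 0 - (c : F) * A 1 1) * ((c : F) * A 1 1)
      - ((c : F) * A 0 1) * ((c : F) * A 1 0)) / ((c : F) * A 1 1) ^ 2 by
      have := c.ne_zero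
      rw [Matrix.det_fin_two]; field_simp; ring, map_div₀, map_pow, h11, one_pow, div_one]
    have h00 : v ((c : F) * A 0 0 - 1) ≤ WithZero.exp (-(n : ℤ)) := by simpa using hc2 0 0
    have h01 : v ((c : F) * A 0 1) ≤ WithZero.exp (-(n : ℤ)) := by simpa using hc2 0 1
    have h10 : v ((c : F) * A 1 0) ≤ WithZero.exp (-(n : ℤ)) := by simpa using hc2 1 0
    have h1 : v ((c : F) * A 1 1 - 1) ≤ WithZero.exp (-(n : ℤ)) := by simpa using hc2 1 1
    refine lt_of_le_of_lt ((v.map_sub _ _).trans (max_le ?_ ?_)) hlt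
    · rw [map_mul, h11, mul_one, show (c : F) * A 0 0 - (c : F) * A 1 1
        = ((c : F) * A 0 0 - 1) - ((c : F) * A 1 1 - 1) by ring]
      exact (v.map_sub _ _).trans (max_le h00 h1)
    · exact (v.map_mul _ _).trans_le ((mul_le_of_le_one_right' (h10.trans hlt.le)).trans h01)
  · rw [hr]; simpa using hc2 0 1
  · rw [hr]; simpa using hc2 1 0

end Valuation

variable {M : Type} [IsTotallyComplex F] [Field M] [NumberField M] [Algebra F M] [IsGalois F M]
  {σ : M ≃ₐ[F] M} {lam : Pl F → ℝ}

namespace Frame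

variable (T : Frame σ lam)

/-- The principal units at `S`. -/
def PU (a : F) : Prop := ∀ v ∈ T.S, v.valuation F (a - 1) < 1

/-- A principal unit at `S` has valuation one there. -/
lemma val_of_PU {a : F} (h : T.PU a) {v : Pl F} (hv : v ∈ T.S) : v.valuation F a = 1 := by
  rw [show a = 1 + (a - 1) by ring, (v.valuation F).map_add_eq_of_lt_left, map_one]
  rw [map_one]; exact h v hv

/-- Multiplication by a principal unit preserves being a principal unit. -/
lemma PU_mul_iff {a u : F} (hu : T.PU u) : T.PU (a * u) ↔ T.PU a := by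
  refine forall₂_congr fun v hv => ?_
  have hu1 := T.val_of_PU hu hv
  have hd := hu v hv
  constructor
  · intro h
    have e : (a - 1) * u = (a * u - 1) - (u - 1) := by ring
    have h' : v.valuation F ((a - 1) * u) < 1 := by
      rw [e]; exact lt_of_le_of_lt ((v.valuation F).map_sub _ _) (max_lt h hd)
    rwa [map_mul, hu1, mul_one] at h'
  · intro h
    rw [show a * u - 1 = (a - 1) * u + (u - 1) by ring]
    refine lt_of_le_of_lt ((v.valuation F).map_add _ _) (max_lt ?_ hd)
    rwa [map_mul, hu1, mul_one]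

/-- The level of the twisted indicator. -/
def lvl (z : F) : ℕ := 1 + ∑ v ∈ T.S, (|eL T.δ v| + |CFT.ord v z|).toNat

/-- The level is positive and deep enough to kill the twist at every place of `S`. -/
lemma lvl_spec (z : F) {v : Pl F} (hv : v ∈ T.S) :
    1 ≤ T.lvl z ∧ -eL T.δ v - CFT.ord v z ≤ T.lvl z := by
  have h : (|eL T.δ v| + |CFT.ord v z|).toNat ≤ ∑ u ∈ T.S, (|eL T.δ u| + |CFT.ord u z|).toNat :=
    Finset.single_le_sum (f := fun u => (|eL T.δ u| + |CFT.ord u z|).toNat) (fun u _ =>
      Nat.zero_le _) hv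
  have := neg_abs_le (eL T.δ v)
  have := le_abs_self (CFT.ord v z)
  have := neg_abs_le (CFT.ord v z)
  have := le_abs_self (eL T.δ v)
  unfold lvl
  omega

/-- The indicator of the principal units, twisted by a character. -/
def hz (z : F) : SFun T (T.lvl z) where
  h a := if T.PU a then T.psS (-a * z) else 0
  bound a := by split_ifs <;> simp [T.norm_psS]
  supp a ha v hv := T.val_of_PU (by by_contra h; exact ha (if_neg h)) hv
  inv a u hu := by
    have hu' : T.PU u := fun v hv => by
      rcases hu v hv with h | h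
      · rw [h, sub_self, map_zero]; exact zero_lt_one
      · rcases eq_or_ne (u - 1) 0 with h0 | h0
        · rw [h0, map_zero]; exact zero_lt_one
        rw [CFT.valuation_eq_exp_neg_ord v h0, ← WithZero.exp_zero, WithZero.exp_lt_exp]
        have := (T.lvl_spec z hv).1
        omega
    change ite _ _ _ = ite _ _ _
    rw [if_congr (T.PU_mul_iff hu') rfl rfl]
    split_ifs with ha
    · rw [show -(a * u) * z = -a * z + -(a * (u - 1) * z) by ring, T.psS_add,
        T.psS_eq_one (b := -(a * (u - 1) * z)) fun v hv => ?_, mul_one]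
      rw [Valuation.map_neg, map_mul, map_mul, T.val_of_PU ha hv, one_mul]
      rcases hu v hv with h | h
      · rw [h, sub_self, map_zero, zero_mul]; exact zero_le
      rcases eq_or_ne (u - 1) 0 with h0 | h0
      · rw [h0, map_zero, zero_mul]; exact zero_le
      rcases eq_or_ne z 0 with hz0 | hz0
      · rw [hz0, map_zero, mul_zero]; exact zero_le
      rw [CFT.valuation_eq_exp_neg_ord v h0, CFT.valuation_eq_exp_neg_ord v hz0, ← WithZero.exp_add,
        WithZero.exp_le_exp]
      have := (T.lvl_spec z hv).2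
      omega
    · rfl

/-- The coefficient of the form. -/
def c0 (α : Fˣ) : ℂ := if T.PU (α : F) then 1 else 0

/-- The coefficient of the form is a coefficient function. -/
lemma isCoef_c0 : T.IsCoef T.c0 := by
  refine ⟨1, 0, fun α => ⟨by unfold c0; split_ifs <;> simp, fun h v hv => ?_⟩⟩
  have hα : T.PU (α : F) := by by_contra h'; exact h (if_neg h')
  rw [CFT.ord, T.val_of_PU hα hv, WithZero.log_one, neg_zero]; simp

/-- The function on the points of level one off `S`. -/
def phi0 (p : Pt0 F) : ℂ := T.gphi T.c0 p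

/-- The coefficient of the form is the untwisted indicator. -/
lemma c0_eq : T.c0 = fun α : Fˣ => (T.hz 0).h (α : F) := funext fun α => by
  change _ = ite _ _ _
  simp [c0]

/-- The shifts of the coefficient of the form are the twisted indicators. -/
lemma shiftC_c0 (z : F) : T.shiftC 1 z T.c0 = fun α : Fˣ => (T.hz z).h (α : F) := funext fun α => by
  change _ = ite _ _ _
  simp only [shiftC, c0, inv_one, mul_one]
  split_ifs <;> simp

/-- The inversion acts on the points as an involution. -/
lemma jMat_smul_jMat0 (p : Pt0 F) : jMat F • jMat F • p = p := by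
  rw [← mul_smul, jMat_mul_self, Fermat.LT.Pt.scal_smul]

/-- **Every translate is a series with coefficients.** -/
theorem exists_coef (g : GL (Fin 2) F) :
    ∃ d : Fˣ → ℂ, T.IsCoef d ∧ ∀ q : Pt0 F, T.phi0 (g • q) = T.gphi d q := by
  rcases eq_borel_or_bruhat g with ⟨c, a, x, rfl⟩ | ⟨c, a, x, y, rfl⟩
  · exact ⟨_, T.isCoef_shiftC T.isCoef_c0 a x, fun q => by
      rw [phi0, mul_smul, Fermat.LT.Pt.scal_smul, T.gphi_upMat_smul]⟩
  · obtain ⟨d, hd, hJ⟩ := exists_gphi_jMat (T.hz x)
    refine ⟨_, T.isCoef_shiftC hd a⁻¹ (((a⁻¹ : Fˣ) : F) * y), fun q => ?_⟩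
    have hJ' : ∀ s : Pt0 F, T.gphi (T.shiftC 1 x T.c0) (jMat F • s) = T.gphi d s := fun s => by
      rw [T.shiftC_c0, hJ, jMat_smul_jMat0]
    have hdJ : ∀ r : Pt0 F, upMat a 0 • jMat F • r = jMat F • upMat a⁻¹ 0 • r := fun r => by
      rw [← mul_smul (jMat F), jMat_mul_upMat_zero, inv_inv, mul_smul, mul_smul,
        Fermat.LT.Pt.scal_smul]
    rw [phi0, mul_smul, Fermat.LT.Pt.scal_smul, mul_smul, mul_smul,
      show upMat a x = upMat (1 : Fˣ) x * upMat a 0 from upMat_eq_unip_mul a x, mul_smul, hdJ,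
      T.gphi_upMat_smul, hJ', ← mul_smul, upMat_mul, mul_one, add_zero, T.gphi_upMat_smul]

/-- **The series is invariant under the deep matrices.** -/
theorem exists_depth : ∃ N : ℕ, 1 ≤ N ∧ ∀ g : GL (Fin 2) F,
    (∀ v ∈ T.S, g ∈ UN (v.valuation F) N) → ∀ q : Pt0 F, T.phi0 (g • q) = T.phi0 q := by
  obtain ⟨d, hd, hJ⟩ := exists_gphi_jMat (T.hz 0)
  obtain ⟨B, C, hC⟩ := id hd
  set N := 1 + C + ∑ v ∈ T.S, (|eL T.δ v|).toNat with hN
  refine ⟨N, by omega, fun g hg q => ?_⟩
  have hNv : ∀ v ∈ T.S, (C : ℤ) - eL T.δ v ≤ N ∧ -eL T.δ v ≤ N := fun v hv => by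
    have h : (|eL T.δ v|).toNat ≤ ∑ u ∈ T.S, (|eL T.δ u|).toNat :=
      Finset.single_le_sum (f := fun u => (|eL T.δ u|).toNat) (fun u _ => Nat.zero_le _) hv
    have := neg_abs_le (eL T.δ v)
    have := le_abs_self (eL T.δ v)
    omega
  -- deep lower unipotents fix the series
  have hlow : ∀ y : F, (∀ v ∈ T.S, v.valuation F y ≤ WithZero.exp (-(N : ℤ))) →
      ∀ r : Pt0 F, T.phi0 (lowMat y • r) = T.phi0 r := fun y hy r => by
    have e : jMat F * lowMat y = upMat 1 (-y) * jMat F := by
      rw [lowMat, ← mul_assoc, ← mul_assoc, mul_inv_cancel, one_mul]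
    rw [phi0, phi0, T.c0_eq, hJ, hJ, ← mul_smul, e, mul_smul, T.gphi_upMat_smul]
    congr 1
    funext α
    rw [shiftC, inv_one, mul_one]
    by_cases hα : d α = 0
    · rw [hα, zero_mul]
    rw [T.psS_eq_one fun v hv => ?_, mul_one]
    rw [neg_mul_neg, map_mul, CFT.valuation_eq_exp_neg_ord v α.ne_zero]
    refine (mul_le_mul' le_rfl (hy v hv)).trans ?_
    rw [← WithZero.exp_add, WithZero.exp_le_exp]
    have := (hC α).2 hα v hv
    have := (hNv v hv).1
    omega
  obtain ⟨v0, hv0⟩ := T.ne
  have hd11 := (UN_ratio _ (by omega) (hg v0 hv0)).1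
  obtain ⟨β, hβ, he⟩ := eq_up_scal_low hd11
  conv_lhs => rw [he]
  rw [mul_smul, mul_smul, Fermat.LT.Pt.scal_smul]
  set z := (g : Matrix (Fin 2) (Fin 2) F) 0 1 / (g : Matrix (Fin 2) (Fin 2) F) 1 1
  -- deep upper triangular ones too
  have hup : ∀ r : Pt0 F, T.phi0 (upMat β z • r) = T.phi0 r := fun r => by
    rw [phi0, T.gphi_upMat_smul]
    congr 1
    funext α
    have hβ1 : T.PU (β : F) := fun v hv => by
      rw [hβ]; exact (UN_ratio _ (by omega) (hg v hv)).2.1
    have hiff : T.PU ((α * β⁻¹ : Fˣ) : F) ↔ T.PU (α : F) := by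
      rw [← T.PU_mul_iff (a := ((α * β⁻¹ : Fˣ) : F)) hβ1, ← Units.val_mul, inv_mul_cancel_right]
    rw [shiftC, c0, c0, if_congr hiff rfl rfl]
    split_ifs with hα
    · rw [T.psS_eq_one fun v hv => ?_, mul_one]
      rw [neg_mul, Valuation.map_neg, map_mul, T.val_of_PU (hiff.2 hα) hv, one_mul]
      refine (UN_ratio _ (by omega) (hg v hv)).2.2.1.trans ?_
      rw [WithZero.exp_le_exp]
      have := (hNv v hv).2
      omega
    · rw [zero_mul]
  rw [hup, hlow _ fun v hv => (UN_ratio _ (by omega) (hg v hv)).2.2.2]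

/-- The depth of the level. -/
def Nd : ℕ := T.exists_depth.choose

/-- The depth is positive. -/
lemma Nd_pos : 1 ≤ T.Nd := T.exists_depth.choose_spec.1

/-- The function is invariant under the matrices of the depth at `S`. -/
lemma phi0_deep {g : GL (Fin 2) F} (hg : ∀ v ∈ T.S, g ∈ UN (v.valuation F) T.Nd) (q : Pt0 F) :
    T.phi0 (g • q) = T.phi0 q := T.exists_depth.choose_spec.2 g hg q

/-- The level of the form. -/
def levL : Lev F := Lev.ofFinset T.S fun _ => T.Nd

/-- The depths of the level of the form. -/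
lemma depth_levL (v : Pl F) : T.levL.depth v = if v ∈ T.S then T.Nd else 0 := rfl

/-- The level of the form is supported exactly on `S`. -/
lemma mem_levL {v : Pl F} : v ∈ T.levL ↔ v ∈ T.S := by
  rw [Lev.mem_iff, depth_levL]
  have := T.Nd_pos
  split_ifs with h <;> simp [h]; omega

/-- The level of the form lies in level one. -/
lemma lev_le_level_one (v : Pl F) :
    Fermat.LTG.lev T.levL v ≤ Fermat.LT.lev (∅ : Set (Pl F)) v := by
  rw [Fermat.LT.lev_of_not_mem (Set.notMem_empty v)]
  exact Fermat.LTG.lev_le_U0 _ _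

/-- The projection of a local coset to level one. -/
def piV (v : Pl F) : Fermat.LTG.Vert T.levL v → Fermat.LT.Vert (∅ : Set (Pl F)) v :=
  Subgroup.quotientMapOfLE (T.lev_le_level_one v)

/-- The projection sends the class of a matrix to its class of level one. -/
lemma piV_mk (v : Pl F) (g : GL (Fin 2) F) :
    T.piV v (g : Fermat.LTG.Vert T.levL v) = (g : Fermat.LT.Vert (∅ : Set (Pl F)) v) := rfl

/-- The local projection is equivariant. -/
lemma piV_smul (v : Pl F) (g : GL (Fin 2) F) (y : Fermat.LTG.Vert T.levL v) :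
    T.piV v (g • y) = g • T.piV v y := by
  obtain ⟨h, rfl⟩ := QuotientGroup.mk_surjective y
  rfl

/-- Off `S` the projection of local cosets is bijective. -/
lemma piV_bijective {v : Pl F} (hv : v ∉ T.S) : Function.Bijective (T.piV v) := by
  refine ⟨fun x y h => ?_, fun y => ?_⟩
  · obtain ⟨a, rfl⟩ := QuotientGroup.mk_surjective x
    obtain ⟨b, rfl⟩ := QuotientGroup.mk_surjective y
    rw [piV_mk, piV_mk, QuotientGroup.eq, Fermat.LT.lev_of_not_mem (Set.notMem_empty v)] at h
    rw [QuotientGroup.eq, Fermat.LTG.lev_of_not_mem fun hh => hv (T.mem_levL.1 hh)]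
    exact h
  · obtain ⟨a, rfl⟩ := QuotientGroup.mk_surjective y
    exact ⟨a, rfl⟩

/-- The projection of a finite point to level one. -/
def piF (ω : Fermat.LTG.FinPt F T.levL) : FinPt0 F :=
  ⟨fun v => T.piV v (ω.1 v), ω.2.mono fun v hv => by
    change T.piV v (ω.1 v) = _
    rw [hv]; rfl⟩

/-- The projection of the finite points is equivariant. -/
lemma piF_smul (g : GL (Fin 2) F) (ω : Fermat.LTG.FinPt F T.levL) :
    T.piF (g • ω) = g • T.piF ω := Subtype.ext (funext fun v => T.piV_smul v g (ω.1 v))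

/-- The projection commutes with setting one component. -/
lemma piF_set (ω : Fermat.LTG.FinPt F T.levL) (v : Pl F) (y : Fermat.LTG.Vert T.levL v) :
    T.piF (ω.set v y) = (T.piF ω).set v (T.piV v y) := by
  refine Subtype.ext (funext fun u => ?_)
  change T.piV u (Function.update ω.1 v y u) = Function.update (T.piF ω).1 v (T.piV v y) u
  rcases eq_or_ne u v with rfl | h
  · rw [Function.update_self, Function.update_self]
  · rw [Function.update_of_ne h, Function.update_of_ne h]; rfl

/-- The matrix moves the point to the base at `S`. -/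
def Norms (γ : GL (Fin 2) F) (ω : Fermat.LTG.FinPt F T.levL) : Prop :=
  ∀ v ∈ T.S, γ • ω.1 v = ((1 : GL (Fin 2) F) : Fermat.LTG.Vert T.levL v)

/-- Every point can be moved to the base at `S`. -/
lemma exists_norms (ω : Fermat.LTG.FinPt F T.levL) : ∃ γ, T.Norms γ ω := by
  choose g hg using fun v : Pl F => QuotientGroup.mk_surjective (ω.1 v)
  choose m hm using fun v : Pl F => exists_entry_bound (v.valuation F) (g v)
  set n := T.Nd + T.S.sup m
  -- approximate the inverses of the representatives at `T.S` by `Y`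
  choose y hy hy' using fun i j : Fin 2 =>
    Fermat.LT.exists_approx (F := F) T.S (fun v => ((g v)⁻¹ : GL (Fin 2) F).val i j) n
  set Y : Matrix (Fin 2) (Fin 2) F := Matrix.of y
  have hclose : ∀ v ∈ T.S, ∀ i j, v.valuation F ((Y * (g v).val) i j
      - (1 : Matrix (Fin 2) (Fin 2) F) i j) ≤ WithZero.exp (-(T.Nd : ℤ)) := fun v hv i j => by
    have h1 : (Y * (g v).val) i j - (1 : Matrix (Fin 2) (Fin 2) F) i j
        = ((Y - ((g v)⁻¹ : GL (Fin 2) F).val) * (g v).val) i j := by
      rw [Matrix.sub_mul, Matrix.sub_apply, ← Units.val_mul, inv_mul_cancel, Units.val_one]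
    rw [h1, Matrix.mul_apply]
    refine (v.valuation F).map_sum_le fun k _ => ?_
    rw [map_mul, Matrix.sub_apply]
    refine (mul_le_mul' (hy i k v hv) (hm v k j).1).trans ?_
    rw [← WithZero.exp_add, WithZero.exp_le_exp]
    have := Finset.le_sup (f := m) hv
    omega
  -- `Y` is invertible, as `Y * g` is close to one
  have hdet : Y.det ≠ 0 := by
    obtain ⟨v0, hv0⟩ := T.ne
    intro h0
    have hd : (Y * (g v0).val).det = 0 := by rw [Matrix.det_mul, h0, zero_mul]
    have hlt : WithZero.exp (-(T.Nd : ℤ)) < (1 : WithZero (Multiplicative ℤ)) := by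
      rw [← WithZero.exp_zero, WithZero.exp_lt_exp]; have := T.Nd_pos; omega
    set A := Y * (g v0).val
    have c := hclose v0 hv0
    have c00 := c 0 0; have c01 := c 0 1; have c10 := c 1 0; have c11 := c 1 1
    simp at c00 c01 c10 c11
    have e : (1 : F) =
        -((A 0 0 - 1) * (A 1 1 - 1) + ((A 0 0 - 1) + ((A 1 1 - 1) - A 0 1 * A 1 0))) := by
      rw [Matrix.det_fin_two] at hd
      linear_combination hd
    have := congrArg (v0.valuation F) e
    rw [map_one, Valuation.map_neg] at this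
    refine absurd this.symm (ne_of_lt (lt_of_le_of_lt (((v0.valuation F).map_add _ _).trans
      (max_le ?_ (((v0.valuation F).map_add _ _).trans (max_le c00
        (((v0.valuation F).map_sub _ _).trans (max_le c11 ?_)))))) hlt))
    · rw [map_mul]; exact (mul_le_of_le_one_right' (c11.trans hlt.le)).trans c00
    · rw [map_mul]; exact (mul_le_of_le_one_right' (c10.trans hlt.le)).trans c01
  -- so it moves the point to the base
  refine ⟨Matrix.GeneralLinearGroup.mkOfDetNeZero Y hdet, fun v hv => ?_⟩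
  rw [← hg v, MulAction.Quotient.smul_coe, eq_comm, QuotientGroup.eq, inv_one, one_mul, smul_eq_mul]
  refine mem_lev_of_congN (n := T.Nd) (by rw [depth_levL, if_pos hv]) ?_
  exact mem_congN_of_sub _ T.Nd_pos fun i j => hclose v hv i j

/-- A chosen normalising matrix. -/
def gam (ω : Fermat.LTG.FinPt F T.levL) : GL (Fin 2) F := (T.exists_norms ω).choose

/-- The chosen matrix normalises the point at `S`. -/
lemma gam_spec (ω : Fermat.LTG.FinPt F T.levL) : T.Norms (T.gam ω) ω :=
  (T.exists_norms ω).choose_spec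

/-- The theta form at the level `levL`, through `gam` and `piF`. -/
def theta (p : Fermat.LTG.Pt F T.levL) : ℂ := T.phi0 (T.gam p.1 • (T.piF p.1, p.2))

/-- The form may be computed with any normalising matrix. -/
lemma theta_eq {γ : GL (Fin 2) F} {ω : Fermat.LTG.FinPt F T.levL} (hγ : T.Norms γ ω)
    (x : InfinitePlace F → H3) : T.theta (ω, x) = T.phi0 (γ • (T.piF ω, x)) := by
  set δ := T.gam ω
  have h : ∀ v ∈ T.S, γ * δ⁻¹ ∈ UN (v.valuation F) T.Nd := fun v hv => by
    have h1 := hγ v hv
    have h2 := T.gam_spec ω v hv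
    have e : ω.1 v = δ⁻¹ • ((1 : GL (Fin 2) F) : Fermat.LTG.Vert T.levL v) := by
      rw [← h2, inv_smul_smul]
    rw [e, ← mul_smul, MulAction.Quotient.smul_coe, smul_eq_mul, mul_one, eq_comm,
      QuotientGroup.eq, inv_one, one_mul, Fermat.LTG.lev, depth_levL, if_pos hv] at h1
    exact h1
  change T.phi0 (δ • (T.piF ω, x)) = _
  rw [show γ • ((T.piF ω, x) : Pt0 F) = (γ * δ⁻¹) • δ • ((T.piF ω, x) : Pt0 F) by
    rw [← mul_smul, inv_mul_cancel_right], T.phi0_deep h]

end Frame

end Fermat.LTG.Theta
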