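import Fermat.Agent.LTG.Theta.Semi
import Fermat.Agent.LT.Theta.LocalGauss

/-!
# Theta: the local factors outside `S` are exchanged by the local transforms

`ft_loc` is the exchange, with constants `cLoc` whose product is `cGlob`.
-/

set_option autoImplicit false

noncomputable section

open NumberField Fermat.CFT Filter
open scoped Classical

namespace Fermat.LTG.Theta

open Fermat.LT Fermat.LT.Theta

variable {F M : Type} [Field F] [NumberField F] [IsTotallyComplex F] [Field M] [NumberField M]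
  [Algebra F M] [IsGalois F M] {σ : M ≃ₐ[F] M} {lam : Pl F → ℝ} {T : Frame σ lam}
  {ω : FinPt0 F} (P : PDat T ω)

/-- A common bound for all exponents at `v`, for factors of level `n` at `S`. -/
def bnd (n : ℕ) (v : Pl F) (j : ℤ) : ℤ :=
  if v ∈ T.S then |j| + T.M1 n
  else 2 * (|P.k1 v| + |P.k2 v| + |j| + |CFT.ord v (P.a v : F)| + |CFT.ord v (P.x v)|)

/-- The exponent vector is large at `v`. -/
def Big (n : ℕ) (v : Pl F) (j : ℤ) (hi : ℤ × ℤ) : Prop :=
  Adm σ v hi ∧ bnd P n v j ≤ hi.1 ∧ bnd P n v j ≤ hi.2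

/-- The local constant of the transform, trivial on `S`. -/
def cLoc (v : Pl F) : ℂ :=
  if v ∈ T.S then 1
  else if P.x v = 0 then (resCard v : ℂ) ^ CFT.ord v (P.a v : F)
  else (resCard v : ℂ) ^ CFT.ord v (P.x v)
    * (if IsNonsplit σ v then (-1 : ℂ) else 1) ^ (CFT.ord v (P.a v : F) - CFT.ord v (P.x v))

variable {P} {n : ℕ}

/-- Off `S`, a large exponent vector dominates twice the parameters at `v`. -/
lemma bnd_le {v : Pl F} (hv : v ∉ T.S) {j : ℤ} {hi : ℤ × ℤ} (hb : Big P n v j hi) :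
    (|P.k1 v| + |P.k2 v| + |j| + |CFT.ord v (P.a v : F)| + |CFT.ord v (P.x v)|) * 2 ≤ hi.1 ∧
    (|P.k1 v| + |P.k2 v| + |j| + |CFT.ord v (P.a v : F)| + |CFT.ord v (P.x v)|) * 2 ≤ hi.2 := by
  obtain ⟨-, h1, h2⟩ := hb
  rw [bnd, if_neg hv] at h1 h2
  constructor <;> linarith

omit [IsGalois F M] in
/-- The exponents of a box with an allowed shift are admissible. -/
lemma adm_mBox {v : Pl F} {j : ℤ} (hj : ¬ (IsNonsplit σ v ∧ j ≠ 0)) :
    Adm σ v (mBox P v j) := fun hns => by
  have h0 : j = 0 := by by_contra h; exact hj ⟨hns, h⟩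
  have := P.adm v hns
  simp only [mBox, h0]; omega

/-- For large exponents the local factor is supported in the big box. -/
lemma locT_supp {v : Pl F} (hv : v ∉ T.S) {j : ℤ} {hi : ℤ × ℤ} (hb : Big P n v j hi) {η : M}
    (h : locT P v j η ≠ 0) : η ∈ box σ v (-hi) := by
  obtain ⟨b1, b2⟩ := bnd_le hv hb
  rw [locT, if_neg hv] at h
  split_ifs at h with h1 hm
  · exact absurd rfl h
  · refine box_mono ?_ ?_ hm <;> simp only [mBox, Prod.fst_neg, Prod.snd_neg] <;>
      linarith [le_abs_self (P.k1 v), le_abs_self (P.k2 v), le_abs_self j, neg_abs_le j,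
        abs_nonneg (P.k1 v), abs_nonneg (P.k2 v), abs_nonneg j,
        abs_nonneg (CFT.ord v (P.a v : F)), abs_nonneg (CFT.ord v (P.x v))]
  · simp at h

/-- For large exponents the local factor is periodic modulo the small box. -/
lemma periodic_locT {v : Pl F} (hv : v ∉ T.S) {j : ℤ} {hi : ℤ × ℤ} (hb : Big P n v j hi) :
    Periodic (box σ v (-hi)) (box σ v hi) (locT P v j) := by
  have hF := T.H.finrank
  have hσ := T.H.σ_ne
  obtain ⟨b1, b2⟩ := bnd_le hv hb
  intro η _ h hh
  by_cases h1 : IsNonsplit σ v ∧ j ≠ 0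
  · rw [locT, locT, if_neg hv, if_pos h1, if_neg hv, if_pos h1]
  rw [locT, locT, if_neg hv, if_neg h1, if_neg hv, if_neg h1]
  congr 1
  have hram := T.notMem_ramPl hv
  set m := mBox P v j with hmdef
  have hA := abs_nonneg (P.k1 v); have hB := abs_nonneg (P.k2 v); have hC := abs_nonneg j
  have hD := abs_nonneg (CFT.ord v (P.a v : F)); have hE := abs_nonneg (CFT.ord v (P.x v))
  have := le_abs_self (P.k1 v); have := le_abs_self (P.k2 v); have := le_abs_self j
  have := neg_abs_le (P.k1 v); have := neg_abs_le (P.k2 v); have := neg_abs_le j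
  have := le_abs_self (CFT.ord v (P.x v)); have := neg_abs_le (CFT.ord v (P.x v))
  have he := T.eL_off v hv
  have hh' : h ∈ box σ v m :=
    box_mono (by simp only [hmdef, mBox]; omega) (by simp only [hmdef, mBox]; omega) hh
  by_cases hm : η ∈ box σ v m
  swap
  · rw [if_neg hm, if_neg fun h' => hm (((box σ v m).add_mem_cancel_right hh').1 h')]
    simp
  rw [if_pos hm, if_pos (add_mem hm hh'), one_mul, one_mul]
  refine periodic_norm T.δ hF hσ hram (k := CFT.ord v (P.x v)) (m := m) (n := hi) ?_ ?_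
    ?_ ?_ η hm h hh
  · rcases eq_or_ne (P.x v) 0 with h0 | h0
    · simp [h0]
    · rw [valuation_eq_exp_neg_ord v h0]
  all_goals try simp only [hmdef, mBox]
  all_goals omega

/-- The local exponents of the inverted point stay in the dual range. -/
lemma locT_inv_supp {v : Pl F} (hv : v ∉ T.S) {j : ℤ} {hi : ℤ × ℤ} (hb : Big P n v j hi) {y : M}
    (h : locT P.inv v j y ≠ 0) : y ∈ box σ v (dual M T.δ v hi) := by
  obtain ⟨b1, b2⟩ := bnd_le hv hb
  have hA := abs_nonneg (P.k1 v); have hB := abs_nonneg (P.k2 v); have hC := abs_nonneg j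
  have hD := abs_nonneg (CFT.ord v (P.a v : F)); have hE := abs_nonneg (CFT.ord v (P.x v))
  have := le_abs_self (P.k1 v); have := le_abs_self (P.k2 v); have := le_abs_self j
  have := neg_abs_le (P.k1 v); have := neg_abs_le (P.k2 v); have := neg_abs_le j
  have := le_abs_self (CFT.ord v (P.x v)); have := neg_abs_le (CFT.ord v (P.x v))
  rw [T.dual_off hv]
  rw [locT, if_neg hv] at h
  split_ifs at h with h1 hm
  · exact absurd rfl h
  · refine box_mono ?_ ?_ hm <;> simp only [mBox, PDat.inv] <;> split_ifs <;> omega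
  · simp at h

/-- Off `S` the volume of a box is a power of the residue count. -/
lemma boxVol_off (T : Frame σ lam) {v : Pl F} (hv : v ∉ T.S) {d : ℤ × ℤ} (hd : Adm σ v d) :
    boxVol σ v d = (resCard v : ℝ) ^ (d.1 + d.2) := by
  have hF := T.H.finrank
  have hσ := T.H.σ_ne
  have hq : (resCard v : ℝ) ≠ 0 := by exact_mod_cast (resCard_pos v).ne'
  obtain ⟨n, hn1, hn2⟩ : ∃ n : ℕ, 0 ≤ d.1 + n ∧ 0 ≤ d.2 + n :=
    ⟨(max (-d.1) (-d.2)).toNat, by omega, by omega⟩
  have hu := T.plRamIdx_off hv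
  have hc : ∀ e : ℤ × ℤ, 0 ≤ e.1 → 0 ≤ e.2 → Adm σ v e →
      boxVol σ v e = (resCard v : ℝ) ^ (e.1 + e.2) := fun e h1 h2 he => by
    rw [← boxCard_cast v h1 h2, boxCard_eq hF hσ hu h1 h2 he]
    obtain ⟨a, ha⟩ := Int.eq_ofNat_of_zero_le (add_nonneg h1 h2)
    rw [ha]; simp
  have h := boxVol_sub (σ := σ) v (d + ((n : ℤ), (n : ℤ))) ((n : ℤ), (n : ℤ))
  rw [add_sub_cancel_right, hc (d + ((n : ℤ), (n : ℤ))) hn1 hn2 (fun h' => by simp [hd h']),
    hc ((n : ℤ), (n : ℤ)) (Int.natCast_nonneg n) (Int.natCast_nonneg n) fun _ => rfl,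
      ← zpow_sub₀ hq] at h
  rw [h]; congr 1; simp; ring

/-- **The local transform of the local factors outside `S`.** -/
theorem ft_loc {v : Pl F} (hv : v ∉ T.S) {j : ℤ} {hi : ℤ × ℤ} (hb : Big P n v j hi) {y : M}
    (hy : y ∈ box σ v (dual M T.δ v hi)) :
    qsum (box σ v (-hi)) (box σ v hi) (fun η => locT P v j η * psiD T.δ v (pair σ η y))
      = (boxVol σ v hi : ℂ) * cLoc P v * locT P.inv v j y := by
  have hF := T.H.finrank
  have hσ := T.H.σ_ne
  obtain ⟨b1, b2⟩ := bnd_le hv hb
  have hadm := hb.1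
  have hA := abs_nonneg (P.k1 v); have hB := abs_nonneg (P.k2 v); have hC := abs_nonneg j
  have hE := abs_nonneg (CFT.ord v (P.x v))
  have := le_abs_self (P.k1 v); have := le_abs_self (P.k2 v); have := le_abs_self j
  have := neg_abs_le (P.k1 v); have := neg_abs_le (P.k2 v); have := neg_abs_le j
  have := le_abs_self (CFT.ord v (P.a v : F)); have := neg_abs_le (CFT.ord v (P.a v : F))
  have := le_abs_self (CFT.ord v (P.x v)); have := neg_abs_le (CFT.ord v (P.x v))
  by_cases h1 : IsNonsplit σ v ∧ j ≠ 0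
  · simp [qsum, locT, if_neg hv, if_pos h1]
  have hram := T.notMem_ramPl hv
  have h2 : v ∈ ramPl (K := F) M → v.valuation F (2 : F) = 1 := fun h => absurd h hram
  have hde := T.dd_zero hv
  have he := T.eL_off v hv
  have hk := P.koff v
  set m := mBox P v j with hm
  have hmA : Adm σ v m := adm_mBox h1
  rw [qsum_congr (g := fun η => T.zw v (j, -j) * ((if η ∈ box σ v m then 1 else 0)
      * (psiD T.δ v (P.x v * Algebra.norm F η) * psiD T.δ v (pair σ η y)))) fun η _ => by
    rw [locT, if_neg hv, if_neg h1]; ring, qsum_smul]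
  rw [locT, if_neg hv, if_neg h1, cLoc, if_neg hv]
  -- the transform of a box, twisted by the norm form unless `P.x v = 0`
  by_cases hx : P.x v = 0
  · rw [if_pos hx, hx]
    simp only [zero_mul, psiD_zero, one_mul]
    rw [ft_box T.δ hF hσ h2 (by simp only [hm, mBox, Prod.fst_neg]; omega)
      (by simp only [hm, mBox, Prod.snd_neg]; omega) (by simp only [hm, mBox]; omega)
      (by simp only [hm, mBox]; omega) hmA hadm hy]
    have e1 : dual M T.δ v m = mBox P.inv v j := by
      simp only [hm, mBox, dual, PDat.inv, if_pos hx, hde]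
      ext <;> simp <;> ring
    have e2 : P.inv.x v = 0 := by simp [PDat.inv, hx]
    rw [e1, e2, zero_mul, psiD_zero, mul_one]
    have hcard : ((boxCard σ v (hi - m) : ℕ) : ℂ)
        = (boxVol σ v hi : ℂ) * (resCard v : ℂ) ^ CFT.ord v (P.a v : F) := by
      rw [← Complex.ofReal_natCast, boxCard_cast (σ := σ) v (by simp [hm, mBox]; omega)
        (by simp [hm, mBox]; omega), boxVol_sub, boxVol_off T hv hmA, div_eq_mul_inv,
        Complex.ofReal_mul, Complex.ofReal_inv, Complex.ofReal_zpow, ← zpow_neg,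
          Complex.ofReal_natCast]
      congr 2
      simp only [hm, mBox]; omega
    rw [hcard]
    ring
  · rw [if_neg hx]
    have hlt := (P.xoff v).resolve_left hx
    obtain ⟨d, hd⟩ :=
      Int.eq_ofNat_of_zero_le (show 0 ≤ CFT.ord v (P.a v : F) - CFT.ord v (P.x v) by omega)
    rw [ft_normBox T.δ hF hσ hram hx (d := d) (by simp only [hm, mBox]; omega)
      (by simp only [hm, mBox, Prod.fst_neg]; omega) (by simp only [hm, mBox, Prod.snd_neg]; omega)
      (by simp only [hm, mBox]; omega) (by simp only [hm, mBox]; omega) hmA hadm hy]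
    have e1 : m + (CFT.ord v (P.x v), CFT.ord v (P.x v)) = mBox P.inv v j := by
      simp only [hm, mBox, PDat.inv, if_neg hx]
      ext <;> simp <;> ring
    have e2 : P.inv.x v = -(P.x v)⁻¹ := rfl
    rw [e1, e2]
    have hcard : ((boxCard σ v (hi - (m + ((d : ℤ), (d : ℤ)))) : ℕ) : ℂ)
        * (if IsNonsplit σ v then -(resCard v : ℂ) else (resCard v : ℂ)) ^ d
        = (boxVol σ v hi : ℂ) * ((resCard v : ℂ) ^ CFT.ord v (P.x v)
          * (if IsNonsplit σ v then (-1 : ℂ) else 1) ^
              (CFT.ord v (P.a v : F) - CFT.ord v (P.x v))) := by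
      rw [hd, zpow_natCast,
        show (if IsNonsplit σ v then -(resCard v : ℂ) else (resCard v : ℂ))
          = (resCard v : ℂ) * (if IsNonsplit σ v then (-1 : ℂ) else 1) by
            split_ifs <;> ring, mul_pow,
        ← Complex.ofReal_natCast (boxCard σ v _),
          boxCard_cast (σ := σ) v (by simp [hm, mBox]; omega)
        (by simp [hm, mBox]; omega), boxVol_sub,
        boxVol_off T hv (d := m + ((d : ℤ), (d : ℤ))) (fun h => by simp [hmA h]), div_eq_mul_inv,
        Complex.ofReal_mul, Complex.ofReal_inv, Complex.ofReal_zpow, ← zpow_neg,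
          Complex.ofReal_natCast]
      rw [mul_assoc, ← mul_assoc _ ((resCard v : ℂ) ^ d), ← zpow_natCast (resCard v : ℂ) d,
        ← zpow_add₀ (by exact_mod_cast (resCard_pos v).ne')]
      congr 3
      simp only [hm, mBox, Prod.fst_add, Prod.snd_add]; omega
    rw [← mul_assoc, ← mul_assoc, mul_assoc (T.zw v (j, -j)), hcard]
    ring

variable (P)

/-- The local constants combine. -/
lemma cP_mul_cLoc (v : Pl F) : cP P v * cLoc P v = cP P.inv v := by
  by_cases hv : v ∈ T.S
  · rw [cP_on P hv, cP_on P.inv hv, cLoc, if_pos hv, one_mul]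
  have hk := P.koff v
  rw [cP, cP, cLoc, if_neg hv]
  have hsq : ∀ i : ℤ, ((sqp v i : ℝ) : ℂ) = ((Real.sqrt (resCard v) : ℝ) : ℂ) ^ (-i) := fun i => by
    rw [sqp, Complex.ofReal_zpow]; rfl
  have hres : (resCard v : ℂ) = ((Real.sqrt (resCard v) : ℝ) : ℂ) ^ (2 : ℤ) := by
    rw [zpow_two, ← Complex.ofReal_mul, Real.mul_self_sqrt (Nat.cast_nonneg _),
      Complex.ofReal_natCast]
  rw [hsq, hsq, hres]
  simp only [← zpow_mul]
  set r := ((Real.sqrt (resCard v) : ℝ) : ℂ)
  have hr : r ≠ 0 := Complex.ofReal_ne_zero.2 (sqrt_pnorm_ne_zero v)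
  set A := CFT.ord v (P.a v : F) with hA
  have hpar : IsNonsplit σ v → Even A := fun hns => ⟨P.k1 v, by have := P.adm v hns; omega⟩
  -- the two cases of `x`
  by_cases hx : P.x v = 0
  · rw [if_pos hx,
      show ((P.inv.a v : Fˣ) : F) = ((P.a v : Fˣ) : F)⁻¹ by
        simp only [PDat.inv, dif_pos hx, Units.val_inv_eq_inv_val], CFT.ord_inv, ← hA]
    have hz : T.zw v (P.k1 v, P.k2 v) = T.zw v (P.inv.k1 v, P.inv.k2 v) := by
      have h1 : P.inv.k1 v = -P.k2 v := by simp only [PDat.inv, if_pos hx]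
      have h2 : P.inv.k2 v = -P.k1 v := by simp only [PDat.inv, if_pos hx]
      rw [h1, h2, show (P.k1 v, P.k2 v) = (-P.k2 v, -P.k1 v) + (A, A) by
        rw [Prod.mk_add_mk]; congr 1 <;> omega, T.zw_add]
      refine mul_eq_left₀ (T.zw_ne_zero v _) |>.2 ?_
      rw [Frame.zw, if_neg hv]
      split_ifs with hns
      · rw [(T.cOf_inert hv hns).2, (hpar hns).neg_one_zpow]
      · rw [sub_self, zpow_zero]
    have e1 : r ^ (-A) * r ^ (2 * A) = r ^ (- -A) := by
      rw [← zpow_add₀ hr]; congr 1; ring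
    rw [hz]
    linear_combination (T.zw v (P.inv.k1 v, P.inv.k2 v)) * e1
  · rw [if_neg hx,
      show ((P.inv.a v : Fˣ) : F) = (P.a v : F) * ((P.x v) ^ 2)⁻¹ by
        simp only [PDat.inv, dif_neg hx]; simp,
      CFT.ord_mul v (P.a v).ne_zero (inv_ne_zero (pow_ne_zero _ hx)), CFT.ord_inv,
        CFT.ord_pow, ← hA]
    set X := CFT.ord v (P.x v) with hX
    have hz : T.zw v (P.k1 v, P.k2 v) * (if IsNonsplit σ v then (-1 : ℂ) else 1) ^ (A - X)
        = T.zw v (P.inv.k1 v, P.inv.k2 v) := by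
      have h1 : P.inv.k1 v = P.k1 v - X := by simp only [PDat.inv, if_neg hx, hX]
      have h2 : P.inv.k2 v = P.k2 v - X := by simp only [PDat.inv, if_neg hx, hX]
      rw [h1, h2, show (P.k1 v - X, P.k2 v - X) = (P.k1 v, P.k2 v) + (-X, -X) by
        rw [Prod.mk_add_mk]; rfl, T.zw_add]
      congr 1
      rw [Frame.zw, if_neg hv]
      split_ifs with hns
      · rw [(T.cOf_inert hv hns).2, zpow_sub₀ (by norm_num : (-1 : ℂ) ≠ 0), (hpar hns).neg_one_zpow,
          one_div, zpow_neg]
      · rw [sub_self, zpow_zero, one_zpow]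
    have e1 : r ^ (-A) * r ^ (2 * X) = r ^ (-(A + -(2 * X))) := by
      rw [← zpow_add₀ hr]; congr 1; ring
    rw [← hz]
    push_cast
    linear_combination (T.zw v (P.k1 v, P.k2 v)
      * (if IsNonsplit σ v then (-1 : ℂ) else 1) ^ (A - X)) * e1

/-- The product of the local constants. -/
def cGlob : ℂ := ∏ᶠ v, cLoc P v

omit [IsGalois F M] in
/-- Almost all local constants of the transform are one. -/
lemma eventually_cLoc : ∀ᶠ v in cofinite, cLoc P v = 1 := by
  filter_upwards [P.fin] with v ⟨a1, a2, _, _⟩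
  rw [cLoc]
  split_ifs <;> simp [a1]

/-- The finite constant times the transform constant is that of the inverted point. -/
lemma cFin_mul_cGlob : cFin P * cGlob P = cFin P.inv := by
  set V := vSet P (0 : M) ∪ vSet P.inv (0 : M) ∪
    (eventually_cofinite.1 (eventually_cLoc P)).toFinset
  have e : ∀ f : Pl F → ℂ, (∀ v ∉ V, f v = 1) → ∏ᶠ v, f v = ∏ v ∈ V, f v := fun f hf =>
    finprod_eq_prod_of_mulSupport_subset _ fun v hv => by
      by_contra h; exact hv (hf v h)
  have hV : ∀ v ∉ V, cP P v = 1 ∧ cP P.inv v = 1 ∧ cLoc P v = 1 := fun v hv => by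
    simp only [V, Finset.mem_union, Set.Finite.mem_toFinset, Set.mem_ofPred_eq, not_or,
      not_not] at hv
    exact ⟨cP_triv P hv.1.1, cP_triv P.inv hv.1.2, hv.2⟩
  rw [cFin, cGlob, cFin, e _ fun v hv => (hV v hv).1, e _ fun v hv => (hV v hv).2.1,
    e _ fun v hv => (hV v hv).2.2, ← Finset.prod_mul_distrib]
  exact Finset.prod_congr rfl fun v _ => cP_mul_cLoc P v

end Fermat.LTG.Theta
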