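import Fermat.Agent.LTG.Theta.Lift
import Fermat.Agent.LTG.CuspAuto

/-!
# Theta: the dihedral form at a level avoiding given places

For a frame `T` the lifted series `T.theta` is invariant, continuous, bounded, an eigenfunction at
infinity and at the places off the level, and nonzero; so it is a cusp form. A frame avoiding a
given finite set exists by `exists_frame`.
-/

set_option autoImplicit false

open NumberField Filter Fermat.CFT
open scoped Classical

noncomputable section

namespace Fermat.LTG.Theta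

open Fermat.LT Fermat.LT.Theta

variable {F M : Type} [Field F] [NumberField F] [IsTotallyComplex F] [Field M] [NumberField M]
  [Algebra F M] [IsGalois F M] {σ : M ≃ₐ[F] M} {lam : Pl F → ℝ}

namespace Frame

variable (T : Frame σ lam)

/-- At every finite point the form is a series with fixed coefficients. -/
lemma exists_theta_ser (ω : Fermat.LTG.FinPt F T.levL) :
    ∃ e : Fˣ → ℂ, IsCf T.dat e ∧ ∀ x, T.theta (ω, x) = ser T.dat e x := by
  obtain ⟨d, hd, h⟩ := T.exists_coef (T.gam ω)
  exact ⟨_, hd.isCf (T.piF ω), fun x => h (T.piF ω, x)⟩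

/-- The form is invariant under `GL₂(F)`. -/
lemma theta_smul (g : GL (Fin 2) F) (p : Fermat.LTG.Pt F T.levL) : T.theta (g • p) = T.theta p := by
  obtain ⟨ω, x⟩ := p
  have hN : T.Norms (T.gam (g • ω) * g) ω := fun v hv => by
    rw [mul_smul]; exact T.gam_spec (g • ω) v hv
  rw [T.theta_eq hN, mul_smul]
  change T.phi0 (T.gam (g • ω) • (T.piF (g • ω), _)) = _
  rw [T.piF_smul]
  rfl

/-- The form is left invariant under `GL₂(F)` in the sense of `IsInvariant`. -/
lemma isInvariant_theta : Fermat.LTG.IsInvariant T.theta :=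
  Fermat.LTG.isInvariant_iff.2 T.theta_smul

/-- The form is continuous at infinity. -/
lemma continuous_theta (ω : Fermat.LTG.FinPt F T.levL) :
    Continuous fun x : InfinitePlace F → H3 => T.theta (ω, x) := by
  obtain ⟨e, he, h⟩ := T.exists_theta_ser ω
  simp only [h]
  exact continuous_ser he

/-- The form is an eigenfunction at infinity with parameter `0`. -/
lemma arch_theta : Fermat.LTG.IsArchEigen T.theta := by
  rintro w k hk hs ⟨ω, x⟩
  obtain ⟨e, he, h⟩ := T.exists_theta_ser ω
  simp only [h]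
  exact arch_ser he w k hk hs x

/-- The form is bounded: it is bounded on a Siegel set for each of finitely many finite points. -/
lemma bounded_theta : ∃ C : ℝ, ∀ p, ‖T.theta p‖ ≤ C := by
  obtain ⟨Ω, R, c, hc, hΩ⟩ := Fermat.LTG.exists_siegel (F := F) (S := T.levL)
  choose e he h using fun ω => T.exists_theta_ser ω
  choose B hB using fun ω => exists_bound_ser (he ω) hc
  refine ⟨∑ ω ∈ Ω, |B ω|, fun p => ?_⟩
  obtain ⟨γ, hq, hx, -⟩ := hΩ p
  rw [← T.theta_smul γ p]
  change ‖T.theta ((γ • p).1, (γ • p).2)‖ ≤ _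
  rw [h]
  exact ((hB _ _ fun w => (hx w).2).trans (le_abs_self _)).trans
    (Finset.single_le_sum (f := fun ω => |B ω|) (fun _ _ => abs_nonneg _) hq)

/-- The form is a Hecke eigenfunction off the level. -/
lemma hecke_theta {v : Pl F} (hv : v ∉ T.levL) (p : Fermat.LTG.Pt F T.levL) :
    Fermat.LTG.heckeT v T.theta p = (lam v : ℂ) * T.theta p := by
  obtain ⟨ω, x⟩ := p
  have hS : v ∉ T.S := fun h => hv (T.mem_levL.2 h)
  obtain ⟨d, hd, h⟩ := T.exists_coef (T.gam ω)
  have hset : ∀ y, T.theta (ω.set v y, x) = T.gphi d ((T.piF ω).set v (T.piV v y), x) := fun y => by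
    rw [T.theta_eq (γ := T.gam ω), T.piF_set, h]
    intro u hu
    change T.gam ω • Function.update ω.1 v y u = _
    have hne : u ≠ v := fun e => hS (e ▸ hu)
    rw [Function.update_of_ne hne]
    exact T.gam_spec ω u hu
  have hp : T.theta (ω, x) = T.gphi d (T.piF ω, x) := h (T.piF ω, x)
  rw [hp, ← T.hecke_gphi hd hS]
  refine finsum_mem_eq_of_bijOn (T.piV v) ?_ fun y _ => hset y
  refine ⟨?_, (T.piV_bijective hS).1.injOn, ?_⟩
  · rintro y ⟨g, g', h1, h2, h3⟩
    refine ⟨g, g', ?_, ?_, h3⟩
    · change T.piV v (ω.1 v) = _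
      rw [show ω.1 v = _ from h1]; rfl
    · rw [h2]; rfl
  · rintro y ⟨g, g', h1, h2, h3⟩
    refine ⟨(g' : Fermat.LTG.Vert T.levL v), ⟨g, g', (T.piV_bijective hS).1 h1, rfl, h3⟩, h2.symm⟩

/-- The form is not zero. -/
lemma theta_ne_zero : ∃ p, T.theta p ≠ 0 := by
  -- at the base point the coefficient of `1` is not zero
  set ω : Fermat.LTG.FinPt F T.levL := Fermat.LTG.FinPt.base
  have hN : T.Norms 1 ω := fun v _ => one_smul _ _
  have hc : T.c0 1 * T.finS 1 (T.piF ω) ≠ 0 := by
    refine mul_ne_zero (by simp [c0, PU]) ?_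
    have h1 : ∀ v, T.fS 1 (T.piF ω) v = 1 := fun v => by
      unfold fS
      split_ifs with hv
      · rfl
      change T.dat.W v (upMat 1 0 • ((1 : GL (Fin 2) F) : Fermat.LT.Vert (∅ : Set (Pl F)) v)) = 1
      rw [upMat_one, one_smul, ← upMat_one, LDat.W,
        locW_upMat T.dat.h3 T.dat.δ T.dat.c T.dat.N T.dat.hN, mul_zero, Fermat.LT.Mult.psi_zero,
        one_mul, hfun, if_neg (Set.notMem_empty v)]
      have e : eL T.dat.δ v = 0 := T.eL_off v hv
      simp [e, radial, chebU]
    rw [finS, finprod_congr h1, finprod_one]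
    exact one_ne_zero
  obtain ⟨x, hx⟩ := exists_ser_ne_zero (α₀ := 1) ((T.isCoef_c0).isCf (T.piF ω)) hc
  refine ⟨(ω, x), ?_⟩
  rw [T.theta_eq hN, one_smul]
  exact hx

/-- **The series is a cusp form with the given eigenvalues.** -/
theorem isForm_theta : Fermat.LTG.IsForm T.levL ∅ lam T.theta where
  nonzero := T.theta_ne_zero
  invariant := T.isInvariant_theta
  continuous := T.continuous_theta
  bounded := T.bounded_theta
  arch := T.arch_theta
  cuspidal := Fermat.LTG.hasZeroConst_of_archEigen T.isInvariant_theta T.continuous_theta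
    T.bounded_theta T.arch_theta
  hecke _ hv _ p := T.hecke_theta hv p

end Frame

omit [IsGalois F M] in
/-- **The dihedral form avoiding given places**: for Hecke character data with ramified set `R` and
`Keep` disjoint from `R`, a cusp form with eigenvalues `lam` whose level avoids `Keep`. -/
theorem exists_isForm {R : Finset (Pl F)} (H : Fermat.LTG.HData σ lam R) (Keep : Finset (Pl F))
    (hK : Disjoint Keep R) :
    ∃ (S₀ : Fermat.LTG.Lev F) (Z : Set (Pl F)) (Φ : Fermat.LTG.Pt F S₀ → ℂ), Z.Finite ∧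
      (∀ w ∈ Keep, w ∉ S₀ ∧ w ∉ Z) ∧ Fermat.LTG.IsForm S₀ Z lam Φ := by
  have := H.galois
  obtain ⟨T, -, hT⟩ := exists_frame H Keep hK
  exact ⟨T.levL, ∅, T.theta, Set.finite_empty, fun w hw =>
    ⟨fun h => Finset.disjoint_left.1 hT hw (T.mem_levL.1 h), Set.notMem_empty w⟩, T.isForm_theta⟩

end Fermat.LTG.Theta
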