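import Fermat.Agent.LTG.Theta.Coef

/-!
# Theta: parameters of a finite point off `S` and their behaviour under the inversion

`PDat` holds the parameters, which exist unless the factors vanish (`exists_pdat_or_zero`);
`PDat.inv` is for the inverted point.
-/

set_option autoImplicit false

noncomputable section

open NumberField Fermat.CFT Filter
open scoped Classical

namespace Fermat.LTG.Theta

open Fermat.LT Fermat.LT.Theta

variable {F M : Type} [Field F] [NumberField F] [IsTotallyComplex F] [Field M] [NumberField M]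
  [Algebra F M] [IsGalois F M] {σ : M ≃ₐ[F] M} {lam : Pl F → ℝ} (T : Frame σ lam)

/-- The parameters of a finite point, trivial on `S`. -/
structure PDat (ω : FinPt0 F) where
  /-- The diagonal parameter at each place. -/
  a : Pl F → Fˣ
  /-- The unipotent parameter at each place. -/
  x : Pl F → F
  /-- Off `S` the component at `v` is the class of `[[a, x], [0, 1]]` times an element of `U0`. -/
  rep : ∀ v ∉ T.S, ∃ k ∈ U0 (v.valuation F),
    ω.1 v = ((upMat (a v) (x v) * k : GL (Fin 2) F) : Fermat.LT.Vert (∅ : Set (Pl F)) v)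
  /-- The box exponent at the chosen prime over `v`. -/
  k1 : Pl F → ℤ
  /-- The box exponent at the conjugate prime. -/
  k2 : Pl F → ℤ
  /-- Almost everywhere the parameters and exponents are trivial. -/
  fin : ∀ᶠ v in cofinite, CFT.ord v (a v : F) = 0 ∧ x v = 0 ∧ k1 v = 0 ∧ k2 v = 0
  /-- On `S` the parameters and exponents are trivial. -/
  on : ∀ v ∈ T.S, a v = 1 ∧ x v = 0 ∧ k1 v = 0 ∧ k2 v = 0
  /-- At a non-split place the two exponents agree. -/
  adm : ∀ v, IsNonsplit σ v → k1 v = k2 v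
  /-- The unipotent parameter is zero or of smaller order than `a`. -/
  xoff : ∀ v, x v = 0 ∨ CFT.ord v (x v) < CFT.ord v (a v : F)
  /-- The exponents add to the order of `a`. -/
  koff : ∀ v, k1 v + k2 v = CFT.ord v (a v : F)

variable {T}

omit [IsTotallyComplex F] in
/-- A vertex has coordinates with translation zero or more polar than the diagonal. -/
lemma exists_rep0 (ω : FinPt0 F) (v : Pl F) :
    ∃ (a : Fˣ) (x : F), (x = 0 ∨ CFT.ord v x < CFT.ord v (a : F)) ∧
      ∃ k ∈ U0 (v.valuation F),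
        ω.1 v = ((upMat a x * k : GL (Fin 2) F) : Fermat.LT.Vert (∅ : Set (Pl F)) v) := by
  obtain ⟨a, x, k, hk, h⟩ :=
    exists_repr (S := (∅ : Set (Pl F))) (fun u hu => absurd hu (Set.notMem_empty u)) (ω.1 v)
  have hk' := (mem_klein_off (Set.notMem_empty v)).1 hk
  by_cases hx : x = 0 ∨ CFT.ord v x < CFT.ord v (a : F)
  · exact ⟨a, x, hx, k, hk', h⟩
  rw [not_or, not_lt] at hx
  have hr : v.valuation F (((a⁻¹ : Fˣ) : F) * x) ≤ 1 := by
    rw [valuation_eq_exp_neg_ord v (mul_ne_zero (a⁻¹).ne_zero hx.1),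
      CFT.ord_mul v (a⁻¹).ne_zero hx.1,
      Units.val_inv_eq_inv_val, CFT.ord_inv, ← WithZero.exp_zero, WithZero.exp_le_exp]
    omega
  refine ⟨a, 0, Or.inl rfl, upMat 1 (((a⁻¹ : Fˣ) : F) * x) * k,
    (U0 _).mul_mem ⟨1, ?_⟩ hk', ?_⟩
  · rw [show scal (1 : Fˣ) = (1 : GL (Fin 2) F) by simp [scal], one_mul]
    exact upMat_mem_intGL _ (by simp) hr
  · rw [h, ← mul_assoc, upMat_mul, mul_one, add_zero, ← mul_assoc, Units.mul_inv, one_mul]

/-- The local factor at a norm vanishes at an inert place of odd exponent. -/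
lemma W_eq_zero_of_odd {ω : FinPt0 F} {v : Pl F} (hv : v ∉ T.S) (hns : IsNonsplit σ v) {a : Fˣ}
    {x : F} {k : GL (Fin 2) F} (hk : k ∈ U0 (v.valuation F))
    (he : ω.1 v = ((upMat a x * k : GL (Fin 2) F) : Fermat.LT.Vert (∅ : Set (Pl F)) v))
    (hodd : Odd (CFT.ord v (a : F))) (ξ : Mˣ) :
    T.dat.W v (upMat (nrm σ ξ) 0 • ω.1 v) = 0 := by
  set α := nrm σ ξ
  rw [he, MulAction.Quotient.smul_coe, smul_eq_mul, ← mul_assoc, upMat_mul, LDat.W,
    locW_eq T.dat.h3 _ _ _ T.dat.hN ((mem_klein_off (Set.notMem_empty v)).2 hk) rfl]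
  refine mul_eq_zero_of_right _ ?_
  rw [hfun, if_neg (Set.notMem_empty v)]
  have hαn : α ∈ lnorms M v := norm_mem_localNorms (y := ξ) rfl
  have hαe := (mem_lnorms_iff_even T.H.finrank T.H.σ_ne hns (T.notMem_ramPl hv) α).1 hαn
  rw [show T.dat.c v = 0 by
    change (if v ∈ T.S then 0 else cOf lam v) = 0
    rw [if_neg hv, (T.cOf_inert hv hns).1],
    show T.dat.δ = T.δ from rfl, T.eL_off v hv, add_zero, Units.val_mul,
    CFT.ord_mul _ α.ne_zero (Units.ne_zero _)]
  have hn : Odd (CFT.ord v (α : F) + CFT.ord v (a : F)) := hαe.add_odd hodd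
  rw [radial]
  split_ifs with hneg
  · simp
  obtain ⟨n, hn'⟩ := hn
  rw [hn', show (2 * n + 1).toNat = 2 * n.toNat + 1 by omega, (chebU_zero _).2]
  simp

variable (T) in
/-- The data exist or all factors at norms vanish. -/
theorem exists_pdat_or_zero (ω : FinPt0 F) :
    Nonempty (PDat T ω) ∨ ∀ ξ : Mˣ, T.finS (nrm σ ξ) ω = 0 := by
  -- upper triangular representatives of the local points
  have h : ∀ v, ∃ (a : Fˣ) (x : F), (x = 0 ∨ CFT.ord v x < CFT.ord v (a : F)) ∧
      (v ∈ T.S ∨ ω.1 v = ((1 : GL (Fin 2) F) : Fermat.LT.Vert (∅ : Set (Pl F)) v) → a = 1 ∧ x = 0) ∧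
      (v ∉ T.S → ∃ k ∈ U0 (v.valuation F),
        ω.1 v = ((upMat a x * k : GL (Fin 2) F) : Fermat.LT.Vert (∅ : Set (Pl F)) v)) := by
    intro v
    by_cases hv : v ∈ T.S
    · exact ⟨1, 0, Or.inl rfl, fun _ => ⟨rfl, rfl⟩, fun h => absurd hv h⟩
    by_cases h1 : ω.1 v = ((1 : GL (Fin 2) F) : Fermat.LT.Vert (∅ : Set (Pl F)) v)
    · exact ⟨1, 0, Or.inl rfl, fun _ => ⟨rfl, rfl⟩, fun _ => ⟨1, (U0 _).one_mem,
        by rw [h1, upMat_one, one_mul]⟩⟩
    · obtain ⟨a, x, hx, hk⟩ := exists_rep0 ω v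
      exact ⟨a, x, hx, fun h => absurd h (not_or.2 ⟨hv, h1⟩), fun _ => hk⟩
  choose a x hx hbase hrep using h
  -- an odd order at a nonsplit place kills the coefficient
  by_cases hsol : ∀ v ∉ T.S, IsNonsplit σ v → Even (CFT.ord v (a v : F))
  swap
  · right
    intro ξ
    push Not at hsol
    obtain ⟨v, hv, hns, hodd⟩ := hsol
    obtain ⟨k, hk, he⟩ := hrep v hv
    refine finprod_eq_zero _ v ?_ (T.finite_fS _ ω)
    rw [Frame.fS, if_neg hv]
    exact W_eq_zero_of_odd hv hns hk he (Int.not_even_iff_odd.1 hodd) ξ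
  left
  -- otherwise the order splits between the places above
  have hkex : ∀ v, ∃ k1 k2 : ℤ, (IsNonsplit σ v → k1 = k2) ∧ k1 + k2 = CFT.ord v (a v : F) ∧
      (CFT.ord v (a v : F) = 0 → k1 = 0 ∧ k2 = 0) := by
    intro v
    by_cases hns : IsNonsplit σ v
    · obtain ⟨r, hr⟩ : Even (CFT.ord v (a v : F)) := by
        by_cases hv : v ∈ T.S
        · rw [(hbase v (Or.inl hv)).1]; simp
        · exact hsol v hv hns
      exact ⟨r, r, fun _ => rfl, hr.symm, fun h0 => by omega⟩
    · exact ⟨CFT.ord v (a v : F), 0, fun h => absurd h hns, add_zero _, fun h0 => ⟨h0, rfl⟩⟩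
  choose k1 k2 hadm hsum hzero using hkex
  refine ⟨⟨a, x, hrep, k1, k2, ?_, fun v hv => ?_, hadm, hx, hsum⟩⟩
  · filter_upwards [ω.2] with v h1
    obtain ⟨e1, e2⟩ := hbase v (Or.inr h1)
    have ho : CFT.ord v (a v : F) = 0 := by rw [e1]; simp
    exact ⟨ho, e2, hzero v ho⟩
  · obtain ⟨e1, e2⟩ := hbase v (Or.inl hv)
    exact ⟨e1, e2, hzero v (by rw [e1]; simp)⟩

/-- The parameters of the inverted point. -/
def PDat.inv {ω : FinPt0 F} (P : PDat T ω) : PDat T (jMat F • ω) where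
  a v := if h : P.x v = 0 then (P.a v)⁻¹ else P.a v * (Units.mk0 (P.x v) h ^ 2)⁻¹
  x v := -(P.x v)⁻¹
  rep v hv := by
    -- the representative of the inverted point
    obtain ⟨k, hk, he⟩ := P.rep v hv
    rw [FinPt.smul_apply, he, MulAction.Quotient.smul_coe, smul_eq_mul, ← mul_assoc]
    by_cases hx : P.x v = 0
    · rw [dif_pos hx, hx, jMat_mul_upMat_zero, inv_zero, neg_zero, mul_assoc]
      exact ⟨_, (U0 _).mul_mem ((U0 _).mul_mem (scal_mem_withScalars _ _)
        (le_withScalars _ (jMat_mem_intGL v))) hk, rfl⟩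
    · rw [dif_neg hx]
      obtain ⟨K, hK, hJ⟩ := jMat_mul_upMat (P.a v) (Units.mk0 (P.x v) hx)
      rw [Units.val_mk0] at hJ hK
      rw [hJ, mul_assoc]
      have hlt := (P.xoff v).resolve_left hx
      refine ⟨_, (U0 _).mul_mem ((U0 _).mul_mem (scal_mem_withScalars _ _) (lower_mem_U0 ?_ hK)) hk,
        by rw [Units.val_inv_eq_inv_val, Units.val_mk0]⟩
      rw [valuation_eq_exp_neg_ord v (div_ne_zero (neg_ne_zero.2 (P.a v).ne_zero) hx),
        CFT.ord_div v (neg_ne_zero.2 (P.a v).ne_zero) hx, CFT.ord_neg, ← WithZero.exp_zero,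
        WithZero.exp_le_exp]
      omega
  k1 v := if P.x v = 0 then -P.k2 v else P.k1 v - CFT.ord v (P.x v)
  k2 v := if P.x v = 0 then -P.k1 v else P.k2 v - CFT.ord v (P.x v)
  fin := by
    filter_upwards [P.fin] with v ⟨h1, h2, h3, h4⟩
    simp only [h2, dif_pos, if_pos, h3, h4]
    simp [h1, CFT.ord_inv]
  on v hv := by
    obtain ⟨h1, h2, h3, h4⟩ := P.on v hv
    simp [h1, h2, h3, h4]
  adm v hns := by
    have := P.adm v hns
    split_ifs <;> omega
  xoff v := by
    by_cases hx : P.x v = 0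
    · left; rw [hx, inv_zero, neg_zero]
    right
    rw [dif_neg hx, Units.val_mul, CFT.ord_mul v (Units.ne_zero _) (Units.ne_zero _),
      Units.val_inv_eq_inv_val, CFT.ord_inv, Units.val_pow_eq_pow_val, Units.val_mk0, CFT.ord_pow,
      CFT.ord_neg, CFT.ord_inv]
    have := (P.xoff v).resolve_left hx
    omega
  koff v := by
    have hk := P.koff v
    by_cases hx : P.x v = 0
    · rw [if_pos hx, if_pos hx, dif_pos hx, Units.val_inv_eq_inv_val, CFT.ord_inv]
      omega
    · rw [if_neg hx, if_neg hx, dif_neg hx, Units.val_mul,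
        CFT.ord_mul v (Units.ne_zero _) (Units.ne_zero _), Units.val_inv_eq_inv_val, CFT.ord_inv,
        Units.val_pow_eq_pow_val, Units.val_mk0, CFT.ord_pow]
      omega

end Fermat.LTG.Theta
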