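import Fermat.Agent.LTG.Theta.Unfold
import Fermat.Agent.LT.Theta.Crt
import Fermat.Agent.LT.Theta.LocalPair

/-!
# Theta: the semilocal factors at `S` and their transforms

A function on the units at `S` of `F` gives, through the norm, a semilocal factor supported on the
shells of exponents `(-τ, τ)`; its transform for the trace pairing is again a semilocal factor,
with bounds depending only on the level of the function.
-/

set_option autoImplicit false
set_option linter.unusedSectionVars false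

noncomputable section

open NumberField Fermat.CFT Filter
open scoped Classical

namespace Fermat.LTG.Theta

open Fermat.LT Fermat.LT.Theta

variable {F M : Type} [Field F] [NumberField F] [IsTotallyComplex F] [Field M] [NumberField M]
  [Algebra F M] [IsGalois F M] {σ : M ≃ₐ[F] M} {lam : Pl F → ℝ}

variable (σ) in
/-- Elements in prescribed boxes at the places of a finite set. -/
def sBox (V : Finset (Pl F)) (m : Pl F → ℤ × ℤ) : AddSubgroup M := ⨅ v ∈ V, box σ v (m v)

/-- Membership in the boxes at a finite set of places. -/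
lemma mem_sBox {V : Finset (Pl F)} {m : Pl F → ℤ × ℤ} {η : M} :
    η ∈ sBox σ V m ↔ ∀ v ∈ V, η ∈ box σ v (m v) := by
  simp [sBox, AddSubgroup.mem_iInf]

/-- Multiplication shifts the exponents of a semilocal box. -/
lemma sBox_map_mulE {V : Finset (Pl F)} {m : Pl F → ℤ × ℤ} {a : M} (ha : a ≠ 0) :
    (sBox σ V m).map (mulE ha).toAddMonoidHom
      = sBox σ V (fun v => m v + (CFT.ord (plOver M v) a, CFT.ord (plConj σ v) a)) := by
  ext η
  constructor
  · rintro ⟨x, hx, rfl⟩
    refine mem_sBox.2 fun v hv => ?_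
    rw [← box_map_mulE ha]
    exact ⟨x, mem_sBox.1 hx v hv, rfl⟩
  · intro hη
    refine ⟨a⁻¹ * η, mem_sBox.2 fun v hv => ?_, mul_inv_cancel_left₀ ha η⟩
    have h := mem_sBox.1 hη v hv
    rw [← box_map_mulE ha] at h
    obtain ⟨x, hx, rfl⟩ := h
    change a⁻¹ * (a * x) ∈ _
    rwa [inv_mul_cancel_left₀ ha]

/-- The classes modulo the boxes of a finite set inject in the product of the local classes. -/
lemma relIndex_sBox_le (hF : Module.finrank F M = 2) (hσ : σ ≠ 1) {V : Finset (Pl F)}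
    {lo hi : Pl F → ℤ × ℤ} (hlh : ∀ v ∈ V, (lo v).1 ≤ (hi v).1 ∧ (lo v).2 ≤ (hi v).2)
    (hadm : ∀ v ∈ V, Adm σ v (lo v) ∧ Adm σ v (hi v)) :
    (sBox σ V hi).relIndex (sBox σ V lo) ≤ ∏ v ∈ V, boxCard σ v (hi v - lo v)
      ∧ (sBox σ V hi).relIndex (sBox σ V lo) ≠ 0 := by
  let f : sBox σ V lo →+ ∀ v : V, box σ v.1 (lo v) ⧸ (box σ v.1 (hi v)).addSubgroupOf
      (box σ v.1 (lo v)) :=
    { toFun := fun x v => QuotientAddGroup.mk ⟨x.1, mem_sBox.1 x.2 v.1 v.2⟩
      map_zero' := funext fun v => rfl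
      map_add' := fun x y => funext fun v => rfl }
  have hker : f.ker = (sBox σ V hi).addSubgroupOf (sBox σ V lo) := by
    ext x
    rw [AddMonoidHom.mem_ker, AddSubgroup.mem_addSubgroupOf, mem_sBox]
    exact ⟨fun h v hv => AddSubgroup.mem_addSubgroupOf.1 ((QuotientAddGroup.eq_zero_iff
      (⟨x.1, mem_sBox.1 x.2 v hv⟩ : box σ v (lo v))).1 (congrFun h ⟨v, hv⟩)),
      fun h => funext fun v => (QuotientAddGroup.eq_zero_iff _).2 (h v.1 v.2)⟩
  have hfin : ∀ v : V,
      Finite (box σ v.1 (lo v) ⧸ (box σ v.1 (hi v)).addSubgroupOf (box σ v.1 (lo v))) :=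
    fun v => Nat.finite_of_card_ne_zero
      (relIndex_box_ne_zero hF hσ (hlh _ v.2).1 (hlh _ v.2).2 (hadm _ v.2).1 (hadm _ v.2).2)
  have hinj := QuotientAddGroup.kerLift_injective f
  have : Finite (sBox σ V lo ⧸ f.ker) := Finite.of_injective _ hinj
  rw [AddSubgroup.relIndex, AddSubgroup.index, ← hker]
  refine ⟨(Nat.card_le_card_of_injective _ hinj).trans_eq ?_, Nat.card_pos.ne'⟩
  rw [Nat.card_pi, ← Finset.prod_attach V (fun v => boxCard σ v (hi v - lo v))]
  exact Finset.prod_congr rfl fun v _ =>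
    relIndex_box hF hσ (hlh _ v.2).1 (hlh _ v.2).2 (hadm _ v.2).1 (hadm _ v.2).2

/-- The exponents of the shell. -/
def loS (τ : Pl F →₀ ℤ) (v : Pl F) : ℤ × ℤ := (-τ v, τ v)

/-- A function on the units at `S`, of level `n`. -/
structure SFun (T : Frame σ lam) (n : ℕ) where
  /-- The values of the function. -/
  h : F → ℂ
  /-- The values are at most one in norm. -/
  bound : ∀ a, ‖h a‖ ≤ 1
  /-- The support lies in the units at `S`. -/
  supp : ∀ a, h a ≠ 0 → ∀ v ∈ T.S, v.valuation F a = 1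
  /-- The function is invariant under multiplication by elements congruent to one to level `n`. -/
  inv : ∀ a u : F, (∀ v ∈ T.S, CloseOne v (n : ℤ) u) → h (a * u) = h a

variable {T : Frame σ lam}

namespace Frame

variable (T)

/-- The modulus of the character at `S`. -/
def fCh : ℕ := (T.exists_modulus).choose

/-- The character at `S` is trivial on the elements close to one to the modulus. -/
lemma fCh_spec (x : Mˣ) (h : ∀ P : Pl M, plUnder F P ∈ T.S → CloseOne P T.fCh (x : M)) :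
    T.chS (x : M) = 1 := T.exists_modulus.choose_spec x h

/-- The depth attached to a level. -/
def M1 (n : ℕ) : ℕ := (n + 1) * (∑ v ∈ T.S, plRamIdx F (plOver M v)) + T.fCh + 1

/-- The depth dominates the level, the modulus and one. -/
lemma M1_spec (n : ℕ) {v : Pl F} (hv : v ∈ T.S) :
    n * plRamIdx F (plOver M v) ≤ T.M1 n ∧ T.fCh ≤ T.M1 n ∧ 1 ≤ T.M1 n := by
  have he : plRamIdx F (plOver M v) ≤ ∑ u ∈ T.S, plRamIdx F (plOver M u) :=
    Finset.single_le_sum (f := fun u => plRamIdx F (plOver M u)) (fun u _ => Nat.zero_le _) hv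
  refine ⟨?_, by unfold M1; omega, by unfold M1; omega⟩
  have := Nat.mul_le_mul (Nat.le_add_right n 1) he
  unfold M1; omega

include T in
/-- An element of norm one has opposite orders at conjugate places. -/
lemma ord_conj_nKer (μ : nKer F M) (v : Pl F) :
    CFT.ord (plConj σ v) ((μ : Mˣ) : M) = -CFT.ord (plOver M v) ((μ : Mˣ) : M) := by
  have h := T.norm_ord v (μ : Mˣ)
  rw [norm_of_mem_nKer μ, CFT.ord, map_one, WithZero.log_one, neg_zero, mul_zero] at h
  simp only [ordV] at h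
  omega

include T in
/-- The conjugate of an element of norm one is its inverse. -/
lemma conj_nKer (μ : nKer F M) : σ ((μ : Mˣ) : M) = ((μ : Mˣ) : M)⁻¹ := by
  refine eq_inv_of_mul_eq_one_right ?_
  rw [← norm_eq T.H.finrank T.H.σ_ne, norm_of_mem_nKer μ, map_one]

/-- The exponents vanish at the non-split places of `S`. -/
def AdmT (τ : Pl F →₀ ℤ) : Prop := ∀ v ∈ T.S, IsNonsplit σ v → τ v = 0

/-- The exponents of the periods. -/
def hiS (n : ℕ) (τ : Pl F →₀ ℤ) (v : Pl F) : ℤ × ℤ := (-τ v + T.M1 n, τ v + T.M1 n)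

/-- Nonzero, with orders `∓ τ v` at the two places over each `v ∈ S`. -/
def Shell (τ : Pl F →₀ ℤ) (η : M) : Prop :=
  η ≠ 0 ∧ ∀ v ∈ T.S, CFT.ord (plOver M v) η = -τ v ∧ CFT.ord (plConj σ v) η = τ v

/-- The orthogonality to the periods. -/
def Orth (n : ℕ) (τ : Pl F →₀ ℤ) (y : M) : Prop :=
  ∀ v ∈ T.S, ∀ l ∈ box σ v (T.hiS n τ v), psiD T.δ v (pair σ l y) = 1

/-- The exponents of the shell are admissible. -/
lemma adm_loS {τ : Pl F →₀ ℤ} (h : T.AdmT τ) {v : Pl F} (hv : v ∈ T.S) : Adm σ v (loS τ v) :=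
  fun hns => by simp [loS, h v hv hns]

/-- The exponents of the periods are admissible. -/
lemma adm_hiS (n : ℕ) {τ : Pl F →₀ ℤ} (h : T.AdmT τ) {v : Pl F} (hv : v ∈ T.S) :
    Adm σ v (T.hiS n τ v) := fun hns => by simp [hiS, h v hv hns]

/-- The periods lie inside the shell. -/
lemma loS_le_hiS (n : ℕ) (τ : Pl F →₀ ℤ) (v : Pl F) :
    (loS τ v).1 ≤ (T.hiS n τ v).1 ∧ (loS τ v).2 ≤ (T.hiS n τ v).2 := by
  simp only [loS, hiS]; omega

/-- Translating by an element of norm one preserves admissibility. -/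
lemma admT_shift (τ : Pl F →₀ ℤ) (μ : nKer F M) :
    T.AdmT (τ + ordT F ((μ : Mˣ) : M)) ↔ T.AdmT τ := by
  refine forall₂_congr fun v _ => imp_congr_right fun hns => ?_
  have h1 := T.nonsplit_ord hns ((μ : Mˣ) : M)
  have h2 := T.ord_conj_nKer μ v
  rw [Finsupp.add_apply, ordT_apply]
  omega

/-- Multiplication by an element of norm one moves the shells. -/
lemma shell_mul (τ : Pl F →₀ ℤ) (μ : nKer F M) (η : M) :
    T.Shell τ (((μ : Mˣ) : M) * η) ↔ T.Shell (τ + ordT F ((μ : Mˣ) : M)) η := by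
  have hμ := (μ : Mˣ).ne_zero
  rcases eq_or_ne η 0 with rfl | hη
  · simp [Shell]
  refine and_congr (iff_of_true (mul_ne_zero hμ hη) hη) (forall₂_congr fun v _ => ?_)
  rw [CFT.ord_mul _ hμ hη, CFT.ord_mul _ hμ hη, Finsupp.add_apply, ordT_apply, T.ord_conj_nKer μ v]
  omega

/-- A small translate stays on the shell and differs by a principal unit. -/
lemma shell_add (n : ℕ) {τ : Pl F →₀ ℤ} {η z : M} (hη : T.Shell τ η)
    (hz : z ∈ sBox σ T.S (T.hiS n τ)) :
    η + z ≠ 0 ∧ T.Shell τ (η + z) ∧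
      ∃ e : Mˣ, η + z = η * (e : M) ∧
        ∀ v ∈ T.S, (e : M) - 1 ∈ box σ v ((T.M1 n : ℤ), (T.M1 n : ℤ)) := by
  obtain ⟨h0, hsh⟩ := hη
  set w := η⁻¹ * z
  have hw : ∀ v ∈ T.S, w ∈ box σ v ((T.M1 n : ℤ), (T.M1 n : ℤ)) := fun v hv => by
    obtain ⟨e1, e2⟩ := hsh v hv
    have hi : η⁻¹ ∈ box σ v (τ v, -τ v) := (mem_box_iff_ord (inv_ne_zero h0)).2
      ⟨by rw [CFT.ord_inv, e1, neg_neg], by rw [CFT.ord_inv, e2]⟩
    have h := mul_mem_box hi (mem_sBox.1 hz v hv)
    convert h using 2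
    ext <;> simp [hiS]
  have hlt : ∀ v ∈ T.S, ∀ P : Pl M, P = plOver M v ∨ P = plConj σ v → P.valuation M w < 1 := by
    intro v hv P hP
    have h1 := (T.M1_spec n hv).2.2
    rcases hP with rfl | rfl
    · refine lt_of_le_of_lt (hw v hv).1 ?_
      rw [← WithZero.exp_zero, WithZero.exp_lt_exp]; simp only; omega
    · refine lt_of_le_of_lt (hw v hv).2 ?_
      rw [← WithZero.exp_zero, WithZero.exp_lt_exp]; simp only; omega
  obtain ⟨v0, hv0⟩ := T.ne
  have hw1 : 1 + w ≠ 0 := fun h => by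
    have := hlt v0 hv0 _ (Or.inl rfl)
    rw [eq_neg_of_add_eq_zero_right h, Valuation.map_neg, map_one] at this
    exact lt_irrefl _ this
  have he : η + z = η * (1 + w) := by rw [mul_add, mul_one, mul_inv_cancel_left₀ h0]
  have ho : ∀ v ∈ T.S, ∀ P : Pl M, P = plOver M v ∨ P = plConj σ v →
      CFT.ord P (η + z) = CFT.ord P η := fun v hv P hP => by
    rw [he, CFT.ord_mul _ h0 hw1, add_eq_left, CFT.ord,
      (P.valuation M).map_add_eq_of_lt_left (by rw [map_one]; exact hlt v hv P hP), map_one,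
      WithZero.log_one, neg_zero]
  refine ⟨he ▸ mul_ne_zero h0 hw1, ⟨he ▸ mul_ne_zero h0 hw1, fun v hv => ?_⟩,
    Units.mk0 _ hw1, he, fun v hv => by simpa using hw v hv⟩
  rw [ho v hv _ (Or.inl rfl), ho v hv _ (Or.inr rfl)]
  exact hsh v hv

end Frame

variable {n : ℕ}

namespace SFun

variable (f : SFun T n)

/-- The factor on the shells. -/
def gE (τ : Pl F →₀ ℤ) (η : M) : ℂ :=
  if T.Shell τ η then T.chS η * f.h (Algebra.norm F η) else 0

/-- The factor on the shells is bounded by one. -/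
lemma norm_gE_le (τ : Pl F →₀ ℤ) (η : M) : ‖f.gE τ η‖ ≤ 1 := by
  unfold gE
  split_ifs
  · rw [norm_mul, T.norm_chS, one_mul]; exact f.bound _
  · simp

/-- The factor on the shells transforms by the character under elements of norm one. -/
lemma gE_mul (μ : nKer F M) (τ : Pl F →₀ ℤ) (η : M) :
    f.gE τ (((μ : Mˣ) : M) * η) = T.chS ((μ : Mˣ) : M) * f.gE (τ + ordT F ((μ : Mˣ) : M)) η := by
  unfold gE
  rw [if_congr (T.shell_mul τ μ η) rfl rfl]
  split_ifs with h
  · rw [T.chS_mul (μ : Mˣ).ne_zero h.1, map_mul, norm_of_mem_nKer μ, one_mul, mul_assoc]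
  · rw [mul_zero]

/-- The factor on the shells is periodic. -/
lemma gE_periodic (τ : Pl F →₀ ℤ) (η : M) {z : M} (hz : z ∈ sBox σ T.S (T.hiS n τ)) :
    f.gE τ (η + z) = f.gE τ η := by
  have hF := T.H.finrank
  have hσ := T.H.σ_ne
  -- translation by the box keeps the shell
  by_cases h : T.Shell τ η
  swap
  · have h' : ¬ T.Shell τ (η + z) := fun h' => h (by
      have := (T.shell_add n h' (neg_mem hz)).2.1
      rwa [add_neg_cancel_right] at this)
    rw [gE, gE, if_neg h, if_neg h']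
  -- inside it, adding `z` multiplies by some `e` close to one
  obtain ⟨-, h', e, he, hc⟩ := T.shell_add n h hz
  rw [gE, gE, if_pos h, if_pos h', he, T.chS_mul h.1 e.ne_zero, map_mul]
  -- so `chS e = 1`
  have h1 : T.chS (e : M) = 1 := T.fCh_spec e fun P hP => by
    rcases eq_or_ne (e : M) 1 with h1 | h1
    · exact Or.inl h1
    refine Or.inr ?_
    have hb := (mem_box_iff_ord (sub_ne_zero.2 h1)).1 (hc _ hP)
    have := (T.M1_spec n hP).2.1
    rcases eq_or_eq_of_plUnder hF hσ (rfl : plUnder F P = plUnder F P) with e' | e' <;>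
      conv_rhs => rw [e']
    · simp only at hb; omega
    · simp only at hb; omega
  rw [h1, mul_one, f.inv _ _ fun v hv => ?_]
  -- and the norm of `e` is close enough to one for the invariance of `h`
  rcases eq_or_ne (Algebra.norm F (e : M)) 1 with h2 | h2
  · exact Or.inl h2
  refine Or.inr ?_
  set k := (T.M1 n : ℤ)
  have hk : 0 ≤ k := Int.natCast_nonneg _
  have hd := hc v hv
  have hdσ : σ ((e : M) - 1) ∈ box σ v (k, k) := (smul_mem_box_iff hF hσ).2 hd
  have hm : algebraMap F M (Algebra.norm F (e : M) - 1) ∈ box σ v (k, k) := by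
    rw [map_sub, map_one, norm_eq hF hσ,
      show (e : M) * σ (e : M) - 1 =
          ((e : M) - 1) + σ ((e : M) - 1) + ((e : M) - 1) * σ ((e : M) - 1) by
        rw [map_sub σ, map_one σ]; ring]
    exact add_mem (add_mem hd hdσ) (box_mono (by simp; omega) (by simp; omega) (mul_mem_box hd hdσ))
  have hb := ((mem_box_iff_ord ((map_ne_zero _).2 (sub_ne_zero.2 h2))).1 hm).1
  rw [CFT.ord_algebraMap_eq, plUnder_plOver] at hb
  have h3 : ((n * plRamIdx F (plOver M v) : ℕ) : ℤ) ≤ k := Int.ofNat_le.2 (T.M1_spec n hv).1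
  have he0 : (0 : ℤ) < plRamIdx F (plOver M v) := by exact_mod_cast plRamIdx_pos _
  push_cast at h3
  by_contra hh
  rw [not_le] at hh
  have := mul_lt_mul_of_pos_left hh he0
  simp only at hb
  nlinarith

/-- **The semilocal factor of a function.** -/
def sf : SF T where
  E := f.gE
  C := 0
  B := 1
  bound := f.norm_gE_le
  loc τ τ' h := funext fun η => by
    have e : T.Shell τ η = T.Shell τ' η :=
      propext (and_congr_right fun _ => forall₂_congr fun v hv => by rw [h v hv])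
    simp only [gE, e]
  mul := f.gE_mul
  supp τ ξ h v hv := by
    unfold gE at h
    split_ifs at h with hs
    · obtain ⟨e1, e2⟩ := hs.2 v hv
      unfold jS
      by_cases hns : IsNonsplit σ v
      · have := T.nonsplit_ord hns (ξ : M)
        rw [if_pos hns, if_pos (by omega), Finset.mem_singleton]
        omega
      · rw [if_neg hns, Finset.mem_Icc]; omega
    · exact absurd rfl h

/-- On norms the coefficient of the semilocal factor is the function. -/
lemma cf_sf {α : Fˣ} (hα : α ∈ normUnits F M) : f.sf.cf α = f.h (α : F) := by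
  rw [SF.cf, dif_pos (show ∃ ξ : Mˣ, nrm σ ξ = α from hα)]
  generalize_proofs hex
  -- `ξ` is the chosen element of norm `α`
  have hn : Algebra.norm F (hex.choose : M) = (α : F) := by
    rw [← coe_nrm (σ := σ), hex.choose_spec]
  rw [SF.cv]
  set ξ := hex.choose
  -- if `h α = 0` every term vanishes
  by_cases h0 : f.h (α : F) = 0
  · rw [Finset.sum_eq_zero fun s _ => ?_, mul_zero, h0]
    change f.gE s _ = 0
    unfold gE
    rw [hn, h0, mul_zero, ite_self]
  -- otherwise `α` is a unit at `T.S`, so only the shift `s₀` puts `ξ` in the shell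
  have hu : ∀ v ∈ T.S, CFT.ord v (α : F) = 0 := fun v hv => by
    rw [CFT.ord, f.supp _ h0 v hv, WithZero.log_one, neg_zero]
  have hsum : ∀ v ∈ T.S, CFT.ord (plOver M v) (ξ : M) + CFT.ord (plConj σ v) (ξ : M) =
      0 := fun v hv => by
    have h := T.norm_ord v ξ
    rw [hn, hu v hv, mul_zero] at h
    simpa [ordV] using h.symm
  set s₀ : Pl F →₀ ℤ := Finsupp.indicator T.S fun v _ => -CFT.ord (plOver M v) (ξ : M)
  have hs₀ : ∀ v ∈ T.S, s₀ v = -CFT.ord (plOver M v) (ξ : M) := fun v hv =>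
    Finsupp.indicator_of_mem hv _
  have hsh : T.Shell s₀ (ξ : M) := ⟨ξ.ne_zero, fun v hv => by
    have := hsum v hv; rw [hs₀ v hv]; omega⟩
  -- and its term is `h α`
  rw [SF.sqS, Finset.prod_eq_one (s := T.S) fun v hv => by
      rw [coe_nrm, hn, hu v hv, sqp, neg_zero, zpow_zero], Finset.sum_eq_single s₀]
  · change ((1 : ℝ) : ℂ) * (T.chS (ξ : M))⁻¹ * f.gE s₀ (ξ : M) = _
    rw [gE, if_pos hsh, hn, Complex.ofReal_one, one_mul, inv_mul_cancel_left₀ (T.chS_ne_zero _)]
  · intro s hs hne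
    change f.gE s _ = 0
    rw [gE, if_neg]
    intro h
    refine hne (Finsupp.ext fun v => ?_)
    by_cases hv : v ∈ T.S
    · rw [hs₀ v hv]; have := (h.2 v hv).1; omega
    · rw [show s₀ v = 0 from Finsupp.indicator_of_notMem hv _]
      by_contra h0'
      exact hv ((Finset.mem_finsupp_iff.1 hs).1 (Finsupp.mem_support_iff.2 h0'))
  · intro h
    exfalso
    refine h (Finset.mem_finsupp_iff.2 ⟨fun v hv => ?_, fun v hv => f.sf.supp s₀ ξ ?_ v hv⟩)
    · by_contra hS
      exact Finsupp.mem_support_iff.1 hv (Finsupp.indicator_of_notMem hS _)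
    · change f.gE s₀ _ ≠ 0
      rw [gE, if_pos hsh, hn]
      exact mul_ne_zero (T.chS_ne_zero _) h0

/-! ### the transform -/

/-- The integrand of the transform. -/
def gI (τ : Pl F →₀ ℤ) (y η : M) : ℂ := f.gE τ η * ∏ v ∈ T.S, psiD T.δ v (pair σ η y)

/-- The integrand of the transform is periodic on the orthogonal. -/
lemma gI_periodic {τ : Pl F →₀ ℤ} {y : M} (hy : T.Orth n τ y) (η : M) {z : M}
    (hz : z ∈ sBox σ T.S (T.hiS n τ)) : f.gI τ y (η + z) = f.gI τ y η := by
  rw [gI, gI, f.gE_periodic τ η hz]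
  congr 1
  refine Finset.prod_congr rfl fun v hv => ?_
  rw [pair_add_left, psiD_add, hy v hv z (mem_sBox.1 hz v hv), mul_one]

/-- The normalisation of the transform. -/
def nuS : ℂ := ∏ v ∈ T.S, ((boxVol σ v ((T.M1 n : ℤ), (T.M1 n : ℤ)) : ℝ) : ℂ)⁻¹

/-- The sum defining the transform. -/
def gSum (τ : Pl F →₀ ℤ) (y : M) : ℂ :=
  qsum (sBox σ T.S (loS τ)) (sBox σ T.S (T.hiS n τ)) (f.gI τ y)

/-- The transformed coefficient: a constant times `gSum` on admissible orthogonal arguments. -/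
def hatE (τ : Pl F →₀ ℤ) (y : M) : ℂ :=
  if T.AdmT τ ∧ T.Orth n τ y then nuS (T := T) (n := n) * f.gSum τ y else 0

/-- The transform is bounded by `1`. -/
lemma norm_hatE_le (τ : Pl F →₀ ℤ) (y : M) : ‖f.hatE τ y‖ ≤ 1 := by
  unfold hatE
  split_ifs with h
  swap
  · simp
  have hF := T.H.finrank
  have hσ := T.H.σ_ne
  obtain ⟨hle, hne⟩ := relIndex_sBox_le hF hσ (V := T.S) (lo := loS τ) (hi := T.hiS n τ)
    (fun v _ => T.loS_le_hiS n τ v) fun v hv => ⟨T.adm_loS h.1 hv, T.adm_hiS n h.1 hv⟩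
  set lo := sBox σ T.S (loS τ)
  set hi := sBox σ T.S (T.hiS n τ)
  have : Finite (lo ⧸ hi.addSubgroupOf lo) := Nat.finite_of_card_ne_zero hne
  let _ := Fintype.ofFinite (lo ⧸ hi.addSubgroupOf lo)
  have hb : ∀ η : M, ‖f.gI τ y η‖ ≤ 1 := fun η => by
    rw [gI, norm_mul, norm_prod, Finset.prod_eq_one (s := T.S) fun v _ =>
      show ‖psiD T.δ v _‖ = 1 from Fermat.LT.Theta.norm_psi v _, mul_one]
    exact f.norm_gE_le τ η
  have hsum : ‖f.gSum τ y‖ ≤ hi.relIndex lo := by
    rw [gSum, qsum, finsum_eq_sum_of_fintype]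
    refine (norm_sum_le _ _).trans ((Finset.sum_le_sum fun x _ => hb _).trans_eq ?_)
    rw [Finset.sum_const, nsmul_one, Finset.card_univ, ← Nat.card_eq_fintype_card]
    rfl
  set k := ((T.M1 n : ℤ), (T.M1 n : ℤ))
  have hvol : ∀ v ∈ T.S, (boxCard σ v (T.hiS n τ v - loS τ v) : ℝ) = boxVol σ v k := fun v _ => by
    rw [show T.hiS n τ v - loS τ v = k by simp [Frame.hiS, loS, k],
      boxCard_cast v (Int.natCast_nonneg _) (Int.natCast_nonneg _)]
  have hpos : ∀ v ∈ T.S, 0 < boxVol σ v k := fun v hv => by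
    rw [← hvol v hv]; exact_mod_cast boxCard_pos v _
  rw [norm_mul, nuS, norm_prod, Finset.prod_congr rfl fun v hv => show _ = (boxVol σ v k)⁻¹ by
    rw [norm_inv, Complex.norm_real, Real.norm_of_nonneg (hpos v hv).le], Finset.prod_inv_distrib,
    inv_mul_le_iff₀ (Finset.prod_pos hpos), mul_one]
  refine hsum.trans ((Nat.cast_le.2 hle).trans_eq ?_)
  rw [Nat.cast_prod]
  exact Finset.prod_congr rfl hvol

include T in
/-- The pairing moves an element of norm one to its inverse on the other side. -/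
lemma pair_shift (μ : nKer F M) (l y : M) :
    pair σ l (((μ : Mˣ) : M) * y) = pair σ (((μ : Mˣ) : M)⁻¹ * l) y := by
  rw [pair, pair, map_mul σ, T.conj_nKer μ]
  congr 1
  ring

/-- An element of norm one maps the shifted shell and periods onto the given ones. -/
lemma map_shift (μ : nKer F M) (τ : Pl F →₀ ℤ) :
    (sBox σ T.S (loS (τ + ordT F ((μ : Mˣ) : M)))).map (mulE (μ : Mˣ).ne_zero).toAddMonoidHom
        = sBox σ T.S (loS τ) ∧
    (sBox σ T.S (T.hiS n (τ + ordT F ((μ : Mˣ) : M)))).map (mulE (μ : Mˣ).ne_zero).toAddMonoidHom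
        = sBox σ T.S (T.hiS n τ) := by
  refine ⟨?_, ?_⟩ <;> rw [sBox_map_mulE] <;> congr 1 <;> funext v <;>
    refine Prod.ext ?_ ?_ <;>
    simp only [loS, Frame.hiS, Prod.fst_add, Prod.snd_add, Finsupp.add_apply, ordT_apply,
      T.ord_conj_nKer μ v] <;> ring

/-- A norm one multiplier shifts orthogonality. -/
lemma orth_shift (μ : nKer F M) (τ : Pl F →₀ ℤ) (y : M) :
    T.Orth n τ (((μ : Mˣ) : M) * y) ↔ T.Orth n (τ + ordT F ((μ : Mˣ) : M)) y := by
  have hμ := (μ : Mˣ).ne_zero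
  have e : ∀ v, box σ v (T.hiS n τ v)
      = (box σ v (T.hiS n (τ + ordT F ((μ : Mˣ) : M)) v)).map (mulE hμ).toAddMonoidHom :=
          fun v => by
    rw [box_map_mulE]
    congr 1
    refine Prod.ext ?_ ?_ <;>
      simp only [Frame.hiS, Prod.fst_add, Prod.snd_add, Finsupp.add_apply, ordT_apply,
        T.ord_conj_nKer μ v] <;> ring
  refine forall₂_congr fun v _ => ?_
  rw [e v]
  constructor
  · intro h l hl
    have := h _ ⟨l, hl, rfl⟩
    rwa [pair_shift (T := T), show (mulE hμ).toAddMonoidHom l = ((μ : Mˣ) : M) * l from rfl,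
      inv_mul_cancel_left₀ hμ] at this
  · rintro h l ⟨x, hx, rfl⟩
    rw [pair_shift (T := T), show (mulE hμ).toAddMonoidHom x = ((μ : Mˣ) : M) * x from rfl,
      inv_mul_cancel_left₀ hμ]
    exact h x hx

/-- A norm one multiplier shifts the transform. -/
lemma hatE_mul (μ : nKer F M) (τ : Pl F →₀ ℤ) (y : M) :
    f.hatE τ (((μ : Mˣ) : M) * y) =
      T.chS ((μ : Mˣ) : M) * f.hatE (τ + ordT F ((μ : Mˣ) : M)) y := by
  unfold hatE
  rw [if_congr (and_congr (T.admT_shift τ μ).symm (orth_shift μ τ y)) rfl rfl]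
  split_ifs with h
  swap
  · rw [mul_zero]
  rw [mul_left_comm]
  congr 1
  set τ' := τ + ordT F ((μ : Mˣ) : M)
  obtain ⟨e1, e2⟩ := map_shift (T := T) (n := n) μ τ
  have hy : T.Orth n τ (((μ : Mˣ) : M) * y) := (orth_shift μ τ y).2 h.2
  rw [gSum, gSum, ← e1, ← e2, qsum_map (mulE (μ : Mˣ).ne_zero) ?_, ← qsum_smul]
  · refine qsum_congr fun η _ => ?_
    rw [Function.comp_apply, mulE_apply, gI, gI, f.gE_mul, mul_assoc]
    congr 2
    refine Finset.prod_congr rfl fun v _ => ?_
    rw [pair_shift (T := T), inv_mul_cancel_left₀ (μ : Mˣ).ne_zero]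
  · rw [e1, e2]
    exact fun η _ z hz => f.gI_periodic hy η hz

end SFun

namespace Frame

variable (T)

/-- The local width of the transforms. -/
def Cd (v : Pl F) : ℕ :=
  ((plRamIdx F (plOver M v) : ℤ) * (|eL T.δ v| + 1 + |CFT.ord v (2 : F)|) + |dd M T.δ v|).toNat

/-- The width of the transforms at a level. -/
def Cn (n : ℕ) : ℕ := T.M1 n + ∑ v ∈ T.S, T.Cd v

/-- The width dominates the depth and the local data at every place of `S`. -/
lemma Cn_spec (n : ℕ) {v : Pl F} (hv : v ∈ T.S) :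
    (T.M1 n : ℤ) + ((plRamIdx F (plOver M v) : ℤ) * (|eL T.δ v| + 1 + |CFT.ord v (2 : F)|)
      + |dd M T.δ v|) ≤ T.Cn n := by
  have h : T.Cd v ≤ ∑ u ∈ T.S, T.Cd u :=
    Finset.single_le_sum (f := fun u => T.Cd u) (fun u _ => Nat.zero_le _) hv
  have h2 := Int.self_le_toNat ((plRamIdx F (plOver M v) : ℤ) *
    (|eL T.δ v| + 1 + |CFT.ord v (2 : F)|) + |dd M T.δ v|)
  have h3 : ((T.M1 n + T.Cd v : ℕ) : ℤ) ≤ T.Cn n := Int.ofNat_le.2 (Nat.add_le_add_left h _)
  unfold Cd at h3
  omega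

/-- The orthogonals of the periods are bounded below. -/
lemma jS_of_orth (n : ℕ) {τ : Pl F →₀ ℤ} (hτ : T.AdmT τ) {ξ : Mˣ} (h : T.Orth n τ (ξ : M))
    {v : Pl F} (hv : v ∈ T.S) : τ v ∈ jS σ (T.Cn n) v (ξ : M) := by
  have hF := T.H.finrank
  have hσ := T.H.σ_ne
  have hC := T.Cn_spec n hv
  have he0 : (0 : ℤ) ≤ plRamIdx F (plOver M v) := Int.natCast_nonneg _
  unfold jS
  -- a nonsplit place: a nontrivial character on the periods
  by_cases hns : IsNonsplit σ v
  · rw [if_pos hns, hτ v hv hns, if_pos, Finset.mem_singleton]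
    by_contra hlow
    rw [not_le] at hlow
    obtain ⟨x, hx0, hxo, hxne⟩ := exists_psiD_ne T.δ v
    have hsy : σ (ξ : M) ≠ 0 := (map_ne_zero σ).2 ξ.ne_zero
    have h2 : (2 : F) ≠ 0 := two_ne_zero
    set a := algebraMap F M (x / 2)
    have ha : a ≠ 0 := (map_ne_zero _).2 (div_ne_zero hx0 h2)
    refine hxne ?_
    have hl := h v hv (a / σ (ξ : M)) ?_
    · rwa [pair, div_mul_cancel₀ _ hsy, Algebra.trace_algebraMap, hF, two_nsmul, add_halves] at hl
    have hoa : CFT.ord (plOver M v) a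
        = (plRamIdx F (plOver M v) : ℤ) * (-eL T.δ v - 1 - CFT.ord v (2 : F)) := by
      rw [CFT.ord_algebraMap_eq, plUnder_plOver, CFT.ord_div v hx0 h2, hxo]
    have hP : σ • plOver M v = plOver M v := (plConj_eq_iff hF hσ).2 hns
    have hos : CFT.ord (plOver M v) (σ (ξ : M)) = CFT.ord (plOver M v) (ξ : M) := by
      conv_lhs => rw [← hP, show σ (ξ : M) = σ • (ξ : M) from rfl]
      exact CFT.ord_smul σ _ _
    have hbound : -((plRamIdx F (plOver M v) : ℤ) * (|eL T.δ v| + 1 + |CFT.ord v (2 : F)|))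
        ≤ (plRamIdx F (plOver M v) : ℤ) * (-eL T.δ v - 1 - CFT.ord v (2 : F)) := by
      rw [← mul_neg]
      refine mul_le_mul_of_nonneg_left ?_ he0
      have := le_abs_self (eL T.δ v)
      have := le_abs_self (CFT.ord v (2 : F))
      omega
    have := abs_nonneg (dd M T.δ v)
    rw [mem_box_iff_ord (div_ne_zero ha hsy), hiS, hτ v hv hns, neg_zero, zero_add,
      (plConj_eq_iff hF hσ).2 hns, CFT.ord_div _ ha hsy, hoa, hos]
    constructor <;> linarith
  · -- a split place: read off the dual box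
    rw [if_neg hns, Finset.mem_Icc]
    have h2 : v ∈ ramPl (K := F) M → v.valuation F (2 : F) = 1 := by
      rintro ⟨P, rfl, hP⟩
      exact absurd (plRamIdx_split hF hσ hns rfl) hP
    have hb : (ξ : M) ∈ box σ v (dual M T.δ v (T.hiS n τ v)) := by
      by_contra hn
      obtain ⟨l, hl, hne⟩ := exists_pair_psiD_ne T.δ hF hσ h2 (T.adm_hiS n hτ hv) hn
      exact hne (h v hv l hl)
    obtain ⟨b1, b2⟩ := (mem_box_iff_ord ξ.ne_zero).1 hb
    simp only [dual, hiS] at b1 b2
    have := le_abs_self (dd M T.δ v)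
    have := mul_nonneg he0 (add_nonneg (add_nonneg (abs_nonneg (eL T.δ v)) zero_le_one)
      (abs_nonneg (CFT.ord v (2 : F))))
    constructor <;> linarith

end Frame

namespace SFun

variable (f : SFun T n)

/-- **The transform as a semilocal factor.** -/
def hat : SF T where
  E := f.hatE
  C := T.Cn n
  B := 1
  bound := f.norm_hatE_le
  loc τ τ' h := funext fun y => by
    have e1 : sBox σ T.S (loS τ) = sBox σ T.S (loS τ') := by
      ext η; simp only [mem_sBox]
      exact forall₂_congr fun v hv => by rw [loS, loS, h v hv]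
    have e2 : sBox σ T.S (T.hiS n τ) = sBox σ T.S (T.hiS n τ') := by
      ext η; simp only [mem_sBox]
      exact forall₂_congr fun v hv => by rw [Frame.hiS, Frame.hiS, h v hv]
    have e3 : f.gI τ y = f.gI τ' y := funext fun η => by
      rw [gI, gI, show f.gE τ = f.gE τ' from f.sf.loc τ τ' h]
    unfold hatE gSum
    rw [e1, e2, e3]
    refine if_congr (and_congr (forall₂_congr fun v hv => by rw [h v hv])
      (forall₂_congr fun v hv => by rw [Frame.hiS, Frame.hiS, h v hv])) rfl rfl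
  mul := f.hatE_mul
  supp τ ξ h v hv := by
    unfold hatE at h
    split_ifs at h with hh
    · exact T.jS_of_orth n hh.1 hh.2 hv
    · exact absurd rfl h

end SFun

end Fermat.LTG.Theta
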