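import Fermat.Agent.LTG.Gal.HData
import Fermat.Agent.LT.Theta.Series
import Fermat.Agent.LT.Theta.Term
import Fermat.Agent.LT.Theta.LocalPair

/-!
# Theta: the frame of the series

A shift `δ` and a finite set `S` of places containing the ramification of the data, such that the
additive character `psiD δ` is unramified outside `S`.
-/

set_option autoImplicit false
set_option linter.unusedSectionVars false

noncomputable section

open NumberField IsDedekindDomain Fermat.CFT Filter
open scoped Pointwise Classical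

namespace Fermat.LTG.Theta

open Fermat.LT Fermat.LT.Theta
open Fermat.LT.Mult (cnd)

/-- The frame of the series. -/
structure Frame {F M : Type} [Field F] [NumberField F] [IsTotallyComplex F] [Field M]
    [NumberField M] [Algebra F M] (σ : M ≃ₐ[F] M) (lam : Pl F → ℝ) where
  /-- The finite set of exceptional places. -/
  S : Finset (Pl F)
  /-- The Hecke character data unramified off `S`. -/
  H : Fermat.LTG.HData σ lam S
  /-- The shift `δ` of the additive character. -/
  δ : Fˣ
  /-- Off `S` the shift makes the additive character unramified. -/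
  eL_off : ∀ v ∉ S, eL δ v = 0
  /-- The exceptional set is not empty. -/
  ne : S.Nonempty

section SplitRam

variable {F M : Type} [Field F] [NumberField F] [Field M] [NumberField M] [Algebra F M]
  [IsGalois F M] {σ : M ≃ₐ[F] M}

/-- A split place is unramified. -/
lemma plRamIdx_split (hF : Module.finrank F M = 2) (hσ : σ ≠ 1) {v : Pl F}
    (hv : ¬ IsNonsplit σ v) {W : Pl M} (hW : plUnder F W = v) : plRamIdx F W = 1 := by
  refine plRamIdx_eq_one_of_inertia W fun g hg => ?_
  by_contra hne
  obtain ⟨i, hi, rfl⟩ := exists_eq_generator_pow hF hσ g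
  interval_cases i
  · exact hne (pow_zero _)
  rw [pow_one] at hg
  refine hv (hW ▸ IsNonsplit.of_smul_eq hF hσ (HeightOneSpectrum.ext ?_))
  have hle : (σ • W).asIdeal ≤ W.asIdeal := by
    intro y hy
    rw [smul_asIdeal, Ideal.mem_pointwise_smul_iff_inv_smul_mem] at hy
    have h := hg (σ⁻¹ • y)
    rw [smul_inv_smul] at h
    simpa using add_mem h hy
  exact (σ • W).isPrime.isMaximal (σ • W).ne_bot |>.eq_of_le W.isPrime.ne_top hle

end SplitRam

/-- An element with prescribed orders at finitely many places. -/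
lemma exists_ord_eq {F : Type} [Field F] [NumberField F] (T : Finset (Pl F)) (n : Pl F → ℤ) :
    ∃ a : Fˣ, ∀ v ∈ T, CFT.ord v (a : F) = n v := by
  choose ϖ hϖ0 hϖ using fun v : Pl F => CFT.exists_ord_eq_one v
  obtain ⟨y, hy⟩ := exists_units_approx T (fun v => Units.mk0 (ϖ v) (hϖ0 v) ^ n v) 1
  refine ⟨y, fun v hv => ?_⟩
  have h := (hy v hv).ord_eq_zero (by norm_num)
  rw [CFT.ord_div v y.ne_zero (Units.ne_zero _), Units.val_zpow_eq_zpow_val, Units.val_mk0,
    CFT.ord_zpow, hϖ, mul_one] at h
  omega

variable {F M : Type} [Field F] [NumberField F] [IsTotallyComplex F] [Field M] [NumberField M]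
  [Algebra F M] [IsGalois F M] {σ : M ≃ₐ[F] M} {lam : Pl F → ℝ}

/-- **A frame avoiding given places.** Some frame has its set `S` containing `R` and disjoint from a
given set disjoint from `R`. -/
theorem exists_frame {R : Finset (Pl F)} (H : Fermat.LTG.HData σ lam R) (Keep : Finset (Pl F))
    (hK : Disjoint Keep R) : ∃ T : Frame σ lam, R ⊆ T.S ∧ Disjoint Keep T.S := by
  obtain ⟨δ, hδ⟩ := exists_ord_eq Keep fun v => -(cnd v : ℤ)
  have hfin : {v : Pl F | eL δ v ≠ 0}.Finite := by
    refine ((eventually_cofinite.1 (Fermat.LT.Mult.eventually_cnd_eq_zero (F := F))).union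
      (CFT.finite_ord_ne_zero (δ : F))).subset fun v hv => ?_
    by_contra h
    simp only [Set.mem_union, Set.mem_ofPred_eq, not_or, not_not] at h
    exact hv (by simp [eL, h.1, h.2])
  obtain ⟨P, hP, -⟩ := H.nontrivial Keep
  refine ⟨⟨insert (plUnder F P) (R ∪ hfin.toFinset), H.mono ?_, δ, fun v hv => ?_,
    Finset.insert_nonempty _ _⟩, ?_, ?_⟩
  · exact Finset.subset_union_left.trans (Finset.subset_insert _ _)
  · simp only [Finset.mem_insert, Finset.mem_union, Set.Finite.mem_toFinset, Set.mem_ofPred_eq,
      not_or, not_not] at hv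
    exact hv.2.2
  · exact Finset.subset_union_left.trans (Finset.subset_insert _ _)
  rw [Finset.disjoint_left]
  intro v hv hvS
  simp only [Finset.mem_insert, Finset.mem_union, Set.Finite.mem_toFinset, Set.mem_ofPred_eq] at hvS
  rcases hvS with rfl | hvR | he
  · exact hP hv
  · exact Finset.disjoint_left.1 hK hv hvR
  · exact he (by rw [eL, hδ v hv]; simp)

namespace Frame

variable (T : Frame σ lam)

/-- The local data on the trivial level. -/
def dat : LDat (∅ : Set (Pl F)) where
  δ := T.δ
  c v := if v ∈ T.S then 0 else cOf lam v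
  N _ := ⊤
  h3 v hv := absurd hv (Set.notMem_empty v)
  hN v hv := absurd hv (Set.notMem_empty v)
  hc v _ := by
    split_ifs with hv
    · exact Or.inr (Or.inr rfl)
    obtain ⟨P, rfl⟩ := CFT.exists_plUnder_eq (F := M) v
    by_cases hs : σ • P = P
    · exact Or.inr (Or.inr (by rw [cOf, T.H.lam_inert P hv hs, zero_div]))
    have h := T.H.lam_split P hv hs
    have hz : ((T.H.th P : ℂ)) ^ 4 = 1 := by
      rw [← Units.val_pow_eq_pow_val, T.H.th_four, Units.val_one]
    have hne : ((Real.sqrt (pnorm (plUnder F P)) : ℝ) : ℂ) ≠ 0 :=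
      Complex.ofReal_ne_zero.2 (sqrt_pnorm_ne_zero _)
    have hc : ((cOf lam (plUnder F P) : ℝ) : ℂ) = (T.H.th P : ℂ) + (T.H.th P : ℂ)⁻¹ := by
      rw [cOf, Complex.ofReal_div, h, Units.val_inv_eq_inv_val]
      exact mul_div_cancel_left₀ _ hne
    rcases pow_four_eq_one_cases hz with e | e | e <;> rw [e] at hc
    · exact Or.inl (by exact_mod_cast hc)
    · exact Or.inr (Or.inl (by exact_mod_cast hc))
    · exact Or.inr (Or.inr (by exact_mod_cast hc))

/-- The places outside `S` are unramified in `M`. -/
lemma notMem_ramPl {v : Pl F} (hv : v ∉ T.S) : v ∉ ramPl (K := F) M := by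
  rintro ⟨P, rfl, hP⟩
  exact hP (T.H.unram P hv)

include T in
/-- Finitely many places ramify in `M`. -/
lemma ramPl_finite : (ramPl (K := F) M).Finite :=
  T.S.finite_toSet.subset fun _ hv => by_contra fun h => T.notMem_ramPl h hv

/-- Outside `S` the ramification index is one. -/
lemma plRamIdx_off {v : Pl F} (hv : v ∉ T.S) : plRamIdx F (plOver M v) = 1 :=
  plRamIdx_eq_one_of_not_ram (T.notMem_ramPl hv) (plUnder_plOver v)

/-- Outside `S` the shifted different vanishes. -/
lemma dd_zero {v : Pl F} (hv : v ∉ T.S) : dd M T.δ v = 0 := by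
  rw [dd, T.plRamIdx_off hv, T.eL_off v hv]; simp

/-- Outside `S` the dual box negates and swaps the exponents. -/
lemma dual_off {v : Pl F} (hv : v ∉ T.S) (m : ℤ × ℤ) : dual M T.δ v m = (-m.2, -m.1) := by
  rw [dual, T.dd_zero hv]; simp

/-- At an inert place the eigenvalue is `0` and the character is `-1`. -/
lemma cOf_inert {v : Pl F} (hv : v ∉ T.S) (hns : IsNonsplit σ v) :
    cOf lam v = 0 ∧ (T.H.th (plOver M v) : ℂ) = -1 := by
  have h0 : plUnder F (plOver M v) ∉ T.S := by rwa [plUnder_plOver]
  have hs := hns _ (plUnder_plOver v)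
  refine ⟨?_, by rw [T.H.th_inert _ h0 hs]; simp⟩
  have := T.H.lam_inert _ h0 hs
  rw [plUnder_plOver] at this
  rw [cOf, this, zero_div]

/-- At a split place the normalised eigenvalue is the character plus its inverse. -/
lemma cOf_split {v : Pl F} (hv : v ∉ T.S) (hns : ¬ IsNonsplit σ v) :
    ((cOf lam v : ℝ) : ℂ) = (T.H.th (plOver M v) : ℂ) + (T.H.th (plOver M v) : ℂ)⁻¹ := by
  have h0 : plUnder F (plOver M v) ∉ T.S := by rwa [plUnder_plOver]
  have hsne : σ • plOver M v ≠ plOver M v := fun h => hns ((plConj_eq_iff T.H.finrank T.H.σ_ne).1 h)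
  have h := T.H.lam_split _ h0 hsne
  rw [plUnder_plOver] at h
  rw [cOf, Complex.ofReal_div, h, Units.val_inv_eq_inv_val]
  exact mul_div_cancel_left₀ _ (Complex.ofReal_ne_zero.2 (sqrt_pnorm_ne_zero v))

/-- The values of the character have absolute value one. -/
lemma norm_th (P : Pl M) : ‖(T.H.th P : ℂ)‖ = 1 :=
  Complex.norm_eq_one_of_pow_eq_one (by rw [← Units.val_pow_eq_pow_val, T.H.th_four, Units.val_one])
    four_ne_zero

/-! ### the character -/

/-- The character on exponents at the places over `v`. -/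
def zw (v : Pl F) (i : ℤ × ℤ) : ℂ :=
  if v ∈ T.S then 1
  else if IsNonsplit σ v then (T.H.th (plOver M v) : ℂ) ^ i.1
  else (T.H.th (plOver M v) : ℂ) ^ (i.1 - i.2)

/-- The character on exponents has absolute value one. -/
lemma norm_zw (v : Pl F) (i : ℤ × ℤ) : ‖T.zw v i‖ = 1 := by
  unfold zw
  split_ifs <;> simp [T.norm_th]

/-- The character on exponents does not vanish. -/
lemma zw_ne_zero (v : Pl F) (i : ℤ × ℤ) : T.zw v i ≠ 0 := fun h => by
  have := T.norm_zw v i
  rw [h, norm_zero] at this
  exact zero_ne_one this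

/-- The character on exponents is multiplicative. -/
lemma zw_add (v : Pl F) (i j : ℤ × ℤ) : T.zw v (i + j) = T.zw v i * T.zw v j := by
  unfold zw
  split_ifs
  · rw [one_mul]
  · rw [Prod.fst_add, zpow_add₀ (Units.ne_zero _)]
  · rw [Prod.fst_add, Prod.snd_add, ← zpow_add₀ (Units.ne_zero _)]
    congr 1; ring

/-- The character on exponents is one at `0`. -/
@[simp] lemma zw_zero (v : Pl F) : T.zw v 0 = 1 := by simp [zw]

/-- The character on exponents is trivial on `S`. -/
lemma zw_of_mem {v : Pl F} (hv : v ∈ T.S) (i : ℤ × ℤ) : T.zw v i = 1 := if_pos hv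

/-- The character of the ideals prime to `S`, on elements. -/
def chS (x : M) : ℂ := (thProd T.H.th T.S x : ℂ)

/-- The product defining the character on elements is finite. -/
lemma thProd_finite (x : M) : (Function.mulSupport fun P : Pl M =>
    if plUnder F P ∈ T.S then (1 : ℂˣ) else T.H.th P ^ CFT.ord P x).Finite :=
  (CFT.finite_ord_ne_zero x).subset fun P hP hc => hP (by
    change ite _ _ _ = _
    rw [hc, zpow_zero, ite_self])

/-- The character of ideals prime to `S` is unitary. -/
lemma norm_chS (x : M) : ‖T.chS x‖ = 1 := by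
  rw [chS, thProd, finprod_eq_prod_of_mulSupport_subset _
    (s := (T.thProd_finite x).toFinset) (by simp), Units.coe_prod, norm_prod]
  refine Finset.prod_eq_one fun P _ => ?_
  split_ifs
  · simp
  · rw [Units.val_zpow_eq_zpow_val, norm_zpow, T.norm_th, one_zpow]

/-- The character on elements does not vanish. -/
lemma chS_ne_zero (x : M) : T.chS x ≠ 0 := Units.ne_zero _

/-- The character of ideals prime to `S` is multiplicative. -/
lemma chS_mul {x y : M} (hx : x ≠ 0) (hy : y ≠ 0) : T.chS (x * y) = T.chS x * T.chS y := by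
  rw [chS, chS, chS, ← Units.val_mul]
  congr 1
  rw [thProd, thProd, thProd, ← finprod_mul_distrib (T.thProd_finite x) (T.thProd_finite y)]
  refine finprod_congr fun P => ?_
  split_ifs
  · rw [one_mul]
  · rw [CFT.ord_mul _ hx hy, zpow_add]

/-- The local value of the character at `ξ`. -/
def chiV (v : Pl F) (ξ : M) : ℂ := T.zw v (ordV σ v ξ)

/-- The character is the product of its local values. -/
lemma prod_chiV (ξ : M) {V : Finset (Pl F)} (hV : ∀ v ∉ V, ordV σ v ξ = 0) :
    ∏ v ∈ V, T.chiV v ξ = T.chS ξ := by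
  have hF := T.H.finrank
  have hσ := T.H.σ_ne
  set f : Pl M → ℂˣ := fun W => if plUnder F W ∈ T.S then 1 else T.H.th W ^ CFT.ord W ξ
  -- the product over the places above `V`
  have hprod : T.chS ξ = ∏ W ∈ plAbove M V, (f W : ℂ) := by
    rw [chS, thProd, finprod_eq_prod_of_mulSupport_subset _ (s := plAbove M V) (fun W hW => ?_),
      Units.coe_prod]
    by_contra hn
    refine hW ?_
    rw [Finset.mem_coe, mem_plAbove] at hn
    have h8 := hV _ hn
    rw [ordV, Prod.mk_eq_zero] at h8
    have h0 : CFT.ord W ξ = 0 := by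
      rcases eq_or_eq_of_plUnder hF hσ (rfl : plUnder F W = plUnder F W) with e | e
      · rw [e]; exact h8.1
      · rw [e]; exact h8.2
    change ite _ _ _ = _
    rw [h0, zpow_zero, ite_self]
  -- group the places by the place of `F` below
  rw [hprod, ← Finset.prod_fiberwise_of_maps_to (g := plUnder F) (t := V)
    fun W hW => mem_plAbove.1 hW]
  refine Finset.prod_congr rfl fun v hv => ?_
  have hfib : (plAbove M V).filter (fun W => plUnder F W = v) = {plOver M v, plConj σ v} := by
    ext W
    simp only [Finset.mem_filter, mem_plAbove, Finset.mem_insert, Finset.mem_singleton]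
    constructor
    · exact fun h => eq_or_eq_of_plUnder hF hσ h.2
    · rintro (rfl | rfl)
      · rw [plUnder_plOver]; exact ⟨hv, rfl⟩
      · rw [plUnder_plConj]; exact ⟨hv, rfl⟩
  rw [hfib, chiV]
  by_cases hs : v ∈ T.S
  · rw [T.zw_of_mem hs]
    symm
    refine Finset.prod_eq_one fun W hW => ?_
    have : plUnder F W = v := by
      rcases Finset.mem_insert.1 hW with rfl | hW
      · exact plUnder_plOver v
      · rw [Finset.mem_singleton.1 hW]; exact plUnder_plConj v
    simp [f, this, hs]
  have h1 : plUnder F (plOver M v) ∉ T.S := by rwa [plUnder_plOver]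
  have h2 : plUnder F (plConj σ v) ∉ T.S := by rwa [plUnder_plConj]
  rw [zw, if_neg hs, ordV]
  split_ifs with hns
  · rw [(plConj_eq_iff hF hσ).2 hns, Finset.pair_eq_singleton, Finset.prod_singleton]
    simp only [f, if_neg h1, Units.val_zpow_eq_zpow_val]
  · rw [Finset.prod_pair fun e => hns ((plConj_eq_iff hF hσ).1 e.symm)]
    simp only [f, if_neg h1, if_neg h2, Units.val_zpow_eq_zpow_val]
    rw [zpow_sub₀ (Units.ne_zero _), div_eq_mul_inv, show plConj σ v = σ • plOver M v from rfl,
      T.H.th_σ _ h1, Units.val_inv_eq_inv_val, inv_zpow]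

/-- A modulus killing the character. -/
lemma exists_modulus : ∃ f : ℕ, ∀ x : Mˣ,
    (∀ P : Pl M, plUnder F P ∈ T.S → CloseOne P f (x : M)) → T.chS (x : M) = 1 := by
  obtain ⟨f, hf⟩ := T.H.kill
  exact ⟨f, fun x hx => by rw [chS, hf x hx, Units.val_one]⟩

end Frame

end Fermat.LTG.Theta
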