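import Fermat.Agent.LTG.Theta.Main
import Fermat.Agent.LTG.Final

/-!
# The theta statement

`Theta.exists_isForm` of `LTG/Theta/Main` in the shape of `ThetaStatement` of `LTG/Final`.
-/

set_option autoImplicit false

namespace Fermat.LTG

/-- The theta series exist. -/
theorem thetaStatement : ThetaStatement := by
  intro L M _ _ _ _ _ _ σM lam R H Keep hK hdisj
  obtain ⟨S₀, Z, Φ, hZ, hkeep, hΦ⟩ := Theta.exists_isForm H hK.toFinset
    (Finset.disjoint_left.2 fun w hw => hdisj w (hK.mem_toFinset.1 hw))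
  exact ⟨S₀, Z, Φ, hZ, fun w hw => hkeep w (hK.mem_toFinset.2 hw), hΦ⟩

end Fermat.LTG
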