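import Fermat.Agent.LTG.Theta.Point
import Fermat.Agent.LT.Height

/-!
# Theta: the local factor at a norm as a sum of box factors

`W_norm` is this evaluation, in terms of the factors `locT`.
-/

set_option autoImplicit false

noncomputable section

open NumberField Fermat.CFT Filter
open scoped Pointwise Classical

namespace Fermat.LTG.Theta

open Fermat.LT Fermat.LT.Theta

variable {F M : Type} [Field F] [NumberField F] [IsTotallyComplex F] [Field M] [NumberField M]
  [Algebra F M] [IsGalois F M] {σ : M ≃ₐ[F] M} {lam : Pl F → ℝ} {T : Frame σ lam}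
  {ω : FinPt0 F} (P : PDat T ω)

/-- The exponents of the box at `v`. -/
def mBox (v : Pl F) (j : ℤ) : ℤ × ℤ := (-(P.k1 v + j), -(P.k2 v - j))

/-- The local factor, trivial on `S`. -/
def locT (v : Pl F) (j : ℤ) (η : M) : ℂ :=
  if v ∈ T.S then 1
  else if IsNonsplit σ v ∧ j ≠ 0 then 0
  else T.zw v (j, -j) * ((if η ∈ box σ v (mBox P v j) then 1 else 0)
    * psiD T.δ v (P.x v * Algebra.norm F η))

/-- The constant in the local coefficient at `v`. -/
def cP (v : Pl F) : ℂ := (sqp v (CFT.ord v (P.a v : F)) : ℂ) * T.zw v (P.k1 v, P.k2 v)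

/-- The local constant is not zero. -/
lemma cP_ne_zero (v : Pl F) : cP P v ≠ 0 :=
  mul_ne_zero (Complex.ofReal_ne_zero.2 (sqp_pos v _).ne') (T.zw_ne_zero v _)

/-- The local constant is one on `S`. -/
lemma cP_on {v : Pl F} (hv : v ∈ T.S) : cP P v = 1 := by
  obtain ⟨h1, -, h3, h4⟩ := P.on v hv
  rw [cP, h1, h3, h4, T.zw_of_mem hv]
  simp [sqp]

/-- The summation range at `v`. -/
def jSet (v : Pl F) (ξ : M) : Finset ℤ :=
  if IsNonsplit σ v then
    (if 0 ≤ CFT.ord (plOver M v) ξ + P.k1 v then {0} else ∅)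
  else Finset.Icc (-(CFT.ord (plOver M v) ξ + P.k1 v)) (CFT.ord (plConj σ v) ξ + P.k2 v)

variable (T)

include T in
/-- The orders above add to the ramification index times the order of the norm. -/
lemma Frame.norm_ord (v : Pl F) (ξ : Mˣ) :
    (plRamIdx F (plOver M v) : ℤ) * CFT.ord v (Algebra.norm F (ξ : M))
      = (ordV σ v (ξ : M)).1 + (ordV σ v (ξ : M)).2 := by
  have hF := T.H.finrank
  have hσ := T.H.σ_ne
  have h := CFT.ord_algebraMap_eq (plOver M v) (Algebra.norm F (ξ : M))
  rw [plUnder_plOver, norm_eq hF hσ, CFT.ord_mul _ ξ.ne_zero ((map_ne_zero σ).2 ξ.ne_zero)] at h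
  rw [← h, ordV]
  congr 1
  conv_lhs => rw [← smul_plConj hF hσ v]
  exact CFT.ord_smul σ _ _

include T in
/-- At a non-split place the two orders agree. -/
lemma Frame.nonsplit_ord {v : Pl F} (hns : IsNonsplit σ v) (ξ : M) :
    CFT.ord (plConj σ v) ξ = CFT.ord (plOver M v) ξ := by
  rw [(plConj_eq_iff T.H.finrank T.H.σ_ne).2 hns]

variable {T}

/-- The local factor vanishes outside the summation range. -/
lemma locT_eq_zero {v : Pl F} (hv : v ∉ T.S) {j : ℤ} {ξ : Mˣ} (hj : j ∉ jSet P v (ξ : M)) :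
    locT P v j (ξ : M) = 0 := by
  rw [locT, if_neg hv]
  split_ifs with h1 h3
  · rfl
  · exfalso
    rw [mem_box_iff_ord ξ.ne_zero] at h3
    simp only [mBox] at h3
    by_cases hns : IsNonsplit σ v
    · have hj0 : j = 0 := by by_contra h; exact h1 ⟨hns, h⟩
      subst hj0
      rw [jSet, if_pos hns, if_pos (by omega)] at hj
      simp at hj
    · rw [jSet, if_neg hns, Finset.mem_Icc] at hj
      omega
  · simp

/-- An element lies in the box of each exponent in its range. -/
lemma mem_box_of_jSet {v : Pl F} {j : ℤ} {ξ : Mˣ} (hj : j ∈ jSet P v (ξ : M)) :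
    (ξ : M) ∈ box σ v (mBox P v j) := by
  rw [mem_box_iff_ord ξ.ne_zero]
  simp only [mBox]
  by_cases hns : IsNonsplit σ v
  · rw [jSet, if_pos hns] at hj
    split_ifs at hj with h
    · rw [Finset.mem_singleton] at hj
      have := T.nonsplit_ord hns (ξ : M)
      have := P.adm v hns
      omega
    · simp at hj
  · rw [jSet, if_neg hns, Finset.mem_Icc] at hj
    omega

omit [IsGalois F M] in
/-- The local factor at a parametrised point: an additive character times a radial value. -/
lemma locW_at {v : Pl F} (hv : v ∉ T.S) (α : Fˣ) :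
    T.dat.W v (upMat α 0 • ω.1 v) = psiD T.δ v ((α : F) * P.x v)
      * (radial (pnorm v) (cOf lam v) (CFT.ord v ((α * P.a v : Fˣ) : F)) : ℂ) := by
  obtain ⟨k, hk, he⟩ := P.rep v hv
  rw [he, MulAction.Quotient.smul_coe, smul_eq_mul, ← mul_assoc, upMat_mul, LDat.W,
    locW_eq T.dat.h3 _ _ _ T.dat.hN ((mem_klein_off (Set.notMem_empty v)).2 hk) rfl, add_zero,
    hfun, if_neg (Set.notMem_empty v)]
  change psiD T.δ v ((α : F) * P.x v) * (radial (pnorm v) (if v ∈ T.S then 0 else cOf lam v)
    (CFT.ord v ((α * P.a v : Fˣ) : F) + eL T.δ v) : ℂ) = _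
  rw [if_neg hv, T.eL_off v hv, add_zero]

/-- **The local coefficient at a norm.** Off `T.S` the local factor at the norm of `ξ` is a
character value times constants times the sum over `jSet` of the local terms. -/
theorem W_norm {v : Pl F} (hv : v ∉ T.S) (ξ : Mˣ) :
    T.dat.W v (upMat (nrm σ ξ) 0 • ω.1 v)
      = (sqp v (CFT.ord v (nrm σ ξ : F)) : ℂ) * T.chiV v (ξ : M) * cP P v
        * ∑ j ∈ jSet P v (ξ : M), locT P v j (ξ : M) := by
  have hord := T.norm_ord v ξ
  rw [T.plRamIdx_off hv, Nat.cast_one, one_mul] at hord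
  simp only [ordV] at hord
  have hk := P.koff v
  set i1 := CFT.ord (plOver M v) (ξ : M) + P.k1 v
  set i2 := CFT.ord (plConj σ v) (ξ : M) + P.k2 v
  set z := (T.H.th (plOver M v) : ℂ)
  rw [locW_at P hv, Units.val_mul, CFT.ord_mul v (Units.ne_zero _) (Units.ne_zero _), coe_nrm,
    show CFT.ord v (Algebra.norm F (ξ : M)) + CFT.ord v (P.a v : F) = i1 + i2 by omega,
    Finset.sum_congr rfl fun j hj => show locT P v j (ξ : M)
      = T.zw v (j, -j) * psiD T.δ v (P.x v * Algebra.norm F (ξ : M)) from ?_, ← Finset.sum_mul,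
    mul_comm (Algebra.norm F (ξ : M)) (P.x v)]
  swap
  · rw [locT, if_neg hv, if_pos (mem_box_of_jSet P hj), one_mul, if_neg]
    rintro ⟨hns, hj0⟩
    rw [jSet, if_pos hns] at hj
    split_ifs at hj
    · exact hj0 (Finset.mem_singleton.1 hj)
    · simp at hj
  rw [mul_comm (psiD _ _ _), ← mul_assoc]
  congr 1
  rw [cP, Frame.chiV, ordV]
  have hsq : (sqp v (CFT.ord v (Algebra.norm F (ξ : M))) : ℂ) * (sqp v (CFT.ord v (P.a v : F)) : ℂ)
      = (sqp v (i1 + i2) : ℂ) := by
    rw [← Complex.ofReal_mul, ← sqp_add]; congr 2; omega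
  have hzsum : ∀ j, T.zw v (CFT.ord (plOver M v) (ξ : M), CFT.ord (plConj σ v) (ξ : M))
      * T.zw v (P.k1 v, P.k2 v) * T.zw v (j, -j) = T.zw v (i1 + j, i2 + -j) := fun j => by
    rw [← T.zw_add, ← T.zw_add]; rfl
  rw [Finset.mul_sum, Finset.sum_congr rfl fun j _ =>
    show _ = (sqp v (i1 + i2) : ℂ) * T.zw v (i1 + j, i2 + -j) by rw [← hsq, ← hzsum j]; ring,
    ← Finset.mul_sum]
  -- the radial value is the sum over the exponents, at inert and at split places
  rw [radial]
  by_cases hns : IsNonsplit σ v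
  · obtain ⟨hc0, hth⟩ := T.cOf_inert hv hns
    have h12 : i2 = i1 := by
      have := T.nonsplit_ord hns (ξ : M)
      have := P.adm v hns
      omega
    rw [jSet, if_pos hns, hc0]
    by_cases h0 : 0 ≤ i1
    · rw [if_pos h0, Finset.sum_singleton, if_neg (by omega), Frame.zw, if_neg hv, if_pos hns]
      obtain ⟨n, hn⟩ := Int.eq_ofNat_of_zero_le h0
      rw [h12, hn, hth, show ((n : ℤ) + n).toNat = 2 * n by omega, (chebU_zero n).1, add_zero, sqp,
        show -((n : ℤ) + n) = -((2 * n : ℕ) : ℤ) by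
          push_cast; ring, zpow_neg, zpow_natCast, zpow_natCast]
      push_cast
      rfl
    · rw [if_neg h0, Finset.sum_empty, mul_zero, if_pos (by omega)]
      simp
  · rw [jSet, if_neg hns]
    by_cases h0 : 0 ≤ i1 + i2
    · obtain ⟨n, hn⟩ := Int.eq_ofNat_of_zero_le h0
      rw [if_neg (by omega), hn, sqp, zpow_neg, zpow_natCast, Int.toNat_natCast]
      push_cast
      congr 1
      rw [← sum_zpow_chebU (Units.ne_zero _) (T.cOf_split hv hns) n]
      refine Finset.sum_bij (fun i _ => (i : ℤ) - i1) (fun i hi => ?_) (fun a _ b _ h => by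
        omega) (fun j hj => ?_) fun i hi => ?_
      · rw [Finset.mem_range] at hi; rw [Finset.mem_Icc]; omega
      · rw [Finset.mem_Icc] at hj
        exact ⟨(j + i1).toNat, Finset.mem_range.2 (by omega), by omega⟩
      · rw [Frame.zw, if_neg hv, if_neg hns]
        congr 1
        omega
    · rw [if_pos (by omega), Finset.Icc_eq_empty (by omega), Finset.sum_empty, mul_zero]
      simp

end Fermat.LTG.Theta
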