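import Fermat.Agent.LTG.Theta.LocalFT
import Fermat.Agent.LT.Theta.LatSum

/-!
# Theta: the lattice sums at a point and at its inversion

`exists_lattice_transform` is the exchange, by Poisson summation and the finite transform
`qsum_locA`.
-/

set_option autoImplicit false

open NumberField MeasureTheory Filter Fermat.CFT
open scoped Classical ComplexConjugate Pointwise

noncomputable section

namespace Fermat.LTG.Theta

open Fermat.LT Fermat.LT.Theta
open Fermat.LT.Mult (psi chiF)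

/-- A finite sum of functions passes through a sum over a finite quotient. -/
lemma qsum_fintype_sum {A ι : Type*} [AddCommGroup A] [Fintype ι] {lo hi : AddSubgroup A}
    (hfin : hi.relIndex lo ≠ 0) (c : ι → ℂ) (u : ι → A → ℂ) :
    qsum lo hi (fun x => ∑ r, c r * u r x) = ∑ r, c r * qsum lo hi (u r) := by
  have : Finite (lo ⧸ hi.addSubgroupOf lo) := Nat.finite_of_card_ne_zero hfin
  let _ := Fintype.ofFinite (lo ⧸ hi.addSubgroupOf lo)
  simp only [qsum, finsum_eq_sum_of_fintype, Finset.mul_sum]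
  exact Finset.sum_comm

/-- The sum of the indicator of a translate of the periods is one. -/
lemma qsum_coset {A : Type*} [AddCommGroup A] {lo hi : AddSubgroup A} (hle : hi ≤ lo)
    (hfin : hi.relIndex lo ≠ 0) {r : A} (hr : r ∈ lo) :
    qsum lo hi (fun x => if x - r ∈ hi then 1 else 0) = 1 := by
  have hp : Periodic lo hi fun x => if x ∈ hi then (1 : ℂ) else 0 := fun x _ h hh =>
    if_congr (hi.add_mem_cancel_right hh) rfl rfl
  have h := qsum_shift hp (neg_mem hr)
  simp only [← sub_eq_add_neg] at h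
  rw [h, qsum_indicator le_rfl hle hfin, AddSubgroup.relIndex_self, Nat.cast_one]

variable {F M : Type} [Field F] [NumberField F] [IsTotallyComplex F] [Field M] [NumberField M]
  [Algebra F M] [IsGalois F M] {σ : M ≃ₐ[F] M} {lam : Pl F → ℝ} {T : Frame σ lam}
  {ω : FinPt0 F} (P : PDat T ω) {n : ℕ}

include T in
omit [IsGalois F M] in
/-- The box of an admissible shell has volume one. -/
lemma boxVol_loS {τ : Pl F →₀ ℤ} (hτ : T.AdmT τ) {v : Pl F} (hv : v ∈ T.S) :
    boxVol σ v (loS τ v) = 1 := by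
  unfold boxVol loS
  split_ifs with hns
  · rw [hτ v hv hns]; simp
  · have hQ : resCard (plConj σ v) = resCard (plOver M v) := by
      rw [plConj, resCard, resCard, smul_asIdeal, Ideal.absNorm_apply, Ideal.absNorm_apply,
        Submodule.cardQuot_apply, Submodule.cardQuot_apply]
      exact Nat.card_congr (Ideal.quotientEquiv (plOver M v).asIdeal _
        (MulSemiringAction.toRingEquiv _ (𝓞 M) σ) rfl).symm.toEquiv
    rw [hQ, ← zpow_add₀ (by exact_mod_cast (resCard_pos _).ne'), neg_add_cancel, zpow_zero]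

/-- Nothing happens at `v`. -/
def Triv (n D : ℕ) (τ : Pl F →₀ ℤ) (v : Pl F) : Prop :=
  v ∉ T.S ∧ bnd P n v (τ v) = 0 ∧ P.x v = 0 ∧ dOrd M σ D v = 0

/-- At almost all places the bound and the translation vanish. -/
lemma eventually_bnd (τ : Pl F →₀ ℤ) :
    ∀ᶠ v in cofinite, v ∉ T.S ∧ bnd P n v (τ v) = 0 ∧ P.x v = 0 := by
  filter_upwards [P.fin, T.S.finite_toSet.compl_mem_cofinite,
    τ.support.finite_toSet.compl_mem_cofinite] with v ⟨h1, h2, h3, h4⟩ h5 h8
  simp only [Set.mem_compl_iff, Finset.mem_coe, Finsupp.mem_support_iff, not_not] at h5 h8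
  exact ⟨h5, by simp [bnd, h1, h2, h3, h4, h5, h8], h2⟩

variable (n) in
/-- One integer makes all exponent vectors large. -/
lemma exists_bigD (τ : Pl F →₀ ℤ) :
    ∃ D : ℕ, D ≠ 0 ∧ ∀ v, Big P n v (τ v) (dOrd M σ D v) := by
  obtain ⟨D, hD, hDv⟩ := exists_nat_small (F := F) (fun v => (bnd P n v (τ v)).toNat)
    ((eventually_cofinite.1 (eventually_bnd P (n := n) τ)).subset fun v hv h =>
      hv (by simp [h.2.1]))
  refine ⟨D, hD, fun v => ⟨adm_dOrd T.H.finrank T.H.σ_ne D v, ?_, ?_⟩⟩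
  all_goals
    have hDF : (D : F) ≠ 0 := Nat.cast_ne_zero.2 hD
    have h := hDv v
    rw [valuation_eq_exp_neg_ord v hDF, WithZero.exp_le_exp] at h
    have h0 : 0 ≤ CFT.ord v (D : F) := by
      exact_mod_cast CFT.ord_algebraMap_nonneg v (D : 𝓞 F)
    have he : (1 : ℤ) ≤ plRamIdx F (plOver M v) := by exact_mod_cast plRamIdx_pos _
    have hle := le_mul_of_one_le_left h0 he
  · change _ ≤ CFT.ord (plOver M v) (D : M)
    rw [show (D : M) = algebraMap F M (D : F) from (map_natCast _ D).symm, CFT.ord_algebraMap_eq,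
      plUnder_plOver]
    omega
  · change _ ≤ CFT.ord (plConj σ v) (D : M)
    rw [show (D : M) = algebraMap F M (D : F) from (map_natCast _ D).symm, CFT.ord_algebraMap_eq,
      plUnder_plConj, plRamIdx_plConj]
    omega

/-- Only finitely many places are nontrivial. -/
lemma finite_nontriv (n D : ℕ) (τ : Pl F →₀ ℤ) :
    {v | ¬ Triv P n D τ v}.Finite := by
  refine eventually_cofinite.1 ?_
  have h1 : ((fun W => plUnder F W) '' {W : Pl M | CFT.ord W (D : M) ≠ 0}).Finite :=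
    (CFT.finite_ord_ne_zero (D : M)).image _
  filter_upwards [eventually_bnd P (n := n) τ, h1.compl_mem_cofinite] with v hv c
  refine ⟨hv.1, hv.2.1, hv.2.2, Prod.ext ?_ ?_⟩ <;> by_contra h
  · exact c ⟨plOver M v, h, plUnder_plOver v⟩
  · exact c ⟨plConj σ v, h, plUnder_plConj v⟩

variable {P}

/-- The parameters at a trivial place. -/
lemma triv_spec {D : ℕ} {τ : Pl F →₀ ℤ} {v : Pl F} (h : Triv P n D τ v) :
    P.k1 v = 0 ∧ P.k2 v = 0 ∧ τ v = 0 ∧ CFT.ord v (P.a v : F) = 0 := by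
  obtain ⟨hS, h, -, -⟩ := h
  rw [bnd, if_neg hS] at h
  have := abs_nonneg (P.k1 v); have := abs_nonneg (P.k2 v); have := abs_nonneg (τ v)
  have := abs_nonneg (CFT.ord v (P.a v : F)); have := abs_nonneg (CFT.ord v (P.x v))
  exact ⟨abs_eq_zero.1 (by omega), abs_eq_zero.1 (by omega), abs_eq_zero.1 (by omega),
    abs_eq_zero.1 (by omega)⟩

/-- Where nothing happens the local factors and constant are trivial. -/
lemma locT_of_triv {D : ℕ} {τ : Pl F →₀ ℤ} {v : Pl F} (h : Triv P n D τ v) {η : M}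
    (hη : η ∈ box σ v 0) :
    locT P v (τ v) η = 1 ∧ locT P.inv v (τ v) η = 1 ∧ cLoc P v = 1 := by
  obtain ⟨h1, h2, h3, h4⟩ := triv_spec h
  have hS := h.1
  have hx := h.2.2.1
  have hk1 : P.inv.k1 v = 0 := by simp [PDat.inv, hx, h2]
  have hk2 : P.inv.k2 v = 0 := by simp [PDat.inv, hx, h1]
  have hx' : P.inv.x v = 0 := by simp [PDat.inv, hx]
  have hm : (((-(0 + 0)), (-(0 - 0))) : ℤ × ℤ) = 0 := by simp
  refine ⟨?_, ?_, ?_⟩
  · rw [locT, if_neg hS, h3, if_neg fun h' => h'.2 rfl, mBox, h1, h2, hm, if_pos hη, hx, neg_zero,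
      show ((0 : ℤ), (0 : ℤ)) = (0 : ℤ × ℤ) from rfl, T.zw_zero]
    simp
  · rw [locT, if_neg hS, h3, if_neg fun h' => h'.2 rfl, mBox, hk1, hk2, hm, if_pos hη,
      hx', neg_zero, show ((0 : ℤ), (0 : ℤ)) = (0 : ℤ × ℤ) from rfl, T.zw_zero]
    simp
  · rw [cLoc, if_neg hS, if_pos hx, h4]
    simp

/-- On elements integral off `V`, the products of the factors reduce to the places of `V`. -/
lemma locA_eq_of_mem {D : ℕ} {τ : Pl F →₀ ℤ} {V : Finset (Pl F)} (hV : ∀ v ∉ V, Triv P n D τ v)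
    (E : SF T) {η : M} (hη : ∀ v ∉ V, η ∈ box σ v 0) :
    locA P E τ η = E.E τ η * ∏ v ∈ V, locT P v (τ v) η
      ∧ locA P.inv E τ η = E.E τ η * ∏ v ∈ V, locT P.inv v (τ v) η := by
  constructor <;> rw [locA] <;> congr 1 <;>
    refine finprod_eq_prod_of_mulSupport_subset _ fun v hv => ?_
  · by_contra hc
    exact hv (locT_of_triv (hV v hc) (hη v hc)).1
  · by_contra hc
    exact hv (locT_of_triv (hV v hc) (hη v hc)).2.1

/-- A nonzero product has nonzero factors. -/
lemma locT_ne_of_locA_ne {ω' : FinPt0 F} (Q : PDat T ω') {E : SF T} {τ : Pl F →₀ ℤ} {η : M}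
    (h : locA Q E τ η ≠ 0) : E.E τ η ≠ 0 ∧ ∀ v, locT Q v (τ v) η ≠ 0 := by
  rw [locA] at h
  exact ⟨left_ne_zero_of_mul h, fun v hz => right_ne_zero_of_mul h
    (finprod_eq_zero _ v hz ((Finset.finite_toSet _).subset (mulSupport_locT Q τ η)))⟩

/-- The factor on the shells is supported on admissible exponents. -/
lemma gE_admT {f : SFun T n} {τ : Pl F →₀ ℤ} {η : M} (h : f.gE τ η ≠ 0) : T.AdmT τ := by
  unfold SFun.gE at h
  split_ifs at h with hs
  · intro v hv hns
    obtain ⟨e1, e2⟩ := hs.2 v hv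
    rw [T.nonsplit_ord hns η] at e2
    omega
  · exact absurd rfl h

/-- The factor on the shells is supported in the boxes of the shell. -/
lemma gE_mem_lo {f : SFun T n} {τ : Pl F →₀ ℤ} {η : M} (h : f.gE τ η ≠ 0) :
    ∀ v ∈ T.S, η ∈ box σ v (loS τ v) := fun v hv => by
  unfold SFun.gE at h
  split_ifs at h with hs
  · exact (mem_box_iff_ord hs.1).2 ⟨(hs.2 v hv).1.ge, (hs.2 v hv).2.ge⟩
  · exact absurd rfl h

/-- A large scale contains the periods and the shell at `S`. -/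
lemma big_S {D : ℕ} {τ : Pl F →₀ ℤ} {v : Pl F} (hv : v ∈ T.S)
    (hb : Big P n v (τ v) (dOrd M σ D v)) :
    ((T.hiS n τ v).1 ≤ (dOrd M σ D v).1 ∧ (T.hiS n τ v).2 ≤ (dOrd M σ D v).2) ∧
    (-(dOrd M σ D v).1 ≤ (loS τ v).1 ∧ -(dOrd M σ D v).2 ≤ (loS τ v).2) := by
  obtain ⟨-, h1, h2⟩ := hb
  rw [bnd, if_pos hv] at h1 h2
  have := le_abs_self (τ v); have := neg_abs_le (τ v)
  simp only [Frame.hiS, loS]
  omega

variable (T) in
/-- The lower box of the semilocal sum: the support at `S`, the fractional one off `S`. -/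
def semiLo (D : ℕ) (τ : Pl F →₀ ℤ) (v : Pl F) : ℤ × ℤ :=
  if v ∈ T.S then loS τ v else -dOrd M σ D v

variable (T) in
/-- The upper box of the semilocal sum: the periods at `S`, the integral one off `S`. -/
def semiHi (n D : ℕ) (τ : Pl F →₀ ℤ) (v : Pl F) : ℤ × ℤ :=
  if v ∈ T.S then T.hiS n τ v else dOrd M σ D v

/-- The semilocal boxes are nested. -/
lemma semiLo_le_semiHi (n D : ℕ) (τ : Pl F →₀ ℤ) (v : Pl F) :
    (semiLo T D τ v).1 ≤ (semiHi T n D τ v).1 ∧ (semiLo T D τ v).2 ≤ (semiHi T n D τ v).2 := by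
  unfold semiLo semiHi
  split_ifs
  · exact T.loS_le_hiS n τ v
  · have := dOrd_nonneg D v (σ := σ)
    simp only [Prod.fst_neg, Prod.snd_neg]; omega

/-- The periods of the semilocal sum contain the global ones. -/
lemma semiHi_le_dOrd {D : ℕ} {τ : Pl F →₀ ℤ} (hb : ∀ v, Big P n v (τ v) (dOrd M σ D v)) (v : Pl F) :
    (semiHi T n D τ v).1 ≤ (dOrd M σ D v).1 ∧ (semiHi T n D τ v).2 ≤ (dOrd M σ D v).2 := by
  unfold semiHi
  split_ifs with hv
  · exact (big_S hv (hb v)).1
  · exact ⟨le_rfl, le_rfl⟩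

/-- The semilocal boxes are admissible. -/
lemma adm_semi (n D : ℕ) {τ : Pl F →₀ ℤ} (hτ : T.AdmT τ) (v : Pl F) :
    Adm σ v (semiLo T D τ v) ∧ Adm σ v (semiHi T n D τ v) := by
  unfold semiLo semiHi
  split_ifs with hv
  · exact ⟨T.adm_loS hτ hv, T.adm_hiS n hτ hv⟩
  · exact ⟨adm_neg (adm_dOrd T.H.finrank T.H.σ_ne D v),
      adm_dOrd T.H.finrank T.H.σ_ne D v⟩

/-- The semilocal boxes are trivial where nothing happens. -/
lemma semi_eq_zero {D : ℕ} {τ : Pl F →₀ ℤ} {v : Pl F} (h : Triv P n D τ v) :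
    semiLo T D τ v = 0 ∧ semiHi T n D τ v = 0 := by
  simp only [semiLo, semiHi, if_neg h.1, h.2.2.2, neg_zero, and_self]

/-- The semilocal support lies in the fractional box. -/
lemma gBox_semiLo_le {D : ℕ} {τ : Pl F →₀ ℤ} (hb : ∀ v, Big P n v (τ v) (dOrd M σ D v)) :
    gBox σ (semiLo T D τ) ≤ gBox σ fun v => -dOrd M σ D v := fun η hη => mem_gBox.2 fun v => by
  have h := mem_gBox.1 hη v
  by_cases hv : v ∈ T.S
  · simp only [semiLo, if_pos hv] at h
    exact box_mono (by simpa using (big_S hv (hb v)).2.1) (by simpa using (big_S hv (hb v)).2.2) h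
  · simpa only [semiLo, if_neg hv] using h

variable (f : SFun T n)

/-- The support of the product lies in the global box of the scale. -/
lemma mem_gBox_of_locA_ne {D : ℕ} {τ : Pl F →₀ ℤ} (hb : ∀ v, Big P n v (τ v) (dOrd M σ D v)) {η : M}
    (h : locA P f.sf τ η ≠ 0) : η ∈ gBox σ (fun v => -dOrd M σ D v) := by
  obtain ⟨hE, hL⟩ := locT_ne_of_locA_ne P h
  refine mem_gBox.2 fun v => ?_
  by_cases hv : v ∈ T.S
  · obtain ⟨-, b1, b2⟩ := big_S hv (hb v)
    exact box_mono (by simpa using b1) (by simpa using b2) (gE_mem_lo hE v hv)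
  · exact locT_supp hv (hb v) (hL v)

/-- The product of the factors is periodic between global boxes. -/
lemma periodic_locA {D : ℕ} {τ : Pl F →₀ ℤ}
    (hb : ∀ v, Big P n v (τ v) (dOrd M σ D v)) :
    Periodic (gBox σ fun v => -dOrd M σ D v) (gBox σ (dOrd M σ D)) (locA P f.sf τ) :=
      fun η hη h hh => by
  set V := (finite_nontriv P n D τ).toFinset
  have hV : ∀ v ∉ V, Triv P n D τ v := fun v hv => by simpa [V] using hv
  have hb0 : ∀ η ∈ gBox σ (fun v => -dOrd M σ D v), ∀ v ∉ V, η ∈ box σ v 0 := fun η hη v hv => by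
    have := mem_gBox.1 hη v
    rwa [(hV v hv).2.2.2, neg_zero] at this
  have hle : gBox σ (dOrd M σ D) ≤ gBox σ fun v => -dOrd M σ D v :=
      fun z hz => mem_gBox.2 fun v => by
    have := dOrd_nonneg D v (σ := σ)
    exact box_mono (by simp; omega) (by simp; omega) (mem_gBox.1 hz v)
  rw [(locA_eq_of_mem hV f.sf (hb0 _ (add_mem hη (hle hh)))).1,
    (locA_eq_of_mem hV f.sf (hb0 η hη)).1,
    show f.sf.E τ (η + h) = f.sf.E τ η from f.gE_periodic τ η (mem_sBox.2 fun v hv =>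
      box_mono (big_S hv (hb v)).1.1 (big_S hv (hb v)).1.2 (mem_gBox.1 hh v))]
  congr 1
  refine Finset.prod_congr rfl fun v _ => ?_
  by_cases hv : v ∈ T.S
  · rw [locT, locT, if_pos hv, if_pos hv]
  · exact periodic_locT hv (hb v) η (mem_gBox.1 hη v) h (mem_gBox.1 hh v)

/-- The semilocal sum splits off. -/
lemma qsum_semilocal {D : ℕ} {τ : Pl F →₀ ℤ} (hτ : T.AdmT τ)
    (hb : ∀ v, Big P n v (τ v) (dOrd M σ D v)) {y : M} (hOrth : T.Orth n τ y)
    (hoff : ∀ v ∉ T.S, y ∈ box σ v (dual M T.δ v (dOrd M σ D v))) {V : Finset (Pl F)}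
    (hSV : T.S ⊆ V) (hV : ∀ v ∉ V, Triv P n D τ v) :
    qsum (gBox σ fun v => if v ∈ T.S then loS τ v else -dOrd M σ D v)
        (gBox σ fun v => if v ∈ T.S then T.hiS n τ v else dOrd M σ D v)
        (fun η => f.gI τ y η * ∏ v ∈ V, if v ∈ T.S then 1 else locT P v (τ v) η *
          psiD T.δ v (pair σ η y))
      = f.gSum τ y * ∏ v ∈ V, if v ∈ T.S then 1
          else (boxVol σ v (dOrd M σ D v) : ℂ) * cLoc P v * locT P.inv v (τ v) y := by
  have hF := T.H.finrank
  have hσ := T.H.σ_ne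
  set lo : Pl F → ℤ × ℤ := fun v => if v ∈ T.S then loS τ v else -dOrd M σ D v
  set hi : Pl F → ℤ × ℤ := fun v => if v ∈ T.S then T.hiS n τ v else dOrd M σ D v
  have hlh : ∀ v, (lo v).1 ≤ (hi v).1 ∧ (lo v).2 ≤ (hi v).2 := semiLo_le_semiHi n D τ
  have hadm : ∀ v, Adm σ v (lo v) ∧ Adm σ v (hi v) := adm_semi n D hτ
  have hVe : ∀ v ∉ V, lo v = 0 ∧ hi v = 0 := fun v hv => semi_eq_zero (hV v hv)
  have hfinG : (gBox σ hi).relIndex (gBox σ lo) ≠ 0 := by
    rw [relIndex_gBox hF hσ hlh hadm hVe]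
    exact (Finset.prod_pos fun v _ => boxCard_pos v _).ne'
  set SLo := sBox σ T.S (loS τ)
  set SHi := sBox σ T.S (T.hiS n τ)
  have hne := (relIndex_sBox_le hF hσ (V := T.S) (lo := loS τ) (hi := T.hiS n τ)
    (fun v _ => T.loS_le_hiS n τ v) fun v hv => ⟨T.adm_loS hτ hv, T.adm_hiS n hτ hv⟩).2
  have : Finite (SLo ⧸ SHi.addSubgroupOf SLo) := Nat.finite_of_card_ne_zero hne
  let _ := Fintype.ofFinite (SLo ⧸ SHi.addSubgroupOf SLo)
  -- split along the cosets of the periods in the shell at `S`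
  set rp : SLo ⧸ SHi.addSubgroupOf SLo → M := fun r => ((Quotient.out r : SLo) : M)
  have hrp : ∀ r, ∀ v ∈ T.S, rp r ∈ box σ v (loS τ v) := fun r => mem_sBox.1 (Quotient.out r).2
  set g : (SLo ⧸ SHi.addSubgroupOf SLo) → Pl F → M → ℂ := fun r v η =>
    if v ∈ T.S then (if η - rp r ∈ box σ v (T.hiS n τ v) then 1 else 0)
    else locT P v (τ v) η * psiD T.δ v (pair σ η y)
  have hdec : ∀ η ∈ gBox σ lo,
      f.gI τ y η * (∏ v ∈ V, if v ∈ T.S then 1 else locT P v (τ v) η * psiD T.δ v (pair σ η y))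
        = ∑ r, f.gI τ y (rp r) * ∏ v ∈ V, g r v η := by
    intro η hη
    have hηS : η ∈ SLo := mem_sBox.2 fun v hv => by
      have h := mem_gBox.1 hη v
      simpa only [lo, if_pos hv] using h
    set r₀ : SLo ⧸ SHi.addSubgroupOf SLo := QuotientAddGroup.mk ⟨η, hηS⟩
    have hd : η - rp r₀ ∈ SHi := by
      have h := QuotientAddGroup.eq.1 (QuotientAddGroup.out_eq' r₀)
      rw [AddSubgroup.mem_addSubgroupOf] at h
      have h' : -rp r₀ + η ∈ SHi := h
      rwa [neg_add_eq_sub] at h'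
    rw [Finset.sum_eq_single r₀ (fun r _ hr => ?_) fun h => absurd (Finset.mem_univ _) h]
    · congr 1
      · conv_lhs => rw [← add_sub_cancel (rp r₀) η, f.gI_periodic hOrth _ hd]
      · refine Finset.prod_congr rfl fun v _ => ?_
        simp only [g]
        split_ifs with hv hm
        · rfl
        · exact absurd (mem_sBox.1 hd v hv) hm
        · rfl
    · refine mul_eq_zero_of_right _ ?_
      obtain ⟨v, hv, hm⟩ : ∃ v ∈ T.S, η - rp r ∉ box σ v (T.hiS n τ v) := by
        by_contra hc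
        push Not at hc
        refine hr ?_
        rw [← QuotientAddGroup.out_eq' r]
        refine QuotientAddGroup.eq.2 ?_
        rw [AddSubgroup.mem_addSubgroupOf]
        change -rp r + η ∈ SHi
        rw [neg_add_eq_sub]
        exact mem_sBox.2 hc
      exact Finset.prod_eq_zero (hSV hv) (by simp only [g, if_pos hv, if_neg hm])
  -- each coset gives a product of local sums
  rw [qsum_congr hdec, qsum_fintype_sum hfinG, SFun.gSum, qsum, finsum_eq_sum_of_fintype,
    Finset.sum_mul]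
  refine Finset.sum_congr rfl fun r _ => ?_
  congr 1
  rw [qsum_gBox hF hσ hlh hadm hVe (g r) fun v _ η hη h hh => ?_]
  · refine Finset.prod_congr rfl fun v _ => ?_
    simp only [g, lo, hi]
    split_ifs with hv
    · exact qsum_coset (box_mono (T.loS_le_hiS n τ v).1 (T.loS_le_hiS n τ v).2)
        (relIndex_box_ne_zero hF hσ (T.loS_le_hiS n τ v).1 (T.loS_le_hiS n τ v).2
          (T.adm_loS hτ hv) (T.adm_hiS n hτ hv)) (hrp r v hv)
    · exact ft_loc hv (hb v) (hoff v hv)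
  · simp only [lo, hi] at hη hh
    simp only [g]
    by_cases hv : v ∈ T.S
    · simp only [if_pos hv] at hη hh ⊢
      exact if_congr (show η + h - rp r ∈ box σ v (T.hiS n τ v) ↔
          η - rp r ∈ box σ v (T.hiS n τ v) by
        rw [add_sub_right_comm]; exact AddSubgroup.add_mem_cancel_right _ hh) rfl rfl
    · simp only [if_neg hv] at hη hh ⊢
      rw [periodic_locT hv (hb v) η hη h hh, pair_add_left, psiD_add,
        psiD_pair_eq_one T.δ hF hσ hh (hoff v hv), mul_one]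

/-- Where nothing happens the fractional box is the integral one. -/
lemma mem_box_zero_of_triv {D : ℕ} {τ : Pl F →₀ ℤ} {η : M}
    (hη : η ∈ gBox σ fun v => -dOrd M σ D v) {v : Pl F} (h : Triv P n D τ v) : η ∈ box σ v 0 := by
  have := mem_gBox.1 hη v
  rwa [h.2.2.2, neg_zero] at this

/-- Where nothing happens the dual box is the integral one. -/
lemma mem_box_zero_of_dual {D : ℕ} {τ : Pl F →₀ ℤ} {y : M}
    (hoff : ∀ v ∉ T.S, y ∈ box σ v (dual M T.δ v (dOrd M σ D v))) {v : Pl F} (h : Triv P n D τ v) :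
    y ∈ box σ v 0 := by
  have := hoff v h.1
  rwa [h.2.2.2, T.dual_off h.1, Prod.fst_zero, Prod.snd_zero, neg_zero] at this

/-- The twisted finite part is the semilocal summand. -/
lemma locA_mul_chiF_eq {D : ℕ} {τ : Pl F →₀ ℤ} {V : Finset (Pl F)} (hSV : T.S ⊆ V)
    (hV : ∀ v ∉ V, Triv P n D τ v) {y : M}
    (hoff : ∀ v ∉ T.S, y ∈ box σ v (dual M T.δ v (dOrd M σ D v))) {η : M}
    (hη : η ∈ gBox σ fun v => -dOrd M σ D v) :
    locA P f.sf τ η * chiF ((T.δ : F) * pair σ η y)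
      = f.gI τ y η * ∏ v ∈ V, if v ∈ T.S then 1 else locT P v (τ v) η *
        psiD T.δ v (pair σ η y) := by
  have hchi : chiF ((T.δ : F) * pair σ η y) = ∏ v ∈ V, psiD T.δ v (pair σ η y) := by
    rw [← finprod_psi]
    refine finprod_eq_prod_of_mulSupport_subset _ fun v hv => ?_
    by_contra hc
    refine hv (psiD_pair_eq_one T.δ T.H.finrank T.H.σ_ne (mem_box_zero_of_triv hη (hV v hc)) ?_)
    rw [T.dual_off (hV v hc).1, Prod.fst_zero, Prod.snd_zero, neg_zero]
    exact mem_box_zero_of_dual hoff (hV v hc)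
  have hsplit : ∏ v ∈ T.S, psiD T.δ v (pair σ η y)
      = ∏ v ∈ V, if v ∈ T.S then psiD T.δ v (pair σ η y) else 1 := by
    rw [Finset.prod_ite_mem, Finset.inter_eq_right.2 hSV]
  rw [(locA_eq_of_mem hV f.sf fun v hv => mem_box_zero_of_triv hη (hV v hv)).1, hchi,
    SFun.gI, hsplit, mul_assoc, mul_assoc, ← Finset.prod_mul_distrib, ← Finset.prod_mul_distrib]
  congr 1
  refine Finset.prod_congr rfl fun v _ => ?_
  by_cases hv : v ∈ T.S
  · rw [locT, if_pos hv, if_pos hv, if_pos hv]; ring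
  · rw [if_neg hv, if_neg hv, one_mul]

/-- The twisted finite part is periodic between the boxes of `D`. -/
lemma periodic_locA_mul_chiF {D : ℕ} {τ : Pl F →₀ ℤ}
    (hb : ∀ v, Big P n v (τ v) (dOrd M σ D v)) {y : M}
    (hyS : ∀ v ∈ T.S, ∀ l ∈ box σ v (dOrd M σ D v), psiD T.δ v (pair σ l y) = 1)
    (hoff : ∀ v ∉ T.S, y ∈ box σ v (dual M T.δ v (dOrd M σ D v))) :
    Periodic (gBox σ fun v => -dOrd M σ D v) (gBox σ (dOrd M σ D))
      fun η => locA P f.sf τ η * chiF ((T.δ : F) * pair σ η y) := fun η hη h hh => by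
  beta_reduce
  rw [periodic_locA f hb η hη h hh, pair_add_left, mul_add, Mult.chiF_add]
  congr 1
  rw [show chiF ((T.δ : F) * pair σ h y) = 1 from ?_, mul_one]
  rw [← finprod_psi]
  refine finprod_eq_one_of_forall_eq_one fun v => ?_
  by_cases hv : v ∈ T.S
  · exact hyS v hv h (mem_gBox.1 hh v)
  · exact psiD_pair_eq_one T.δ T.H.finrank T.H.σ_ne (mem_gBox.1 hh v) (hoff v hv)

/-- Without orthogonality the twisted sum vanishes. -/
lemma qsum_locA_of_not_orth {D : ℕ} {τ : Pl F →₀ ℤ}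
    (hb : ∀ v, Big P n v (τ v) (dOrd M σ D v)) {y : M}
    (hyS : ∀ v ∈ T.S, ∀ l ∈ box σ v (dOrd M σ D v), psiD T.δ v (pair σ l y) = 1)
    (hoff : ∀ v ∉ T.S, y ∈ box σ v (dual M T.δ v (dOrd M σ D v))) {V : Finset (Pl F)}
    (hSV : T.S ⊆ V) (hV : ∀ v ∉ V, Triv P n D τ v) (hO : ¬ T.Orth n τ y) :
    qsum (gBox σ (semiLo T D τ)) (gBox σ (dOrd M σ D))
      (fun η => locA P f.sf τ η * chiF ((T.δ : F) * pair σ η y)) = 0 := by
  have hF := T.H.finrank
  have hσ := T.H.σ_ne
  have hlD : ∀ v, (semiLo T D τ v).1 ≤ (dOrd M σ D v).1 ∧ (semiLo T D τ v).2 ≤ (dOrd M σ D v).2 :=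
    fun v => ⟨(semiLo_le_semiHi n D τ v).1.trans (semiHi_le_dOrd hb v).1,
      (semiLo_le_semiHi n D τ v).2.trans (semiHi_le_dOrd hb v).2⟩
  have hlo_le := gBox_semiLo_le (T := T) hb
  unfold Frame.Orth at hO
  push Not at hO
  obtain ⟨v, hv, l, hl, hlne⟩ := hO
  set D' := dOrd M σ D
  set lo' : Pl F → ℤ × ℤ := Function.update D' v (T.hiS n τ v)
  have hlD' : ∀ u, (lo' u).1 ≤ (D' u).1 ∧ (lo' u).2 ≤ (D' u).2 := fun u => by
    by_cases hu : u = v
    · subst hu; simp only [lo', Function.update_self]; exact (big_S hv (hb _)).1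
    · simp only [lo', Function.update_of_ne hu]; exact ⟨le_rfl, le_rfl⟩
  have hV' : ∀ u ∉ V, lo' u = 0 ∧ D' u = 0 := fun u hu => by
    have hne' : u ≠ v := fun e => hu (e ▸ hSV hv)
    simp only [lo', Function.update_of_ne hne']
    exact ⟨(hV u hu).2.2.2, (hV u hu).2.2.2⟩
  -- an element `z` equal to `l` at `v` and small elsewhere
  obtain ⟨φ, hφ, hφm⟩ := crt_bijective (σ := σ) hlD' hV'
  have hlv : l ∈ box σ v (lo' v) := by simp only [lo', Function.update_self]; exact hl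
  obtain ⟨q, hq⟩ := hφ.2 (Pi.single ⟨v, hSV hv⟩ (QuotientAddGroup.mk ⟨l, hlv⟩))
  obtain ⟨⟨z, hz⟩, rfl⟩ := QuotientAddGroup.mk_surjective q
  have hzv : z - l ∈ box σ v (D' v) := by
    have h := congrFun hq ⟨v, hSV hv⟩
    rw [hφm, Pi.single_eq_same, QuotientAddGroup.eq, AddSubgroup.mem_addSubgroupOf] at h
    rw [← AddSubgroup.neg_mem_iff, neg_sub, ← neg_add_eq_sub]
    exact h
  have hzu : ∀ u, u ≠ v → z ∈ box σ u (D' u) := fun u hu => by
    simpa only [lo', Function.update_of_ne hu] using mem_gBox.1 hz u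
  have hzS : z ∈ sBox σ T.S (T.hiS n τ) := mem_sBox.2 fun u hu => by
    by_cases he : u = v
    · subst he; simpa only [lo', Function.update_self] using mem_gBox.1 hz u
    · exact box_mono (big_S hu (hb u)).1.1 (big_S hu (hb u)).1.2 (hzu u he)
  have hzlo : z ∈ gBox σ (semiLo T D τ) := mem_gBox.2 fun u => by
    by_cases hu : u ∈ T.S
    · simp only [semiLo, if_pos hu]
      exact box_mono (T.loS_le_hiS n τ u).1 (T.loS_le_hiS n τ u).2 (mem_sBox.1 hzS u hu)
    · exact box_mono (hlD u).1 (hlD u).2 (hzu u fun e => hu (e ▸ hv))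
  -- translation by `z` multiplies the summand by a nontrivial constant
  refine qsum_eq_zero ((periodic_locA_mul_chiF f hb hyS hoff).mono hlo_le le_rfl) hzlo
    (c := psiD T.δ v (pair σ l y)) hlne fun η hη => ?_
  have hA : locA P f.sf τ (η + z) = locA P f.sf τ η := by
    rw [(locA_eq_of_mem hV f.sf fun u hu =>
        mem_box_zero_of_triv (hlo_le (add_mem hη hzlo)) (hV u hu)).1,
      (locA_eq_of_mem hV f.sf fun u hu => mem_box_zero_of_triv (hlo_le hη) (hV u hu)).1,
      show f.sf.E τ (η + z) = f.sf.E τ η from f.gE_periodic τ η hzS]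
    congr 1
    refine Finset.prod_congr rfl fun u _ => ?_
    by_cases hu : u ∈ T.S
    · rw [locT, locT, if_pos hu, if_pos hu]
    · exact periodic_locT hu (hb u) η (mem_gBox.1 (hlo_le hη) u) z (hzu u fun e => hu (e ▸ hv))
  have hc : chiF ((T.δ : F) * pair σ z y) = psiD T.δ v (pair σ l y) := by
    rw [← finprod_psi,
      show (∏ᶠ u, psi u ((T.δ : F) * pair σ z y)) = ∏ᶠ u, psiD T.δ u (pair σ z y) from rfl,
      finprod_eq_single _ v fun u hu => ?_, show z = (z - l) + l by ring, pair_add_left, psiD_add,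
      hyS v hv _ hzv, one_mul]
    by_cases huS : u ∈ T.S
    · exact hyS u huS z (hzu u hu)
    · exact psiD_pair_eq_one T.δ hF hσ (hzu u hu) (hoff u huS)
  rw [hA, pair_add_left, mul_add, Mult.chiF_add, hc]
  ring

/-- With orthogonality the twisted finite part is periodic for the semilocal periods. -/
lemma periodic_semi {D : ℕ} {τ : Pl F →₀ ℤ} (hb : ∀ v, Big P n v (τ v) (dOrd M σ D v)) {y : M}
    (hoff : ∀ v ∉ T.S, y ∈ box σ v (dual M T.δ v (dOrd M σ D v))) {V : Finset (Pl F)}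
    (hSV : T.S ⊆ V) (hV : ∀ v ∉ V, Triv P n D τ v) (hO : T.Orth n τ y) :
    Periodic (gBox σ (semiLo T D τ)) (gBox σ (semiHi T n D τ))
      fun η => locA P f.sf τ η * chiF ((T.δ : F) * pair σ η y) := fun η hη z hz => by
  have hlo_le := gBox_semiLo_le (T := T) hb
  have hzlo : z ∈ gBox σ (semiLo T D τ) := mem_gBox.2 fun v =>
    box_mono (semiLo_le_semiHi n D τ v).1 (semiLo_le_semiHi n D τ v).2 (mem_gBox.1 hz v)
  beta_reduce
  rw [locA_mul_chiF_eq f hSV hV hoff (hlo_le (add_mem hη hzlo)),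
    locA_mul_chiF_eq f hSV hV hoff (hlo_le hη),
    f.gI_periodic hO η (mem_sBox.2 fun v hv => by
      simpa only [semiHi, if_pos hv] using mem_gBox.1 hz v)]
  congr 1
  refine Finset.prod_congr rfl fun v _ => ?_
  by_cases hv : v ∈ T.S
  · rw [if_pos hv, if_pos hv]
  · have hzv : z ∈ box σ v (dOrd M σ D v) := by
      simpa only [semiHi, if_neg hv] using mem_gBox.1 hz v
    rw [if_neg hv, if_neg hv, periodic_locT hv (hb v) η (mem_gBox.1 (hlo_le hη) v) z hzv,
      pair_add_left, psiD_add,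
      psiD_pair_eq_one T.δ T.H.finrank T.H.σ_ne hzv (hoff v hv), mul_one]

/-- **The transform of the finite part.** The sum of `locA` against a character over a box quotient
is a global constant times `locA` of the inverse data and the transform at the dual point. -/
theorem qsum_locA {D : ℕ} (hD : D ≠ 0) {τ : Pl F →₀ ℤ} (hb : ∀ v, Big P n v (τ v) (dOrd M σ D v))
    {y : M} (hyS : ∀ v ∈ T.S, ∀ l ∈ box σ v (dOrd M σ D v), psiD T.δ v (pair σ l y) = 1)
    (hoff : ∀ v ∉ T.S, y ∈ box σ v (dual M T.δ v (dOrd M σ D v))) :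
    qsum (gBox σ fun v => -dOrd M σ D v) (gBox σ (dOrd M σ D))
        (fun η => locA P f.sf τ η * chiF ((T.δ : F) * pair σ η y))
      = (((D : ℝ) ^ Module.finrank ℚ M : ℝ) : ℂ) * cGlob P * locA P.inv f.hat τ y := by
  have hF := T.H.finrank
  have hσ := T.H.σ_ne
  by_cases hτ : T.AdmT τ
  swap
  · have h0 : f.hat.E τ y = 0 := by
      change f.hatE τ y = 0
      rw [SFun.hatE, if_neg fun h => hτ h.1]
    rw [qsum_congr (g := fun _ => (0 : ℂ)) fun η _ => ?_]
    · simp [qsum, locA, h0]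
    · have hz : f.sf.E τ η = 0 := by by_contra h; exact hτ (gE_admT h)
      rw [locA, hz, zero_mul, zero_mul]
  set V := (finite_nontriv P n D τ).toFinset
  have hV : ∀ v ∉ V, Triv P n D τ v := fun v hv => by simpa [V] using hv
  have hSV : T.S ⊆ V := fun v hv => by
    by_contra h
    exact (hV v h).1 hv
  have hy0 : ∀ v ∉ V, y ∈ box σ v 0 := fun v hv => mem_box_zero_of_dual hoff (hV v hv)
  set D' := dOrd M σ D
  set lo : Pl F → ℤ × ℤ := semiLo T D τ
  set hi : Pl F → ℤ × ℤ := semiHi T n D τ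
  set Ff : M → ℂ := fun η => locA P f.sf τ η * chiF ((T.δ : F) * pair σ η y)
  have hlh : ∀ v, (lo v).1 ≤ (hi v).1 ∧ (lo v).2 ≤ (hi v).2 := semiLo_le_semiHi n D τ
  have hhD : ∀ v, (hi v).1 ≤ (D' v).1 ∧ (hi v).2 ≤ (D' v).2 := semiHi_le_dOrd hb
  have hlD : ∀ v, (lo v).1 ≤ (D' v).1 ∧ (lo v).2 ≤ (D' v).2 := fun v =>
    ⟨(hlh v).1.trans (hhD v).1, (hlh v).2.trans (hhD v).2⟩
  have hadm : ∀ v, Adm σ v (lo v) ∧ Adm σ v (hi v) := adm_semi n D hτ
  have hVe : ∀ v ∉ V, lo v = 0 ∧ hi v = 0 := fun v hv => semi_eq_zero (hV v hv)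
  have hlo_le : gBox σ lo ≤ gBox σ fun v => -D' v := gBox_semiLo_le hb
  rw [qsum_restrict hlo_le (periodic_locA_mul_chiF f hb hyS hoff) fun η hη hne => ?_]
  swap
  · by_contra h
    refine hne (mem_gBox.2 fun v => ?_)
    by_cases hv : v ∈ T.S
    · simp only [lo, semiLo, if_pos hv]
      exact gE_mem_lo (locT_ne_of_locA_ne P (left_ne_zero_of_mul h)).1 v hv
    · simpa only [lo, semiLo, if_neg hv] using mem_gBox.1 hη v
  change qsum (gBox σ lo) (gBox σ D') Ff = _
  have hhat : locA P.inv f.hat τ y = f.hatE τ y * ∏ v ∈ V, locT P.inv v (τ v) y :=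
    (locA_eq_of_mem hV f.hat hy0).2
  by_cases hO : T.Orth n τ y
  swap
  · rw [qsum_locA_of_not_orth f hb hyS hoff hSV hV hO, hhat, SFun.hatE,
      if_neg fun h => hO h.2, zero_mul, mul_zero]
  -- the orthogonal case
  have hDhi : gBox σ D' ≤ gBox σ hi := fun η hη => mem_gBox.2 fun v =>
    box_mono (hhD v).1 (hhD v).2 (mem_gBox.1 hη v)
  have hhilo : gBox σ hi ≤ gBox σ lo := fun η hη => mem_gBox.2 fun v =>
    box_mono (hlh v).1 (hlh v).2 (mem_gBox.1 hη v)
  have hfin : (gBox σ D').relIndex (gBox σ lo) ≠ 0 := by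
    rw [relIndex_gBox hF hσ hlD (fun v => ⟨(hadm v).1, adm_dOrd hF hσ D v⟩)
      fun v hv => ⟨(hVe v hv).1, (hV v hv).2.2.2⟩]
    exact (Finset.prod_pos fun v _ => boxCard_pos v _).ne'
  have hsl : qsum (gBox σ lo) (gBox σ hi) (fun η => f.gI τ y η *
      ∏ v ∈ V, if v ∈ T.S then 1 else locT P v (τ v) η * psiD T.δ v (pair σ η y)) = _ :=
    qsum_semilocal f hτ hb hO hoff hSV hV
  rw [qsum_coarse hDhi hhilo hfin (periodic_semi f hb hoff hSV hV hO),
    relIndex_gBox hF hσ hhD (fun v => ⟨(hadm v).2, adm_dOrd hF hσ D v⟩)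
      (fun v hv => ⟨(hVe v hv).2, (hV v hv).2.2.2⟩),
    qsum_congr fun η hη => locA_mul_chiF_eq f hSV hV hoff (hlo_le hη), hsl, hhat,
    SFun.hatE, if_pos ⟨hτ, hO⟩, ← prod_boxVol_dOrd hF hσ hD fun v hv => (hV v hv).2.2.2]
  have hcG : cGlob P = ∏ v ∈ V, cLoc P v := finprod_eq_prod_of_mulSupport_subset _ fun v hv => by
    by_contra hc
    exact hv (locT_of_triv (hV v hc) (hy0 v hc)).2.2
  set k := ((T.M1 n : ℤ), (T.M1 n : ℤ))
  have hnu : SFun.nuS (T := T) (n := n)
      = ∏ v ∈ V, if v ∈ T.S then ((boxVol σ v k : ℝ) : ℂ)⁻¹ else 1 := by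
    rw [SFun.nuS, Finset.prod_ite_mem, Finset.inter_eq_right.2 hSV]
  rw [hcG, hnu, Complex.ofReal_prod, Nat.cast_prod,
    show (∏ v ∈ V, ((boxVol σ v (D' v) : ℝ) : ℂ)) * (∏ v ∈ V, cLoc P v)
        * ((∏ v ∈ V, if v ∈ T.S then ((boxVol σ v k : ℝ) : ℂ)⁻¹ else 1) * f.gSum τ y
          * ∏ v ∈ V, locT P.inv v (τ v) y)
      = f.gSum τ y * ((∏ v ∈ V, ((boxVol σ v (D' v) : ℝ) : ℂ)) * (∏ v ∈ V, cLoc P v)
        * (∏ v ∈ V, if v ∈ T.S then ((boxVol σ v k : ℝ) : ℂ)⁻¹ else 1)
        * ∏ v ∈ V, locT P.inv v (τ v) y) by ring, mul_left_comm]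
  congr 1
  simp only [← Finset.prod_mul_distrib]
  refine Finset.prod_congr rfl fun v _ => ?_
  by_cases hv : v ∈ T.S
  · rw [if_pos hv, if_pos hv, cLoc, if_pos hv, locT, if_pos hv]
    simp only [hi, semiHi, if_pos hv, mul_one]
    rw [← Complex.ofReal_natCast, boxCard_cast (σ := σ) v (sub_nonneg.2 (big_S hv (hb v)).1.1)
      (sub_nonneg.2 (big_S hv (hb v)).1.2), boxVol_sub,
      show T.hiS n τ v = loS τ v + k by ext <;> simp [Frame.hiS, loS, k], boxVol_add,
      boxVol_loS hτ hv, one_mul, Complex.ofReal_div, div_eq_mul_inv]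
  · rw [if_neg hv, if_neg hv]
    simp only [hi, D', semiHi, if_neg hv, sub_self]
    have h1 : boxCard σ v (0 : ℤ × ℤ) = 1 := by simp [boxCard]
    rw [h1]
    push_cast
    ring

variable (T) in
/-- **The lattice sums are exchanged by the inversion.** -/
theorem exists_lattice_transform : ∃ κ : ℝ, ∀ {ω : FinPt0 F} (P : PDat T ω) {n : ℕ} (f : SFun T n)
    (τ : Pl F →₀ ℤ) (t q : InfinitePlace F → ℝ), (∀ w, 0 < t w) → (∀ w, 0 < q w) →
    ∀ z : InfinitePlace F → ℂ,
    ∑' η : M, locA P f.sf τ η * gE T.δ t q z (jj σ η)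
      = (κ * jacG T.δ t z : ℝ) * cGlob P
        * ∑' y : M, locA P.inv f.hat τ y * gE T.δ (tJ t z) q (zJ t z) (jj σ y)
    ∧ Summable fun y : M => locA P.inv f.hat τ y * gE T.δ (tJ t z) q (zJ t z) (jj σ y) := by
  have hF := T.H.finrank
  have hσ := T.H.σ_ne
  -- Poisson summation for periodic functions
  obtain ⟨κ, hκ⟩ := exists_periodic_poisson hF hσ T.δ
  refine ⟨κ, fun {ω} P {n} f τ t q ht hq z => ?_⟩
  -- a modulus `D` deep enough for the data
  obtain ⟨D, hD, hb⟩ := exists_bigD P n τ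
  refine hκ hD _ _ (cGlob P) (periodic_locA f hb) (fun η => mem_gBox_of_locA_ne f hb) ?_
    (norm_locA_le P f.sf τ) (norm_locA_le P.inv f.hat τ) (fun y hy => ?_) (fun k => ?_) t q ht hq z
  · rw [relIndex_gBox hF hσ (lo := fun v => -dOrd M σ D v)
      (V := (finite_nontriv P n D τ).toFinset)
      (fun v => by
        have := dOrd_nonneg D v (σ := σ)
        simp only [Prod.fst_neg, Prod.snd_neg]; omega)
      (fun v => ⟨adm_neg (adm_dOrd hF hσ D v), adm_dOrd hF hσ D v⟩) fun v hv => by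
        have : Triv P n D τ v := by simpa using hv
        exact ⟨by rw [this.2.2.2, neg_zero], this.2.2.2⟩]
    exact (Finset.prod_pos fun v _ => boxCard_pos v _).ne'
  · -- the transform lives on the dual lattice
    obtain ⟨hE, hL⟩ := locT_ne_of_locA_ne P.inv hy
    refine exists_dualY_eq hF hσ T.δ hD fun l => ?_
    rw [← finprod_psi]
    refine finprod_eq_one_of_forall_eq_one fun v => ?_
    have hlv := mem_gBox.1 ((mem_gBox_dOrd hF hσ hD).2 ⟨l, rfl⟩) v
    by_cases hv : v ∈ T.S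
    · have hO : T.Orth n τ y := by
        change f.hatE τ y ≠ 0 at hE
        unfold SFun.hatE at hE
        split_ifs at hE with hh
        · exact hh.2
        · exact absurd rfl hE
      exact hO v hv _ (box_mono (big_S hv (hb v)).1.1 (big_S hv (hb v)).1.2 hlv)
    · exact psiD_pair_eq_one T.δ hF hσ hlv (locT_inv_supp hv (hb v) (hL v))
  -- the finite sum: the characters are trivial on the box
  · have hloc : ∀ v, ∀ l ∈ box σ v (dOrd M σ D v),
        psiD T.δ v (pair σ l (dualY σ T.δ D k)) = 1 :=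
      fun v l hl => psiD_eq_one_of_global hF hσ T.δ T.ramPl_finite hD
        (chiF_pair_dualY hF hσ T.δ hD k) v hl
    refine qsum_locA f hD hb (fun v _ => hloc v) fun v hv => ?_
    by_contra hn
    obtain ⟨l, hl, hne⟩ := exists_pair_psiD_ne T.δ hF hσ (fun h => absurd h (T.notMem_ramPl hv))
      (adm_dOrd hF hσ D v) hn
    exact hne (hloc v l hl)

end Fermat.LTG.Theta
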