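import Fermat.Agent.LTG.Theta.Expand

/-!
# Theta: the part of the series over the norms as a weighted sum over all of the extension

`phi1_eq` is the unfolding, with the term formula `term_eq` and the majorant `exists_mass_le`.
-/

set_option autoImplicit false

open NumberField MeasureTheory Filter Fermat.CFT
open scoped Classical ComplexConjugate Pointwise ENNReal

noncomputable section

namespace Fermat.LTG.Theta

open Fermat.LT Fermat.LT.Theta

variable {F M : Type} [Field F] [NumberField F] [IsTotallyComplex F] [Field M] [NumberField M]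
  [Algebra F M] [IsGalois F M] {σ : M ≃ₐ[F] M} {lam : Pl F → ℝ}

section Def

variable (T : Frame σ lam)

/-- The part over the norms. -/
def Frame.phi1 (c : Fˣ → ℂ) (p : Pt0 F) : ℂ :=
  ∑' n : normUnits F M, c n * T.finS n p.1 * archW T.dat n p.2

end Def

variable {T : Frame σ lam} {ω : FinPt0 F} (P : PDat T ω) (E : SF T) (x : InfinitePlace F → H3)

/-- The summand of the theta sum: `locA` times the Gaussian. -/
def thTerm (τ : Pl F →₀ ℤ) (u : InfinitePlace F → ℝ) (η : M) : ℂ :=
  locA P E τ η * gU σ (T.δ) (tOf x) (zOf x) η u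

/-- The sum over the units of `M`. -/
def thSum (τ : Pl F →₀ ℤ) (u : InfinitePlace F → ℝ) : ℂ := ∑' ξ : Mˣ, thTerm P E x τ u (ξ : M)

/-- The product of the finite constant and the archimedean constants. -/
def cTot : ℂ := cFin P * ((∏ w : InfinitePlace F, w (T.δ : F) * tOf x w : ℝ) : ℂ)

omit [IsGalois F M] in
/-- The product of the scaled heights is positive. -/
lemma prod_dlt_pos : 0 < ∏ w : InfinitePlace F, w (T.δ : F) * tOf x w :=
  Finset.prod_pos fun w _ => mul_pos (InfinitePlace.pos_iff.2 (T.δ).ne_zero) (tOf_pos x w)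

variable {P E x}

/-- A norm one multiplier shifts the exponent of the local factor. -/
lemma locT_mul (μ : nKer F M) (v : Pl F) (j : ℤ) (η : M) :
    locT P v j (((μ : Mˣ) : M) * η)
      = (T.chiV v ((μ : Mˣ) : M))⁻¹ * locT P v (j + CFT.ord (plOver M v) ((μ : Mˣ) : M)) η := by
  have hF := T.H.finrank
  have hσ := T.H.σ_ne
  set m := CFT.ord (plOver M v) ((μ : Mˣ) : M) with hm
  have hsum := ord_conj_of_norm_one hF hσ (norm_of_mem_nKer μ) v
  have hQ : CFT.ord (plConj σ v) ((μ : Mˣ) : M) = -m := by omega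
  have hm0 : IsNonsplit σ v → m = 0 := fun hns => by
    have := T.nonsplit_ord hns ((μ : Mˣ) : M)
    omega
  rw [locT, locT]
  by_cases hs : v ∈ T.S
  · rw [if_pos hs, if_pos hs, Frame.chiV, T.zw_of_mem hs, inv_one, one_mul]
  rw [if_neg hs, if_neg hs]
  have hN : Algebra.norm F (((μ : Mˣ) : M) * η) = Algebra.norm F η := by
    rw [map_mul, norm_of_mem_nKer, one_mul]
  have hc : IsNonsplit σ v ∧ j + m ≠ 0 ↔ IsNonsplit σ v ∧ j ≠ 0 :=
    and_congr_right fun hns => by rw [hm0 hns, add_zero]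
  rw [hN]
  by_cases h0 : IsNonsplit σ v ∧ j ≠ 0
  · rw [if_pos h0, if_pos (hc.2 h0), mul_zero]
  rw [if_neg h0, if_neg fun h => h0 (hc.1 h)]
  have hbox : ((μ : Mˣ) : M) * η ∈ box σ v (mBox P v j) ↔ η ∈ box σ v (mBox P v (j + m)) := by
    rcases eq_or_ne η 0 with rfl | hη
    · simp
    rw [mem_box_iff_ord (mul_ne_zero (Units.ne_zero _) hη), mem_box_iff_ord hη,
      CFT.ord_mul _ (Units.ne_zero _) hη, CFT.ord_mul _ (Units.ne_zero _) hη, hQ, ← hm]
    simp only [mBox]
    omega
  rw [Frame.chiV, if_congr hbox rfl rfl,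
    show ((j + m, -(j + m)) : ℤ × ℤ) = ordV σ v ((μ : Mˣ) : M) + (j, -j) by
      rw [ordV, ← hm, hQ, Prod.mk_add_mk]; congr 1 <;> ring, T.zw_add,
    mul_assoc (T.zw v (ordV σ v _)), inv_mul_cancel_left₀ (T.zw_ne_zero v _)]

/-- A norm one multiplier shifts the exponent vector of the product. -/
lemma locA_mul (μ : nKer F M) (τ : Pl F →₀ ℤ) (η : M) :
    locA P E τ (((μ : Mˣ) : M) * η) = locA P E (τ + ordT F ((μ : Mˣ) : M)) η := by
  set τ' := τ + ordT F ((μ : Mˣ) : M)
  set V := (vSet P (((μ : Mˣ) : M) * η) ∪ τ.support) ∪ (vSet P η ∪ τ'.support)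
    ∪ vSet P ((μ : Mˣ) : M)
  rw [locA_eq_prod P E τ _ (V := V) (Finset.subset_union_left.trans Finset.subset_union_left),
    locA_eq_prod P E τ' η (V := V) (Finset.subset_union_right.trans Finset.subset_union_left)]
  simp only [locT_mul]
  rw [Finset.prod_mul_distrib, Finset.prod_inv_distrib,
    T.prod_chiV _ fun v hv =>
      (of_notMem_vSet P fun h => hv (Finset.subset_union_right h)).ordV_eq,
    E.mul, ← mul_assoc, mul_comm (T.chS _) (E.E τ' η), mul_assoc (E.E τ' η),
    mul_inv_cancel₀ (T.chS_ne_zero _), mul_one]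
  rfl

/-- The summand is covariant under elements of norm one. -/
lemma thTerm_mul (μ : nKer F M) (τ : Pl F →₀ ℤ) (u : InfinitePlace F → ℝ) (η : M) :
    thTerm P E x τ u (((μ : Mˣ) : M) * η)
      = thTerm P E x (τ + ordT F ((μ : Mˣ) : M)) (u + logT ((μ : Mˣ) : M)) η := by
  rw [thTerm, thTerm, locA_mul, gU_mul T.H.finrank T.H.σ_ne _ _ _ (norm_of_mem_nKer μ)]

/-- The summand is measurable in the archimedean variable. -/
lemma measurable_thTerm (τ : Pl F →₀ ℤ) (η : M) : Measurable fun u => thTerm P E x τ u η :=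
  measurable_const.mul (continuous_gU _ _ _ _).measurable

/-- The summand vanishes off the summation set. -/
lemma thTerm_eq_zero {τ : Pl F →₀ ℤ} {ξ : Mˣ} (h : τ ∉ tSet P E (ξ : M)) (u : InfinitePlace F → ℝ) :
    thTerm P E x τ u (ξ : M) = 0 := by
  rw [thTerm, locA_eq_zero P E h, zero_mul]

/-- The archimedean coefficient at a norm, for any local data. -/
theorem archW_nrm {S : Set (Pl F)} (D : LDat S) (hF : Module.finrank F M = 2) (hσ : σ ≠ 1) (ξ : Mˣ)
    (x : InfinitePlace F → H3) :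
    archW D (nrm σ ξ) x
      = ((∏ w : InfinitePlace F, w (D.δ : F) * (H3.coord (x w)).2 : ℝ) : ℂ)
        * ((∏ w : InfinitePlace F, w (nrm σ ξ : F) : ℝ) : ℂ)
        * ∫ u, gU σ D.δ (fun w => (H3.coord (x w)).2) (fun w => (H3.coord (x w)).1) (ξ : M) u := by
  rw [integral_gU hF hσ D.δ _ ξ.ne_zero]
  simp only [archW, hW, archRho, Complex.ofReal_prod, ← Finset.prod_mul_distrib, coe_nrm]
  refine Finset.prod_congr rfl fun w _ => ?_
  rw [InfinitePlace.norm_embedding_eq, map_mul, map_mul,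
    show w (D.δ : F) * w (Algebra.norm F (ξ : M)) * (H3.coord (x w)).2
      = w (D.δ : F) * (H3.coord (x w)).2 * w (Algebra.norm F (ξ : M)) by ring]
  push_cast
  ring_nf

/-- **The term at a norm.** The term of the series at the norm of `ξ` is a constant times the sum
over exponents of the integrals of the theta terms at `ξ`. -/
theorem term_eq (ξ : Mˣ) :
    E.cv ξ * T.finS (nrm σ ξ) ω * archW T.dat (nrm σ ξ) x
      = cTot P x * ∑' τ : Pl F →₀ ℤ, ∫ u, thTerm P E x τ u (ξ : M) := by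
  have hpos : (∏ w : InfinitePlace F, w (nrm σ ξ : F)) ≠ 0 :=
    Finset.prod_ne_zero_iff.2 fun w _ => (InfinitePlace.pos_iff.2 (Units.ne_zero _)).ne'
  have hpos' : ((∏ w : InfinitePlace F, w (nrm σ ξ : F) : ℝ) : ℂ) ≠ 0 :=
    Complex.ofReal_ne_zero.2 hpos
  rw [tsum_eq_sum (s := tSet P E (ξ : M)) fun τ hτ => by simp [thTerm_eq_zero hτ]]
  simp only [thTerm, integral_const_mul, ← Finset.sum_mul]
  rw [finS_norm P E, archW_nrm T.dat T.H.finrank T.H.σ_ne, Complex.ofReal_inv, cTot,
    show T.dat.δ = T.δ from rfl]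
  set A := ((∏ w : InfinitePlace F, w (nrm σ ξ : F) : ℝ) : ℂ)
  change A⁻¹ * cFin P * _ * (_ * A * ∫ u, gU σ (T.δ) (tOf x) (zOf x) (ξ : M) u) = _
  field_simp
  unfold tOf zOf
  ring

/-- The total mass at `ξ`. -/
def massT (P : PDat T ω) (E : SF T) (x : InfinitePlace F → H3) (ξ : Mˣ) : ℝ≥0∞ :=
  ∑' τ : Pl F →₀ ℤ, ∫⁻ u, ‖thTerm P E x τ u (ξ : M)‖ₑ

/-- **The majorant of the masses.** The total masses at the elements of `M` are bounded by a
summable function of their norms. -/
theorem exists_mass_le : ∃ b : normUnits F M → ℝ, Summable b ∧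
    ∀ ξ : Mˣ, massT P E x ξ ≤ ENNReal.ofReal (b ⟨nrm σ ξ, ξ, rfl⟩) := by
  obtain ⟨N, hN, hsupp⟩ := exists_fracLat_of_tSet P E
  obtain ⟨t₀, ht₀, hx⟩ := exists_height_le x
  -- the scalar factors
  set Pd := ∏ w : InfinitePlace F, w (T.δ : F) * tOf x w
  have hPd : 0 < Pd := prod_dlt_pos x
  have hc : 0 < ‖cFin P‖ := norm_pos_iff.2 (cFin_ne_zero P)
  refine ⟨fun n => E.B * SF.kS T E.C * ((Pd * ‖cFin P‖)⁻¹ * major T.dat N t₀ n),
    (((summable_major T.dat hN ht₀).comp_injective Subtype.val_injective).mul_left _).mul_left _,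
    fun ξ => ?_⟩
  have hB := E.B_nonneg
  have hK := SF.kS_nonneg T E.C
  set Af := ∏ w : InfinitePlace F, archF (w (T.δ : F) * tOf x w * w (Algebra.norm F (ξ : M)))
  have hAf : 0 ≤ Af := Finset.prod_nonneg fun w _ => archF_nonneg _
  -- factor the mass and bound each part
  calc massT P E x ξ = ∑ τ ∈ tSet P E (ξ : M), ∫⁻ u, ‖thTerm P E x τ u (ξ : M)‖ₑ :=
        tsum_eq_sum fun τ hτ => by simp [thTerm_eq_zero hτ]
    _ ≤ ∑ _τ ∈ tSet P E (ξ : M),
        ENNReal.ofReal E.B * ∫⁻ u, ‖gU σ (T.δ) (tOf x) (zOf x) (ξ : M) u‖ₑ := by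
        refine Finset.sum_le_sum fun τ _ => ?_
        rw [← lintegral_const_mul' _ _ ENNReal.ofReal_ne_top]
        refine lintegral_mono fun u => ?_
        dsimp only
        rw [thTerm, enorm_mul]
        refine mul_le_mul_left ?_ _
        rw [← ofReal_norm]
        exact ENNReal.ofReal_le_ofReal (norm_locA_le P E τ _)
    _ = ENNReal.ofReal (E.B * ((tSet P E (ξ : M)).card * Af)) := by
        rw [Finset.sum_const, lintegral_norm_gU T.H.finrank T.H.σ_ne _ _ ξ.ne_zero (tOf_pos x),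
          nsmul_eq_mul,
          ENNReal.ofReal_mul hB, ENNReal.ofReal_mul (Nat.cast_nonneg _), ENNReal.ofReal_natCast,
          mul_left_comm]
    _ ≤ _ := by
      refine ENNReal.ofReal_le_ofReal ?_
      rcases (tSet P E (ξ : M)).eq_empty_or_nonempty with he | hne
      · rw [he, Finset.card_empty, Nat.cast_zero, zero_mul, mul_zero]
        exact mul_nonneg (mul_nonneg hB hK)
          (mul_nonneg (inv_nonneg.2 (mul_nonneg hPd.le hc.le)) (major_nonneg _ _ _ _))
      dsimp only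
      rw [mul_assoc E.B]
      refine mul_le_mul_of_nonneg_left ?_ hB
      rw [mul_left_comm]
      rw [major, Set.indicator_of_mem
        (show nrm σ ξ ∈ {α : Fˣ | (T.dat.δ : F) * α ∈ fracLat (F := F) N} from hsupp ξ hne)]
      have h1 := norm_archW_le T.dat (nrm σ ξ) hx
      set Pn := ∏ w : InfinitePlace F, w (nrm σ ξ : F)
      have hPn : 0 < Pn := Finset.prod_pos fun w _ => InfinitePlace.pos_iff.2 (Units.ne_zero _)
      have h2 : ‖archW T.dat (nrm σ ξ) x‖ = Pd * Pn * Af := by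
        rw [archW_nrm T.dat T.H.finrank T.H.σ_ne, show T.dat.δ = T.δ from rfl,
          integral_gU T.H.finrank T.H.σ_ne _ _ ξ.ne_zero, norm_mul, norm_mul,
          norm_mul, norm_prod, Finset.prod_eq_one (fun w _ => norm_eC _), one_mul,
            Complex.norm_real,
          Complex.norm_real, Complex.norm_real]
        simp only [Pd, Pn, Af, tOf] at *
        rw [Real.norm_of_nonneg hPd.le, Real.norm_of_nonneg hPn.le, Real.norm_of_nonneg hAf]
      rw [h2] at h1
      have h3 := norm_cFin_mul_card_le P E ξ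
      rw [inv_mul_eq_div, le_div_iff₀ (mul_pos hPd hc)]
      calc ((tSet P E (ξ : M)).card : ℝ) * Af * (Pd * ‖cFin P‖)
          = (Pn⁻¹ * ‖cFin P‖ * (tSet P E (ξ : M)).card) * (Pd * Pn * Af) := by field_simp
        _ ≤ _ := (mul_le_mul h3 h1 (mul_nonneg (mul_nonneg hPd.le hPn.le) hAf)
            (mul_nonneg hK (wBound_pos _).le)).trans_eq (mul_assoc _ _ _)

variable (P E x) in
/-- **Unfolding.** The part `phi1` of the series over the norms is the weighted sum of the theta
sums over all of `M`, with the convergence of both. -/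
theorem phi1_eq :
    T.phi1 E.cf (ω, x) = cTot P x * ∑' τ : Pl F →₀ ℤ, ∫ u, (wt M τ u : ℂ) * thSum P E x τ u
    ∧ (Summable fun τ : Pl F →₀ ℤ => ∫ u, (wt M τ u : ℂ) * thSum P E x τ u)
    ∧ ∀ τ : Pl F →₀ ℤ, Integrable fun u => (wt M τ u : ℂ) * thSum P E x τ u := by
  obtain ⟨b, hb, hle⟩ := exists_mass_le (P := P) (E := E) (x := x)
  have hex : ∀ n : normUnits F M, ∃ ξ : Mˣ, nrm σ ξ = n.1 := fun n => n.2
  set sec := fun n : normUnits F M => (hex n).choose
  have hnrm : ∀ n, nrm σ (sec n) = n.1 := fun n => (hex n).choose_spec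
  obtain ⟨h, hs, hi⟩ := unfold_norms T.H.finrank T.H.σ_ne (f := thTerm P E x) measurable_thTerm
    thTerm_mul b hb hle sec hnrm
  refine ⟨?_, hs, hi⟩
  simp only [thSum]
  rw [← h, ← tsum_mul_left, Frame.phi1]
  exact tsum_congr fun n => by
    rw [SF.cf, dif_pos (hex n), ← term_eq (sec n), hnrm n]

end Fermat.LTG.Theta
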